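import Fermat.Agent.LR.CSP.Par

/-!
# CSP for `Γ(M)[1/q]`: the seams (exact statements of the lemmas of finding #2684)

Each lemma of the paper proof is stated here as a `Prop`; the cells prove
`theorem … : csp_…_stmt` (possibly from earlier seams as hypotheses).
-/

set_option autoImplicit false

universe u

namespace Fermat.Agent.LR

/-- An integral matrix of determinant one. -/
def csp_ofInt (a b c d : ℤ) (h : a * d - b * c = 1) : CspM :=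
  ⟨a, b, c, d, by exact_mod_cast h⟩

@[simp] theorem csp_ofInt_a (a b c d : ℤ) (h : a * d - b * c = 1) : (csp_ofInt a b c d h).a = a := rfl
@[simp] theorem csp_ofInt_b (a b c d : ℤ) (h : a * d - b * c = 1) : (csp_ofInt a b c d h).b = b := rfl
@[simp] theorem csp_ofInt_c (a b c d : ℤ) (h : a * d - b * c = 1) : (csp_ofInt a b c d h).c = c := rfl
@[simp] theorem csp_ofInt_d (a b c d : ℤ) (h : a * d - b * c = 1) : (csp_ofInt a b c d h).d = d := rfl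

/-- The torus element `D(q) = diag(q, 1/q)`. -/
def csp_Dq (q : ℕ) (hq : q ≠ 0) : CspM := csp_D (q : ℚ) (by exact_mod_cast hq)

/-- `m = q² - 1`. -/
def csp_m (q : ℕ) : ℤ := (q : ℤ) ^ 2 - 1

/-- "Level OK": `M` odd or `4 ∣ M`. -/
def csp_LevelOK (M : ℤ) : Prop := ¬ (2 : ℤ) ∣ M ∨ (4 : ℤ) ∣ M

/-- The target group has no prime-to-`p` torsion (e.g. a `ZMod p`-module). -/
def csp_PTors (p : ℕ) (V : Type u) [AddCommGroup V] : Prop :=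
  ∀ (n : ℕ) (v : V), Nat.Coprime n p → n • v = 0 → v = 0

/-- NORM: a parabolic hom vanishing on the integral matrices of `Γ(M)` vanishes on `Γ(M)`. -/
def csp_Norm_stmt : Prop :=
  ∀ (q : ℕ) (M : ℤ), q.Prime → 1 < M → IsCoprime M (q : ℤ) →
  ∀ {V : Type u} [AddCommGroup V] (Ψ : CspM → V), csp_IsPar q M Ψ →
    (∀ (a b c d : ℤ) (h : a * d - b * c = 1), csp_ofInt a b c d h ∈ csp_Gam q M →
      Ψ (csp_ofInt a b c d h) = 0) →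
    ∀ g, g ∈ csp_Gam q M → Ψ g = 0

/-- L1: restriction `V_M → V_{M'}` is injective. -/
def csp_L1_stmt : Prop :=
  ∀ (q : ℕ) (M M' : ℤ), q.Prime → 1 < M → M ∣ M' → 0 < M' → IsCoprime M' (q : ℤ) →
  ∀ {V : Type u} [AddCommGroup V] (Ψ : CspM → V), csp_IsPar q M Ψ →
    (∀ g, g ∈ csp_Gam q M' → Ψ g = 0) → ∀ g, g ∈ csp_Gam q M → Ψ g = 0

/-- L2: `D(q)`-invariance (Serre's trick). -/
def csp_L2_stmt : Prop :=
  ∀ (q : ℕ) (M : ℤ) (hq : q.Prime), 2 < M → IsCoprime M (q : ℤ) → csp_LevelOK M →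
  ∀ {V : Type u} [AddCommGroup V] (Ψ : CspM → V), csp_IsPar q M Ψ →
    ∀ g, g ∈ csp_Gam q M →
      Ψ (csp_Dq q hq.ne_zero * g * (csp_Dq q hq.ne_zero)⁻¹) = Ψ g

/-- L3: weak invariance under `e12(t)`, `e21(t)`, `t ∈ (1/r)ℤ[1/q]`. -/
def csp_L3_stmt : Prop :=
  ∀ (q : ℕ) (M r : ℤ), q.Prime → 2 < M → IsCoprime M (q : ℤ) → csp_LevelOK M →
    0 < r → IsCoprime r (q : ℤ) →
  ∀ {V : Type u} [AddCommGroup V] (Ψ : CspM → V), csp_IsPar q M Ψ →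
  ∀ t : ℚ, (r : ℚ) * t ∈ csp_A q →
    ∀ g, g ∈ csp_Gam q (M * (r * csp_m q) ^ 4) →
      (csp_e12 t * g * (csp_e12 t)⁻¹ ∈ csp_Gam q M ∧
        Ψ (csp_e12 t * g * (csp_e12 t)⁻¹) = Ψ g) ∧
      (csp_e21 t * g * (csp_e21 t)⁻¹ ∈ csp_Gam q M ∧
        Ψ (csp_e21 t * g * (csp_e21 t)⁻¹) = Ψ g)

/-- L4: strong invariance under `e12(t)`, `e21(t)`, `t ∈ ℤ[1/q]` (centrality). -/
def csp_L4_stmt : Prop :=
  ∀ (q : ℕ) (M : ℤ), q.Prime → 2 < M → IsCoprime M (q : ℤ) → csp_LevelOK M →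
  ∀ {V : Type u} [AddCommGroup V] (Ψ : CspM → V), csp_IsPar q M Ψ →
  ∀ t : ℚ, t ∈ csp_A q → ∀ g, g ∈ csp_Gam q M →
    Ψ (csp_e12 t * g * (csp_e12 t)⁻¹) = Ψ g ∧ Ψ (csp_e21 t * g * (csp_e21 t)⁻¹) = Ψ g

/-- POW: for `u` prime, `u ≠ q`, `u ∤ M`: `x ∈ Γ(M)`, `u ∣ x.c` ⟹ `x^((u-1)u⁴) ∈ Γ(M u⁴)`. -/
def csp_Pow_stmt : Prop :=
  ∀ (q u : ℕ) (M : ℤ), q.Prime → u.Prime → u ≠ q → 0 < M → IsCoprime M (u : ℤ) →
    ∀ x, x ∈ csp_Gam q M → x.c ∈ csp_I q (u : ℤ) →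
      x ^ ((u - 1) * u ^ 4) ∈ csp_Gam q (M * (u : ℤ) ^ 4)

/-- L5: strong invariance under `D(u)` on `Γ(M) ∩ Γ₀(u²)`. -/
def csp_L5_stmt : Prop :=
  ∀ (q p u : ℕ) (M : ℤ), q.Prime → p.Prime → u.Prime → 2 < M → IsCoprime M (q : ℤ) →
    csp_LevelOK M → u ≠ q → u ≠ p → ¬ (p ∣ u - 1) → IsCoprime M (u : ℤ) →
  ∀ {V : Type u} [AddCommGroup V], csp_PTors p V →
  ∀ (Ψ : CspM → V), csp_IsPar q M Ψ → ∀ (hu : (u : ℚ) ≠ 0),
    ∀ x, x ∈ csp_Gam q M → csp_D (u : ℚ) hu * x * (csp_D (u : ℚ) hu)⁻¹ ∈ csp_Gam q M →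
      Ψ (csp_D (u : ℚ) hu * x * (csp_D (u : ℚ) hu)⁻¹) = Ψ x

/-- MAIN (finding #2684): `V_M = 0` for `p` odd. -/
def csp_Main_stmt : Prop :=
  ∀ (q p : ℕ) (M : ℤ), q.Prime → p.Prime → p ≠ 2 → 1 < M → IsCoprime M (q : ℤ) →
  ∀ {V : Type u} [AddCommGroup V], csp_PTors p V →
  ∀ (Ψ : CspM → V), csp_IsPar q M Ψ → ∀ g, g ∈ csp_Gam q M → Ψ g = 0

/-- `Γ₀(N)[1/q]`. -/
def csp_Gam0 (q : ℕ) (N : ℤ) : Subgroup CspM where
  carrier := {g | g ∈ csp_GamA q ∧ g.c ∈ csp_I q N}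
  mul_mem' := by
    rintro g h ⟨hg, gc⟩ ⟨hh, hc⟩
    refine ⟨mul_mem hg hh, ?_⟩
    obtain ⟨_, _, _, gd⟩ := csp_GamA_mem_iff.1 hg
    obtain ⟨ha, _, _, _⟩ := csp_GamA_mem_iff.1 hh
    simp only [CspM.mul_c]
    exact add_mem (csp_I_mul_right gc ha) (csp_I_mul_left gd hc)
  one_mem' := ⟨one_mem _, by simp [zero_mem]⟩
  inv_mem' := by
    rintro g ⟨hg, gc⟩
    exact ⟨inv_mem hg, by simpa using neg_mem gc⟩

/-- COROLLARY (X): a hom on `Γ₀(N)[1/q]` killing unipotents only depends on `a mod N`. -/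
def csp_X_stmt : Prop :=
  ∀ (q p : ℕ) (N : ℤ), q.Prime → p.Prime → p ≠ 2 → 1 < N → IsCoprime N (q : ℤ) →
  ∀ {V : Type u} [AddCommGroup V], csp_PTors p V →
  ∀ (Φ : CspM → V),
    (∀ g h, g ∈ csp_Gam0 q N → h ∈ csp_Gam0 q N → Φ (g * h) = Φ g + Φ h) →
    (∀ g, g ∈ csp_Gam0 q N → g.a + g.d = 2 → Φ g = 0) →
    ∀ g h, g ∈ csp_Gam0 q N → h ∈ csp_Gam0 q N → g.a - h.a ∈ csp_I q N → Φ g = Φ h

end Fermat.Agent.LR
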