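/-
LR / S41, node [CSP-ARITH] (helper16), part 1: Dirichlet + CRT bookkeeping used by helper13's
elementary proof of (X) (findings #2684): primes in a progression with one or two extra
congruence conditions, the "two coprime periods" lemma, and the prime `π` of step L2 with
`(π - 1) / 2` odd and prime to `e`.  Mathlib only.  Prefix `lrca_`.
-/
import Mathlib

set_option autoImplicit false

namespace Fermat.Agent.LR

/-- Dirichlet with two coprime moduli. -/
theorem lrca_exists_prime_two {m₁ m₂ : ℕ} (h₁ : m₁ ≠ 0) (h₂ : m₂ ≠ 0) (hc : m₁.Coprime m₂)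
    {a₁ a₂ : ℕ} (ha₁ : a₁.Coprime m₁) (ha₂ : a₂.Coprime m₂) (B : ℕ) :
    ∃ π > B, π.Prime ∧ π ≡ a₁ [MOD m₁] ∧ π ≡ a₂ [MOD m₂] := by
  obtain ⟨k, hk₁, hk₂⟩ := Nat.chineseRemainder hc a₁ a₂
  have hk : k.Coprime (m₁ * m₂) := by
    apply Nat.Coprime.mul_right
    · have := hk₁.gcd_eq
      unfold Nat.Coprime at *
      rw [this]; exact ha₁
    · have := hk₂.gcd_eq
      unfold Nat.Coprime at *
      rw [this]; exact ha₂
  obtain ⟨π, hB, hp, hπ⟩ := Nat.forall_exists_prime_gt_and_modEq B (mul_ne_zero h₁ h₂) hk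
  exact ⟨π, hB, hp, (hπ.of_mul_right m₂).trans hk₁, (hπ.of_mul_left m₁).trans hk₂⟩

/-- Dirichlet with three pairwise coprime moduli. -/
theorem lrca_exists_prime_three {m₁ m₂ m₃ : ℕ} (h₁ : m₁ ≠ 0) (h₂ : m₂ ≠ 0) (h₃ : m₃ ≠ 0)
    (h12 : m₁.Coprime m₂) (h13 : m₁.Coprime m₃) (h23 : m₂.Coprime m₃)
    {a₁ a₂ a₃ : ℕ} (ha₁ : a₁.Coprime m₁) (ha₂ : a₂.Coprime m₂) (ha₃ : a₃.Coprime m₃) (B : ℕ) :
    ∃ π > B, π.Prime ∧ π ≡ a₁ [MOD m₁] ∧ π ≡ a₂ [MOD m₂] ∧ π ≡ a₃ [MOD m₃] := by
  obtain ⟨k, hk₂, hk₃⟩ := Nat.chineseRemainder h23 a₂ a₃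
  have hk : k.Coprime (m₂ * m₃) := by
    apply Nat.Coprime.mul_right
    · have := hk₂.gcd_eq
      unfold Nat.Coprime at *
      rw [this]; exact ha₂
    · have := hk₃.gcd_eq
      unfold Nat.Coprime at *
      rw [this]; exact ha₃
  obtain ⟨π, hB, hp, hπ₁, hπ⟩ := lrca_exists_prime_two h₁ (mul_ne_zero h₂ h₃)
    (Nat.Coprime.mul_right h12 h13) ha₁ hk B
  exact ⟨π, hB, hp, hπ₁, (hπ.of_mul_right m₃).trans hk₂, (hπ.of_mul_left m₂).trans hk₃⟩

/-- A function on `ℤ` with two coprime periods is constant. -/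
theorem lrca_two_periods {X : Type*} (f : ℤ → X) {k e : ℤ} (hk : ∀ j, f (j + k) = f j)
    (he : ∀ j, f (j + e) = f j) (hke : IsCoprime k e) (j : ℤ) : f j = f 0 := by
  have hk' : ∀ (n : ℤ) (j : ℤ), f (j + n * k) = f j := by
    intro n
    induction n using Int.induction_on with
    | zero => intro j; simp
    | succ n ih =>
      intro j
      have : j + ((n : ℤ) + 1) * k = (j + n * k) + k := by ring
      rw [this, hk, ih]
    | pred n ih =>
      intro j
      have h1 := hk (j + (-(n : ℤ) - 1) * k)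
      have : j + (-(n : ℤ) - 1) * k + k = j + (-(n : ℤ)) * k := by ring
      rw [this] at h1
      rw [← h1, ih]
  have he' : ∀ (n : ℤ) (j : ℤ), f (j + n * e) = f j := by
    intro n
    induction n using Int.induction_on with
    | zero => intro j; simp
    | succ n ih =>
      intro j
      have : j + ((n : ℤ) + 1) * e = (j + n * e) + e := by ring
      rw [this, he, ih]
    | pred n ih =>
      intro j
      have h1 := he (j + (-(n : ℤ) - 1) * e)
      have : j + (-(n : ℤ) - 1) * e + e = j + (-(n : ℤ)) * e := by ring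
      rw [this] at h1
      rw [← h1, ih]
  obtain ⟨x, y, hxy⟩ := hke
  have : j = 0 + (j * x) * k + (j * y) * e := by
    have : j = j * (x * k + y * e) := by rw [hxy, mul_one]
    linarith [this]
  rw [this, he', hk']

end Fermat.Agent.LR
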