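/-
LR / S41, node [CSP-ARITH] (helper16), part 3: the primes `a` and `u` of the inversion trick in
helper13's proof of (X) (findings #2684): `a = z mod m1`, `a = 1 mod 4`; `u = 2 mod p` with
`a | 1 + u^2 c^2`.  Prefix `lrca_`.
-/
import Mathlib
import Fermat.Agent.LR.CSP.ArithDirichlet

set_option autoImplicit false

namespace Fermat.Agent.LR

/-- A prime `a ≡ z mod m₁` with `a ≡ 1 mod 4` (inversion trick of #2684, choice of `a`). -/
theorem lrca_prime_one_mod_four {m₁ : ℕ} (hm₁ : m₁ ≠ 0) {z : ℕ} (hz : z.Coprime m₁)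
    (h4 : Odd m₁ ∨ (4 ∣ m₁ ∧ z % 4 = 1)) (B : ℕ) :
    ∃ a > B, a.Prime ∧ a ≡ z [MOD m₁] ∧ a % 4 = 1 := by
  rcases h4 with hodd | ⟨h4m, hz4⟩
  · have hm4 : m₁.Coprime 4 := by
      have : m₁.Coprime 2 := by
        rw [Nat.coprime_comm, Nat.Prime.coprime_iff_not_dvd Nat.prime_two]
        intro h
        exact (Nat.not_even_iff_odd.2 hodd) (even_iff_two_dvd.2 h)
      have : m₁.Coprime (2 ^ 2) := Nat.Coprime.pow_right 2 this
      simpa using this
    obtain ⟨a, hB, hp, h1, h2⟩ := lrca_exists_prime_two hm₁ (by norm_num : (4 : ℕ) ≠ 0) hm4 hz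
      (by norm_num : Nat.Coprime 1 4) B
    refine ⟨a, hB, hp, h1, ?_⟩
    have := h2
    unfold Nat.ModEq at this
    omega
  · obtain ⟨a, hB, hp, h1⟩ := Nat.forall_exists_prime_gt_and_modEq B hm₁ hz
    refine ⟨a, hB, hp, h1, ?_⟩
    have := h1.of_dvd h4m
    unfold Nat.ModEq at this
    omega

/-- Inversion trick of #2684, choice of `u`: for a prime `a ≡ 1 mod 4`, a prime `p ≠ 2, a` and an
integer `c` prime to `a` there is a large prime `u ≡ 2 mod p` with `a ∣ 1 + u² c²`. -/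
theorem lrca_prime_u {a p : ℕ} (ha : a.Prime) (hp : p.Prime) (hap : a ≠ p) (hp2 : p ≠ 2)
    (ha4 : a % 4 = 1) {c : ℕ} (hac : ¬ a ∣ c) (B : ℕ) :
    ∃ u > B, u.Prime ∧ u ≡ 2 [MOD p] ∧ a ∣ 1 + u ^ 2 * c ^ 2 := by
  have : Fact a.Prime := ⟨ha⟩
  have hsq : IsSquare (-1 : ZMod a) := ZMod.exists_sq_eq_neg_one_iff.2 (by omega)
  obtain ⟨i, hi⟩ := hsq
  have hc0 : (c : ZMod a) ≠ 0 := by
    intro h
    exact hac ((ZMod.natCast_eq_zero_iff _ _).1 h)
  set y : ZMod a := i * (c : ZMod a)⁻¹ with hy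
  have hi0 : i ≠ 0 := by
    intro h
    rw [h, mul_zero] at hi
    exact neg_ne_zero.2 one_ne_zero hi
  have hy0 : y ≠ 0 := mul_ne_zero hi0 (inv_ne_zero hc0)
  have hyval : (y.val).Coprime a := by
    rw [Nat.coprime_comm, Nat.Prime.coprime_iff_not_dvd ha]
    intro h
    apply hy0
    have := (ZMod.natCast_eq_zero_iff _ _).2 h
    rwa [ZMod.natCast_zmod_val] at this
  have h2p : Nat.Coprime 2 p := by
    rw [Nat.coprime_primes Nat.prime_two hp]
    exact fun h => hp2 h.symm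
  obtain ⟨u, hB, hu, hua, hup⟩ := lrca_exists_prime_two ha.ne_zero hp.ne_zero
    ((Nat.coprime_primes ha hp).2 hap) hyval h2p B
  refine ⟨u, hB, hu, hup, ?_⟩
  have huy : (u : ZMod a) = y := by
    have := (ZMod.natCast_eq_natCast_iff _ _ _).2 hua
    rwa [ZMod.natCast_zmod_val] at this
  rw [← ZMod.natCast_eq_zero_iff]
  push_cast
  rw [huy, hy]
  have : (i * (c : ZMod a)⁻¹) ^ 2 * (c : ZMod a) ^ 2 = i * i := by
    field_simp
  rw [this, ← hi]
  ring

end Fermat.Agent.LR
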