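/-
LR / S41, node [CSP-ARITH] (helper16), part 2: the prime `pi` of step L2 of helper13's proof of (X)
(findings #2684): `pi = z mod m0`, `pi = 3 mod 4`, `(pi - 1) / 2` prime to `e`.  Prefix `lrca_`.
-/
import Mathlib
import Fermat.Agent.LR.CSP.ArithDirichlet

set_option autoImplicit false

namespace Fermat.Agent.LR

/-- The auxiliary modulus of step L2: the product of the odd primes `l ∣ e` with `l ∤ m₀`. -/
def lrca_L (m₀ e : ℕ) : ℕ := ∏ l ∈ e.primeFactors.filter (fun l => l ≠ 2 ∧ ¬ l ∣ m₀), l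

theorem lrca_L_ne_zero (m₀ e : ℕ) : lrca_L m₀ e ≠ 0 := by
  unfold lrca_L
  rw [Finset.prod_ne_zero_iff]
  intro l hl
  exact (Nat.prime_of_mem_primeFactors (Finset.mem_filter.1 hl).1).ne_zero

theorem lrca_L_coprime_left (m₀ e : ℕ) : (lrca_L m₀ e).Coprime m₀ := by
  unfold lrca_L
  apply Nat.Coprime.prod_left
  intro l hl
  have h := Finset.mem_filter.1 hl
  exact (Nat.Prime.coprime_iff_not_dvd (Nat.prime_of_mem_primeFactors h.1)).2 h.2.2

theorem lrca_L_coprime_two (m₀ e : ℕ) : (lrca_L m₀ e).Coprime 2 := by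
  unfold lrca_L
  apply Nat.Coprime.prod_left
  intro l hl
  have h := Finset.mem_filter.1 hl
  have hp := Nat.prime_of_mem_primeFactors h.1
  rw [Nat.coprime_primes hp Nat.prime_two]
  exact h.2.1

theorem lrca_dvd_L {m₀ e l : ℕ} (hl : l.Prime) (he : e ≠ 0) (hle : l ∣ e) (h2 : l ≠ 2)
    (hm : ¬ l ∣ m₀) : l ∣ lrca_L m₀ e := by
  unfold lrca_L
  apply Finset.dvd_prod_of_mem
  rw [Finset.mem_filter]
  exact ⟨Nat.mem_primeFactors.2 ⟨hl, hle, he⟩, h2, hm⟩

/-- The prime `π` of step L2 of #2684: `π ≡ z mod m₀`, `π ≡ 3 mod 4`, and `k = (π - 1) / 2` is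
prime to `e` (it is odd because `π ≡ 3 mod 4`). -/
theorem lrca_L2_prime {m₀ : ℕ} (hm₀ : m₀ ≠ 0) {z : ℕ} (hz : z.Coprime m₀) {e : ℕ} (he : e ≠ 0)
    (h4 : Odd m₀ ∨ (4 ∣ m₀ ∧ z % 4 = 3))
    (hl : ∀ l : ℕ, l.Prime → l ≠ 2 → l ∣ e → l ∣ m₀ → ¬ z ≡ 1 [MOD l]) (B : ℕ) :
    ∃ π > B, π.Prime ∧ π ≡ z [MOD m₀] ∧ π % 4 = 3 ∧ ((π - 1) / 2).Coprime e := by
  set L := lrca_L m₀ e with hL
  have hL0 : L ≠ 0 := lrca_L_ne_zero m₀ e
  have hLm : L.Coprime m₀ := lrca_L_coprime_left m₀ e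
  have hL2 : L.Coprime 2 := lrca_L_coprime_two m₀ e
  have h2L : Nat.Coprime 2 L := hL2.symm
  -- get π with the three congruences
  have key : ∃ π > B, π.Prime ∧ π ≡ z [MOD m₀] ∧ π % 4 = 3 ∧ π ≡ 2 [MOD L] := by
    rcases h4 with hodd | ⟨h4m, hz4⟩
    · have hm4 : m₀.Coprime 4 := by
        have : m₀.Coprime 2 := by
          rw [Nat.coprime_comm, Nat.Prime.coprime_iff_not_dvd Nat.prime_two]
          intro h
          exact (Nat.not_even_iff_odd.2 hodd) (even_iff_two_dvd.2 h)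
        have : m₀.Coprime (2 ^ 2) := Nat.Coprime.pow_right 2 this
        simpa using this
      have h4L : Nat.Coprime 4 L := by
        have : Nat.Coprime (2 ^ 2) L := Nat.Coprime.pow_left 2 h2L
        simpa using this
      obtain ⟨π, hB, hp, h1, h2, h3⟩ := lrca_exists_prime_three hm₀ (by norm_num : (4 : ℕ) ≠ 0) hL0
        hm4 hLm.symm h4L hz (by norm_num : Nat.Coprime 3 4) h2L B
      refine ⟨π, hB, hp, h1, ?_, h3⟩
      have := h2
      unfold Nat.ModEq at this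
      omega
    · obtain ⟨π, hB, hp, h1, h3⟩ := lrca_exists_prime_two hm₀ hL0 hLm.symm hz h2L B
      refine ⟨π, hB, hp, h1, ?_, h3⟩
      have := h1.of_dvd h4m
      unfold Nat.ModEq at this
      omega
  obtain ⟨π, hB, hp, h1, h4', h3⟩ := key
  refine ⟨π, hB, hp, h1, h4', ?_⟩
  apply Nat.coprime_of_dvd
  intro l hlp hlk hle
  have hπ1 : (π - 1) / 2 * 2 = π - 1 := by omega
  have hlπ : l ∣ π - 1 := by
    rw [← hπ1]; exact Dvd.dvd.mul_right hlk 2
  by_cases h2 : l = 2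
  · subst h2
    omega
  · by_cases hm : l ∣ m₀
    · have hπz : π ≡ z [MOD l] := h1.of_dvd hm
      have hπ1' : π ≡ 1 [MOD l] := ((Nat.modEq_iff_dvd' hp.one_lt.le).2 hlπ).symm
      exact hl l hlp h2 hle hm (hπz.symm.trans hπ1')
    · have hlL : l ∣ L := lrca_dvd_L hlp he hle h2 hm
      have hπ2 : π ≡ 2 [MOD l] := h3.of_dvd hlL
      have hπ2' : l ∣ π - 2 := (Nat.modEq_iff_dvd' hp.two_le).1 hπ2.symm
      have : l ∣ 1 := by
        have h := Nat.dvd_sub hlπ hπ2'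
        have e1 : π - 1 - (π - 2) = 1 := by have := hp.two_le; omega
        rwa [e1] at h
      have := Nat.le_of_dvd (by norm_num) this
      have := hlp.two_le
      omega

end Fermat.Agent.LR
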