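/-
LR / S41, node [X-ARITH] (helper16), part 5: the arithmetic inputs of helper13's proof of (X)
(findings #2684 / plan #2702) in the integer shapes requested by the matrix cells:
(A1) `lrca_A1`, (A2) `lrca_A2`, (A3) `lrca_A3a`, `lrca_A3b`, (A5) `lrca_A5`, `lrca_A5_inv`.
Mathlib + the `lrca_` files only.
-/
import Mathlib
import Fermat.Agent.LR.CSP.ArithL2
import Fermat.Agent.LR.CSP.ArithInv

set_option autoImplicit false

namespace Fermat.Agent.LR

/-- (A1) Dirichlet: a large prime in the class of `c₁` modulo `a`. -/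
theorem lrca_A1 {a c₁ : ℤ} (ha : a ≠ 0) (hac : IsCoprime a c₁) (B : ℕ) :
    ∃ πc : ℕ, πc.Prime ∧ B < πc ∧ (πc : ℤ) ≡ c₁ [ZMOD a] := by
  have hq : a.natAbs ≠ 0 := Int.natAbs_ne_zero.2 ha
  have hcop : IsCoprime c₁ (a.natAbs : ℤ) := by
    rcases Int.natAbs_eq a with h | h
    · rw [← h]; exact hac.symm
    · have : (a.natAbs : ℤ) = -a := by omega
      rw [this]; exact hac.symm.neg_right
  obtain ⟨p, hB, hp, hmod⟩ := Nat.forall_exists_prime_gt_and_zmodEq B hq hcop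
  refine ⟨p, hp, hB, ?_⟩
  rw [Int.modEq_iff_dvd] at hmod ⊢
  exact Int.natAbs_dvd.1 hmod

/-- the residue of an integer modulo a positive natural number, as a natural number -/
theorem lrca_toNat_modEq (x : ℤ) {m : ℕ} (hm : m ≠ 0) :
    ((x % (m : ℤ)).toNat : ℤ) ≡ x [ZMOD m] := by
  have hm' : (m : ℤ) ≠ 0 := by exact_mod_cast hm
  rw [Int.toNat_of_nonneg (Int.emod_nonneg x hm')]
  exact Int.mod_modEq x m

/-- coprimality is invariant in a residue class -/
theorem lrca_isCoprime_of_modEq {x y m : ℤ} (h : x ≡ y [ZMOD m]) (hy : IsCoprime y m) :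
    IsCoprime x m := by
  obtain ⟨k, hk⟩ := Int.modEq_iff_dvd.1 h
  have : x = y + m * (-k) := by linarith
  rw [this]
  exact (IsCoprime.add_mul_left_left_iff).2 hy

/-- common bookkeeping for (A2), (A3): `a ≡ 1 mod M` and `|a| + 1 < πc` give
`gcd(a, M² πc) = 1`. -/
theorem lrca_coprime_modulus {M a : ℤ} (haM : a ≡ 1 [ZMOD M]) {πc : ℕ} (hπc : πc.Prime)
    (hπa : a.natAbs + 1 < πc) (ha0 : a ≠ 0) : IsCoprime a (M * M * (πc : ℤ)) := by
  have haM' : IsCoprime a M := by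
    obtain ⟨k, hk⟩ := Int.modEq_iff_dvd.1 haM
    exact ⟨1, k, by linarith⟩
  have haπ : IsCoprime a (πc : ℤ) := by
    rw [isCoprime_comm, Int.isCoprime_iff_gcd_eq_one]
    have hdvd : ¬ (πc : ℤ) ∣ a := by
      intro h
      have h1 : πc ∣ a.natAbs := by
        have := Int.natAbs_dvd_natAbs.2 h
        simpa using this
      have h2 := Nat.le_of_dvd (Int.natAbs_pos.2 ha0) h1
      omega
    have hp' : Prime (πc : ℤ) := Nat.prime_iff_prime_int.1 hπc
    have := (Int.isCoprime_iff_gcd_eq_one).1 ((Prime.coprime_iff_not_dvd hp').2 hdvd)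
    exact this
  exact IsCoprime.mul_right (IsCoprime.mul_right haM' haM') haπ

/-- (A2) The prime `π` of step L2: `π ≡ -a mod M² πc`, `π ≡ 3 mod 4`, `(π - 1) / 2` prime to `e`,
`π ≠ q`, `π > B`. -/
theorem lrca_A2 {M a : ℤ} (hM : 2 < M) (hOK : ¬ (2 : ℤ) ∣ M ∨ (4 : ℤ) ∣ M)
    (haM : a ≡ 1 [ZMOD M]) {πc : ℕ} (hπc : πc.Prime) (hπa : a.natAbs + 1 < πc)
    (q : ℕ) {e : ℕ} (he : e ≠ 0) (B : ℕ) :
    ∃ π : ℕ, π.Prime ∧ B < π ∧ π ≠ q ∧ (π : ℤ) ≡ -a [ZMOD M * M * (πc : ℤ)] ∧ π % 4 = 3 ∧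
      Nat.Coprime ((π - 1) / 2) e := by
  have ha0 : a ≠ 0 := by
    rintro rfl
    obtain ⟨k, hk⟩ := Int.modEq_iff_dvd.1 haM
    have : M ∣ 1 := ⟨k, by linarith⟩
    have := Int.le_of_dvd one_pos this
    omega
  have ha1 : a + 1 ≠ 0 := by
    intro h
    have ha : a = -1 := by omega
    obtain ⟨k, hk⟩ := Int.modEq_iff_dvd.1 haM
    have : M ∣ 2 := ⟨k, by rw [ha] at hk; linarith⟩
    have := Int.le_of_dvd (by norm_num) this
    omega
  set Mn : ℕ := M.natAbs with hMn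
  have hMn' : (Mn : ℤ) = M := by rw [hMn]; exact Int.natAbs_of_nonneg (by omega)
  set m₀ : ℕ := Mn * Mn * πc with hm₀
  have hm₀' : (m₀ : ℤ) = M * M * (πc : ℤ) := by rw [hm₀]; push_cast; rw [hMn']
  have hm₀0 : m₀ ≠ 0 := by
    rw [hm₀]
    have : Mn ≠ 0 := by rw [hMn]; exact Int.natAbs_ne_zero.2 (by omega)
    exact mul_ne_zero (mul_ne_zero this this) hπc.ne_zero
  set z : ℕ := ((-a) % (m₀ : ℤ)).toNat with hz
  have hzmod : (z : ℤ) ≡ -a [ZMOD (m₀ : ℤ)] := lrca_toNat_modEq (-a) hm₀0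
  have hcop : IsCoprime (-a) (m₀ : ℤ) := by
    rw [hm₀']; exact (lrca_coprime_modulus haM hπc hπa ha0).neg_left
  have hzcop : z.Coprime m₀ :=
    Nat.isCoprime_iff_coprime.1 (lrca_isCoprime_of_modEq hzmod hcop)
  have hπc2 : πc ≠ 2 := by omega
  have hπodd : Odd πc := hπc.odd_of_ne_two hπc2
  have h4 : Odd m₀ ∨ (4 ∣ m₀ ∧ z % 4 = 3) := by
    rcases hOK with h2 | h4M
    · left
      have hMo : Odd Mn := by
        rw [← Nat.not_even_iff_odd, even_iff_two_dvd]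
        intro h
        apply h2
        rw [← hMn']
        exact_mod_cast h
      exact (hMo.mul hMo).mul hπodd
    · right
      have h4Mn : 4 ∣ Mn := by
        have : ((4 : ℕ) : ℤ) ∣ (Mn : ℤ) := by rw [hMn']; exact_mod_cast h4M
        exact_mod_cast this
      have h4m : 4 ∣ m₀ := by
        rw [hm₀]; exact Dvd.dvd.mul_right (Dvd.dvd.mul_right h4Mn _) _
      refine ⟨h4m, ?_⟩
      have h4m' : (4 : ℤ) ∣ (m₀ : ℤ) := by exact_mod_cast h4m
      have h1 : (z : ℤ) ≡ -a [ZMOD 4] := hzmod.of_dvd h4m'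
      have h2 : a ≡ 1 [ZMOD 4] := haM.of_dvd h4M
      have h3 : (z : ℤ) ≡ -1 [ZMOD 4] := h1.trans h2.neg
      have := h3
      unfold Int.ModEq at this
      omega
  have hl : ∀ l : ℕ, l.Prime → l ≠ 2 → l ∣ e → l ∣ m₀ → ¬ z ≡ 1 [MOD l] := by
    intro l hlp hl2 _ hlm hz1
    have hlm' : (l : ℤ) ∣ (m₀ : ℤ) := by exact_mod_cast hlm
    have h1 : (z : ℤ) ≡ -a [ZMOD l] := hzmod.of_dvd hlm'
    have h2 : (z : ℤ) ≡ 1 [ZMOD l] := by exact_mod_cast (Int.natCast_modEq_iff.2 hz1)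
    have h3 : (l : ℤ) ∣ a + 1 := by
      have := (h1.symm.trans h2)
      have := Int.modEq_iff_dvd.1 this
      simpa [sub_neg_eq_add, add_comm] using this
    have hlm2 : l ∣ Mn * Mn * πc := hlm
    rcases (Nat.Prime.dvd_mul hlp).1 hlm2 with h | h
    · have hlM : l ∣ Mn := by
        rcases (Nat.Prime.dvd_mul hlp).1 h with h | h <;> exact h
      have hlM' : (l : ℤ) ∣ M := by rw [← hMn']; exact_mod_cast hlM
      have h4 : (l : ℤ) ∣ a - 1 := by
        have := Int.modEq_iff_dvd.1 (haM.of_dvd hlM').symm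
        exact this
      have h5 : (l : ℤ) ∣ 2 := by
        have := dvd_sub h3 h4
        have e2 : a + 1 - (a - 1) = 2 := by ring
        rwa [e2] at this
      have h6 : l ∣ 2 := by exact_mod_cast h5
      have := (Nat.prime_dvd_prime_iff_eq hlp Nat.prime_two).1 h6
      exact hl2 this
    · have hlπ : l = πc := (Nat.prime_dvd_prime_iff_eq hlp hπc).1 h
      rw [hlπ] at h3
      have h7 : πc ∣ (a + 1).natAbs := by
        have := Int.natAbs_dvd_natAbs.2 h3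
        simpa using this
      have h8 := Nat.le_of_dvd (Int.natAbs_pos.2 ha1) h7
      have h9 : (a + 1).natAbs ≤ a.natAbs + 1 := by
        have := Int.natAbs_add_le a 1
        simpa using this
      omega
  obtain ⟨π, hB, hp, hπz, hπ4, hπe⟩ := lrca_L2_prime hm₀0 hzcop he h4 hl (max B q)
  refine ⟨π, hp, lt_of_le_of_lt (le_max_left _ _) hB, ?_, ?_, hπ4, hπe⟩
  · have := lt_of_le_of_lt (le_max_right B q) hB
    omega
  · rw [← hm₀']
    have h1 : (π : ℤ) ≡ (z : ℤ) [ZMOD (m₀ : ℤ)] := Int.natCast_modEq_iff.2 hπz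
    exact h1.trans hzmod

end Fermat.Agent.LR
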