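/-
LR / S41, node [CSP-ARITH] (helper16), part 4: the power lemma of step L5 of helper13's proof of (X)
(findings #2684): a `2 x 2` matrix of determinant `1` which is upper triangular mod a prime `u`
satisfies `X ^ ((u - 1) u^4) = 1 mod u^4`.  Ring form (`lrca_pow_u4`, entrywise divisibility, with
Fermat's little theorem as a hypothesis), `ZMod (u^4)` form (`lrca_pow_u4_zmod`), and the binomial
step `lrca_pow_sub_one_dvd`.  Mathlib only.  Prefix `lrca_`.
-/
import Mathlib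

set_option autoImplicit false

namespace Fermat.Agent.LR

open Matrix

/-- Binomial expansion to second order: `(1 + s Z)^n = 1 + n s Z + s² W`. -/
theorem lrca_one_add_smul_pow {R 𝔄 : Type*} [CommRing R] [Ring 𝔄] [Algebra R 𝔄] (s : R) (Z : 𝔄)
    (n : ℕ) : ∃ W : 𝔄, (1 + s • Z) ^ n = 1 + ((n : R) * s) • Z + (s * s) • W := by
  induction n with
  | zero => exact ⟨0, by simp⟩
  | succ n ih =>
    obtain ⟨W, hW⟩ := ih
    refine ⟨(n : R) • (Z * Z) + W + s • (W * Z), ?_⟩
    rw [pow_succ, hW]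
    simp only [mul_add, add_mul, mul_one, one_mul, smul_mul_assoc, mul_smul_comm, smul_add,
      smul_smul, Nat.cast_succ, add_smul]
    ring_nf
    abel


/-- Binomial step: `Y ≡ 1 mod s` entrywise implies `Y ^ n ≡ 1 mod (n s, s²)`; we record the form
`s * t ∣ (Y ^ n - 1) i j` whenever `t ∣ n` and `t ∣ s`. -/
theorem lrca_pow_sub_one_dvd {R : Type*} [CommRing R] {ι : Type*} [Fintype ι] [DecidableEq ι]
    (s t : R) (n : ℕ) (htn : t ∣ (n : R)) (hts : t ∣ s) (Y : Matrix ι ι R)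
    (hY : ∀ i j, s ∣ (Y - 1) i j) : ∀ i j, s * t ∣ (Y ^ n - 1) i j := by
  classical
  choose Z hZ using hY
  have hYZ : Y = 1 + s • (Matrix.of Z) := by
    ext i j
    have := hZ i j
    simp only [Matrix.sub_apply] at this
    simp only [Matrix.add_apply, Matrix.smul_apply, Matrix.of_apply, smul_eq_mul]
    linear_combination this
  obtain ⟨W, hW⟩ := lrca_one_add_smul_pow s (Matrix.of Z) n
  have hsub : Y ^ n - 1 = ((n : R) * s) • Matrix.of Z + (s * s) • W := by
    rw [hYZ, hW]; abel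
  intro i j
  rw [hsub]
  simp only [Matrix.add_apply, Matrix.smul_apply, smul_eq_mul]
  apply dvd_add
  · obtain ⟨n', hn'⟩ := htn
    rw [hn']
    exact ⟨n' * Matrix.of Z i j, by ring⟩
  · obtain ⟨s', hs'⟩ := hts
    refine ⟨s' * W i j, ?_⟩
    rw [hs']; ring


/-- Powers of an upper triangular `2 × 2` matrix. -/
theorem lrca_upper_pow {S : Type*} [CommRing S] (T : Matrix (Fin 2) (Fin 2) S) (h10 : T 1 0 = 0)
    (n : ℕ) : (T ^ n) 1 0 = 0 ∧ (T ^ n) 0 0 = T 0 0 ^ n ∧ (T ^ n) 1 1 = T 1 1 ^ n := by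
  induction n with
  | zero => simp
  | succ n ih =>
    obtain ⟨h1, h2, h3⟩ := ih
    rw [pow_succ]
    simp only [Matrix.mul_apply, Fin.sum_univ_two, h1, h2, h3, h10]
    refine ⟨by ring, by ring, by ring⟩

/-- Powers of an upper unitriangular `2 × 2` matrix. -/
theorem lrca_unitri_pow {S : Type*} [CommRing S] (T : Matrix (Fin 2) (Fin 2) S) (h10 : T 1 0 = 0)
    (h00 : T 0 0 = 1) (h11 : T 1 1 = 1) (n : ℕ) :
    (T ^ n) 1 0 = 0 ∧ (T ^ n) 0 0 = 1 ∧ (T ^ n) 1 1 = 1 ∧ (T ^ n) 0 1 = n * T 0 1 := by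
  induction n with
  | zero => simp
  | succ n ih =>
    obtain ⟨h1, h2, h3, h4⟩ := ih
    rw [pow_succ]
    simp only [Matrix.mul_apply, Fin.sum_univ_two, h1, h2, h3, h4, h10, h00, h11]
    refine ⟨by ring, by ring, by ring, by push_cast; ring⟩

/-- Step `mod u` of the power lemma of L5 (#2684): a matrix of determinant `1` which is upper
triangular mod `u` satisfies `X ^ ((u - 1) u) ≡ 1 mod u`, provided Fermat's little theorem holds
in `R / u` for the diagonal entries (hypothesis `hF`). -/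
theorem lrca_pow_mod {R : Type*} [CommRing R] (u : ℕ) (X : Matrix (Fin 2) (Fin 2) R)
    (hdet : X.det = 1) (h10 : (u : R) ∣ X 1 0)
    (hF : ∀ α δ : R, (u : R) ∣ α * δ - 1 → (u : R) ∣ α ^ (u - 1) - 1) :
    ∀ i j, (u : R) ∣ (X ^ ((u - 1) * u) - 1) i j := by
  set I : Ideal R := Ideal.span {(u : R)} with hI
  set φ : R →+* R ⧸ I := Ideal.Quotient.mk I with hφ
  have hφ0 : ∀ x : R, φ x = 0 ↔ (u : R) ∣ x := by
    intro x
    rw [hφ, Ideal.Quotient.eq_zero_iff_mem, hI, Ideal.mem_span_singleton]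
  have hφu : φ (u : R) = 0 := (hφ0 _).2 dvd_rfl
  have hdet' : X 0 0 * X 1 1 - X 0 1 * X 1 0 = 1 := by
    rw [← hdet, Matrix.det_fin_two]
  have hαδ : (u : R) ∣ X 0 0 * X 1 1 - 1 := by
    have : X 0 0 * X 1 1 - 1 = X 0 1 * X 1 0 := by linear_combination hdet'
    rw [this]; exact Dvd.dvd.mul_left h10 _
  have hδα : (u : R) ∣ X 1 1 * X 0 0 - 1 := by rwa [mul_comm]
  have hα := hF _ _ hαδ
  have hδ := hF _ _ hδα
  set T := φ.mapMatrix X with hT
  have hT10 : T 1 0 = 0 := by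
    simp only [hT, RingHom.mapMatrix_apply, Matrix.map_apply]
    exact (hφ0 _).2 h10
  obtain ⟨k1, k2, k3⟩ := lrca_upper_pow T hT10 (u - 1)
  have e00 : (T ^ (u - 1)) 0 0 = 1 := by
    rw [k2]
    simp only [hT, RingHom.mapMatrix_apply, Matrix.map_apply]
    rw [← map_pow, ← sub_eq_zero, ← map_one φ, ← map_sub]
    exact (hφ0 _).2 hα
  have e11 : (T ^ (u - 1)) 1 1 = 1 := by
    rw [k3]
    simp only [hT, RingHom.mapMatrix_apply, Matrix.map_apply]
    rw [← map_pow, ← sub_eq_zero, ← map_one φ, ← map_sub]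
    exact (hφ0 _).2 hδ
  obtain ⟨l1, l2, l3, l4⟩ := lrca_unitri_pow (T ^ (u - 1)) k1 e00 e11 u
  have hu0 : ((u : ℕ) : R ⧸ I) = 0 := by
    have := hφu
    simpa using this
  have hone : (T ^ (u - 1)) ^ u = 1 := by
    have l4' : ((T ^ (u - 1)) ^ u) 0 1 = 0 := by rw [l4, hu0, zero_mul]
    ext i j
    fin_cases i <;> fin_cases j
    · simpa using l2
    · simpa using l4'
    · simpa using l1
    · simpa using l3
  have hmap : φ.mapMatrix (X ^ ((u - 1) * u)) = 1 := by
    rw [map_pow, ← hT, pow_mul, hone]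
  intro i j
  rw [← hφ0]
  have := congrArg (fun A : Matrix (Fin 2) (Fin 2) (R ⧸ I) => A i j) hmap
  simp only [RingHom.mapMatrix_apply, Matrix.map_apply] at this
  rw [Matrix.sub_apply, map_sub, this]
  by_cases h : i = j
  · simp [Matrix.one_apply, h]
  · simp [h]


/-- **Power lemma of L5 (#2684), ring form.** A `2 × 2` matrix of determinant `1` over `R` which is
upper triangular mod `u` satisfies `X ^ ((u - 1) u⁴) ≡ 1 mod u⁴` entrywise, provided Fermat's little
theorem holds mod `u` for units of `R / u` (hypothesis `hF`; see `lrca_fermat_zmod`,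
`lrca_fermat_int`). -/
theorem lrca_pow_u4 {R : Type*} [CommRing R] (u : ℕ) (X : Matrix (Fin 2) (Fin 2) R)
    (hdet : X.det = 1) (h10 : (u : R) ∣ X 1 0)
    (hF : ∀ α δ : R, (u : R) ∣ α * δ - 1 → (u : R) ∣ α ^ (u - 1) - 1) :
    ∀ i j, (u : R) ^ 4 ∣ (X ^ ((u - 1) * u ^ 4) - (1 : Matrix (Fin 2) (Fin 2) R)) i j := by
  have h1 := lrca_pow_mod u X hdet h10 hF
  have h2 := lrca_pow_sub_one_dvd (u : R) (u : R) u dvd_rfl dvd_rfl _ h1
  have h3 := lrca_pow_sub_one_dvd ((u : R) * u) (u : R) u dvd_rfl (Dvd.intro_left _ rfl) _ h2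
  have h4 := lrca_pow_sub_one_dvd ((u : R) * u * u) (u : R) u dvd_rfl (Dvd.intro_left _ rfl) _ h3
  have e : (u - 1) * u ^ 4 = (u - 1) * u * u * u * u := by ring
  have e' : (u : R) ^ 4 = (u : R) * u * u * u := by ring
  intro i j
  rw [e, e', pow_mul, pow_mul, pow_mul]
  exact h4 i j

/-- Fermat's little theorem in the form needed by `lrca_pow_u4`, for `R = ZMod N'`, `u ∣ N'`. -/
theorem lrca_fermat_zmod {u N' : ℕ} (hu : u.Prime) (hN : u ∣ N') (α δ : ZMod N')
    (h : (u : ZMod N') ∣ α * δ - 1) : (u : ZMod N') ∣ α ^ (u - 1) - 1 := by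
  have : Fact u.Prime := ⟨hu⟩
  set ψ : ZMod N' →+* ZMod u := ZMod.castHom hN (ZMod u) with hψ
  have hψu : ψ (u : ZMod N') = 0 := by
    rw [map_natCast]; exact ZMod.natCast_self u
  have hker : ∀ x : ZMod N', ψ x = 0 → (u : ZMod N') ∣ x := by
    intro x hx
    obtain ⟨n, rfl⟩ := ZMod.intCast_surjective x
    rw [map_intCast, ZMod.intCast_zmod_eq_zero_iff_dvd] at hx
    obtain ⟨m, rfl⟩ := hx
    exact ⟨(m : ZMod N'), by push_cast; ring⟩
  obtain ⟨t, ht⟩ := h
  have h1 : ψ α * ψ δ = 1 := by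
    have := congrArg ψ ht
    rw [map_sub, map_mul, map_mul, hψu, zero_mul, map_one, sub_eq_zero] at this
    exact this
  have hα0 : ψ α ≠ 0 := by
    intro h0
    rw [h0, zero_mul] at h1
    exact zero_ne_one h1
  have hfer : ψ α ^ (u - 1) = 1 := ZMod.pow_card_sub_one_eq_one hα0
  apply hker
  rw [map_sub, map_pow, hfer, map_one, sub_self]

/-- Fermat's little theorem in the form needed by `lrca_pow_u4`, for `R = ℤ`. -/
theorem lrca_fermat_int {u : ℕ} (hu : u.Prime) (α δ : ℤ) (h : (u : ℤ) ∣ α * δ - 1) :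
    (u : ℤ) ∣ α ^ (u - 1) - 1 := by
  have hcop : IsCoprime α (u : ℤ) := by
    obtain ⟨t, ht⟩ := h
    exact ⟨δ, -t, by linear_combination ht⟩
  have := Int.ModEq.pow_card_sub_one_eq_one hu hcop
  exact (Int.modEq_iff_dvd.1 this.symm)

/-- **Power lemma of L5, `ZMod` form**: over `ZMod (u⁴)`, `u` prime, a matrix of determinant `1`
whose lower left entry is divisible by `u` satisfies `X ^ ((u - 1) u⁴) = 1`. -/
theorem lrca_pow_u4_zmod {u : ℕ} (hu : u.Prime) (X : Matrix (Fin 2) (Fin 2) (ZMod (u ^ 4)))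
    (hdet : X.det = 1) (h10 : (u : ZMod (u ^ 4)) ∣ X 1 0) : X ^ ((u - 1) * u ^ 4) = 1 := by
  have h := lrca_pow_u4 u X hdet h10
    (fun α δ => lrca_fermat_zmod hu (dvd_pow_self u (by norm_num)) α δ)
  have h0 : (u : ZMod (u ^ 4)) ^ 4 = 0 := by
    have := ZMod.natCast_self (u ^ 4)
    push_cast at this
    exact this
  ext i j
  have := h i j
  rw [h0, zero_dvd_iff, Matrix.sub_apply, sub_eq_zero] at this
  exact this

end Fermat.Agent.LR
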