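import Mathlib

/-!
# CSP for `Γ(M)[1/q]`, `F_p`-characters: basic objects

`csp_A q` is the ring `ℤ[1/q] ⊆ ℚ`, `csp_I q M = M · ℤ[1/q]`, `CspM` is `SL₂(ℚ)` as a bare
structure (entries `a b c d`), `csp_Gam q M` the principal congruence subgroup of level `M`
of `SL₂(ℤ[1/q])`.
-/

set_option autoImplicit false

namespace Fermat.Agent.LR

/-- The ring `ℤ[1/q]` inside `ℚ`. -/
def csp_A (q : ℕ) : Subring ℚ where
  carrier := {x : ℚ | ∃ (n : ℕ) (z : ℤ), x * (q : ℚ) ^ n = z}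
  mul_mem' := by
    rintro x y ⟨n, z, hz⟩ ⟨m, w, hw⟩
    refine ⟨n + m, z * w, ?_⟩
    push_cast
    rw [← hz, ← hw]; ring
  one_mem' := ⟨0, 1, by simp⟩
  add_mem' := by
    rintro x y ⟨n, z, hz⟩ ⟨m, w, hw⟩
    refine ⟨n + m, z * (q : ℤ) ^ m + w * (q : ℤ) ^ n, ?_⟩
    push_cast
    rw [← hz, ← hw]; ring
  zero_mem' := ⟨0, 0, by simp⟩
  neg_mem' := by
    rintro x ⟨n, z, hz⟩
    exact ⟨n, -z, by push_cast; rw [← hz]; ring⟩

theorem csp_A_mem_iff {q : ℕ} {x : ℚ} :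
    x ∈ csp_A q ↔ ∃ (n : ℕ) (z : ℤ), x * (q : ℚ) ^ n = z := Iff.rfl

theorem csp_A_int (q : ℕ) (z : ℤ) : (z : ℚ) ∈ csp_A q := ⟨0, z, by simp⟩

theorem csp_A_nat (q : ℕ) (z : ℕ) : (z : ℚ) ∈ csp_A q := ⟨0, z, by simp⟩

theorem csp_A_qinv {q : ℕ} (hq : q ≠ 0) : ((q : ℚ))⁻¹ ∈ csp_A q :=
  ⟨1, 1, by
    have : (q : ℚ) ≠ 0 := by exact_mod_cast hq
    simp [this]⟩

theorem csp_A_qzpow {q : ℕ} (hq : q ≠ 0) (j : ℤ) : ((q : ℚ)) ^ j ∈ csp_A q := by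
  have hq' : (q : ℚ) ≠ 0 := by exact_mod_cast hq
  rcases Int.eq_nat_or_neg j with ⟨n, rfl | rfl⟩
  · rw [zpow_natCast]; exact Subring.pow_mem _ (csp_A_nat q q) n
  · rw [zpow_neg, zpow_natCast, ← inv_pow]; exact Subring.pow_mem _ (csp_A_qinv hq) n

/-- The ideal `M · ℤ[1/q]` as an additive subgroup of `ℚ`. -/
def csp_I (q : ℕ) (M : ℤ) : AddSubgroup ℚ where
  carrier := {x : ℚ | ∃ y ∈ csp_A q, x = (M : ℚ) * y}
  add_mem' := by
    rintro x y ⟨u, hu, rfl⟩ ⟨v, hv, rfl⟩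
    exact ⟨u + v, Subring.add_mem _ hu hv, by ring⟩
  zero_mem' := ⟨0, Subring.zero_mem _, by ring⟩
  neg_mem' := by
    rintro x ⟨u, hu, rfl⟩
    exact ⟨-u, Subring.neg_mem _ hu, by ring⟩

theorem csp_I_mem_iff {q : ℕ} {M : ℤ} {x : ℚ} :
    x ∈ csp_I q M ↔ ∃ y ∈ csp_A q, x = (M : ℚ) * y := Iff.rfl

theorem csp_I_le_A {q : ℕ} {M : ℤ} {x : ℚ} (hx : x ∈ csp_I q M) : x ∈ csp_A q := by
  obtain ⟨y, hy, rfl⟩ := hx
  exact Subring.mul_mem _ (csp_A_int q M) hy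

theorem csp_I_mul_left {q : ℕ} {M : ℤ} {a x : ℚ} (ha : a ∈ csp_A q) (hx : x ∈ csp_I q M) :
    a * x ∈ csp_I q M := by
  obtain ⟨y, hy, rfl⟩ := hx
  exact ⟨a * y, Subring.mul_mem _ ha hy, by ring⟩

theorem csp_I_mul_right {q : ℕ} {M : ℤ} {a x : ℚ} (hx : x ∈ csp_I q M) (ha : a ∈ csp_A q) :
    x * a ∈ csp_I q M := by
  rw [mul_comm]; exact csp_I_mul_left ha hx

theorem csp_I_mul {q : ℕ} {M : ℤ} {x y : ℚ} (hx : x ∈ csp_I q M) (hy : y ∈ csp_I q M) :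
    x * y ∈ csp_I q M := csp_I_mul_left (csp_I_le_A hx) hy

theorem csp_I_of_int {q : ℕ} {M : ℤ} {z : ℤ} (h : M ∣ z) : (z : ℚ) ∈ csp_I q M := by
  obtain ⟨k, rfl⟩ := h
  exact ⟨k, csp_A_int q k, by push_cast; ring⟩

theorem csp_I_mono {q : ℕ} {M M' : ℤ} (h : M ∣ M') {x : ℚ} (hx : x ∈ csp_I q M') :
    x ∈ csp_I q M := by
  obtain ⟨k, rfl⟩ := h
  obtain ⟨y, hy, rfl⟩ := hx
  exact ⟨k * y, Subring.mul_mem _ (csp_A_int q k) hy, by push_cast; ring⟩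

theorem csp_I_one {q : ℕ} {x : ℚ} : x ∈ csp_I q 1 ↔ x ∈ csp_A q := by
  constructor
  · intro h; exact csp_I_le_A h
  · intro h; exact ⟨x, h, by simp⟩

/-- `SL₂(ℚ)` as a bare structure. -/
@[ext] structure CspM where
  a : ℚ
  b : ℚ
  c : ℚ
  d : ℚ
  det : a * d - b * c = 1

namespace CspM

instance : Mul CspM where
  mul g h := ⟨g.a * h.a + g.b * h.c, g.a * h.b + g.b * h.d, g.c * h.a + g.d * h.c,
    g.c * h.b + g.d * h.d, by
      have h1 := g.det; have h2 := h.det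
      linear_combination (h.a * h.d - h.b * h.c) * h1 + h2⟩

instance : One CspM where
  one := ⟨1, 0, 0, 1, by ring⟩

instance : Inv CspM where
  inv g := ⟨g.d, -g.b, -g.c, g.a, by have := g.det; linear_combination this⟩

@[simp] theorem mul_a (g h : CspM) : (g * h).a = g.a * h.a + g.b * h.c := rfl
@[simp] theorem mul_b (g h : CspM) : (g * h).b = g.a * h.b + g.b * h.d := rfl
@[simp] theorem mul_c (g h : CspM) : (g * h).c = g.c * h.a + g.d * h.c := rfl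
@[simp] theorem mul_d (g h : CspM) : (g * h).d = g.c * h.b + g.d * h.d := rfl
@[simp] theorem one_a : (1 : CspM).a = 1 := rfl
@[simp] theorem one_b : (1 : CspM).b = 0 := rfl
@[simp] theorem one_c : (1 : CspM).c = 0 := rfl
@[simp] theorem one_d : (1 : CspM).d = 1 := rfl
@[simp] theorem inv_a (g : CspM) : (g⁻¹).a = g.d := rfl
@[simp] theorem inv_b (g : CspM) : (g⁻¹).b = -g.b := rfl
@[simp] theorem inv_c (g : CspM) : (g⁻¹).c = -g.c := rfl
@[simp] theorem inv_d (g : CspM) : (g⁻¹).d = g.a := rfl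

instance : Group CspM where
  mul_assoc g h k := by ext <;> simp <;> ring
  one_mul g := by ext <;> simp
  mul_one g := by ext <;> simp
  inv_mul_cancel g := by
    have := g.det
    ext <;> simp
    · linear_combination this
    · ring
    · ring
    · linear_combination this

end CspM

/-- Upper elementary matrix. -/
def csp_e12 (x : ℚ) : CspM := ⟨1, x, 0, 1, by ring⟩
/-- Lower elementary matrix. -/
def csp_e21 (x : ℚ) : CspM := ⟨1, 0, x, 1, by ring⟩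
/-- Diagonal matrix `diag(x, 1/x)`. -/
def csp_D (x : ℚ) (hx : x ≠ 0) : CspM := ⟨x, 0, 0, x⁻¹, by simp [mul_inv_cancel₀ hx]⟩
/-- The Weyl element `[[0,1],[-1,0]]`. -/
def csp_w : CspM := ⟨0, 1, -1, 0, by ring⟩

@[simp] theorem csp_e12_a (x : ℚ) : (csp_e12 x).a = 1 := rfl
@[simp] theorem csp_e12_b (x : ℚ) : (csp_e12 x).b = x := rfl
@[simp] theorem csp_e12_c (x : ℚ) : (csp_e12 x).c = 0 := rfl
@[simp] theorem csp_e12_d (x : ℚ) : (csp_e12 x).d = 1 := rfl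
@[simp] theorem csp_e21_a (x : ℚ) : (csp_e21 x).a = 1 := rfl
@[simp] theorem csp_e21_b (x : ℚ) : (csp_e21 x).b = 0 := rfl
@[simp] theorem csp_e21_c (x : ℚ) : (csp_e21 x).c = x := rfl
@[simp] theorem csp_e21_d (x : ℚ) : (csp_e21 x).d = 1 := rfl
@[simp] theorem csp_D_a (x : ℚ) (hx : x ≠ 0) : (csp_D x hx).a = x := rfl
@[simp] theorem csp_D_b (x : ℚ) (hx : x ≠ 0) : (csp_D x hx).b = 0 := rfl
@[simp] theorem csp_D_c (x : ℚ) (hx : x ≠ 0) : (csp_D x hx).c = 0 := rfl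
@[simp] theorem csp_D_d (x : ℚ) (hx : x ≠ 0) : (csp_D x hx).d = x⁻¹ := rfl
@[simp] theorem csp_w_a : csp_w.a = 0 := rfl
@[simp] theorem csp_w_b : csp_w.b = 1 := rfl
@[simp] theorem csp_w_c : csp_w.c = -1 := rfl
@[simp] theorem csp_w_d : csp_w.d = 0 := rfl

theorem csp_e12_inv (x : ℚ) : (csp_e12 x)⁻¹ = csp_e12 (-x) := by ext <;> simp
theorem csp_e21_inv (x : ℚ) : (csp_e21 x)⁻¹ = csp_e21 (-x) := by ext <;> simp
theorem csp_e12_mul (x y : ℚ) : csp_e12 x * csp_e12 y = csp_e12 (x + y) := by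
  ext <;> simp [add_comm]
theorem csp_e21_mul (x y : ℚ) : csp_e21 x * csp_e21 y = csp_e21 (x + y) := by
  ext <;> simp [add_comm]

/-- The principal congruence subgroup `Γ(M)` of `SL₂(ℤ[1/q])`. -/
def csp_Gam (q : ℕ) (M : ℤ) : Subgroup CspM where
  carrier := {g | g.a - 1 ∈ csp_I q M ∧ g.b ∈ csp_I q M ∧ g.c ∈ csp_I q M ∧ g.d - 1 ∈ csp_I q M}
  mul_mem' := by
    rintro g h ⟨ga, gb, gc, gd⟩ ⟨ha, hb, hc, hd⟩
    refine ⟨?_, ?_, ?_, ?_⟩
    · have : (g * h).a - 1 = (g.a - 1) * (h.a - 1) + (g.a - 1) + (h.a - 1) + g.b * h.c := by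
        simp; ring
      rw [this]
      exact add_mem (add_mem (add_mem (csp_I_mul ga ha) ga) ha) (csp_I_mul gb hc)
    · have : (g * h).b = (g.a - 1) * h.b + h.b + g.b * (h.d - 1) + g.b := by simp; ring
      rw [this]
      exact add_mem (add_mem (add_mem (csp_I_mul ga hb) hb) (csp_I_mul gb hd)) gb
    · have : (g * h).c = g.c * (h.a - 1) + g.c + (g.d - 1) * h.c + h.c := by simp; ring
      rw [this]
      exact add_mem (add_mem (add_mem (csp_I_mul gc ha) gc) (csp_I_mul gd hc)) hc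
    · have : (g * h).d - 1 = g.c * h.b + (g.d - 1) * (h.d - 1) + (g.d - 1) + (h.d - 1) := by
        simp; ring
      rw [this]
      exact add_mem (add_mem (add_mem (csp_I_mul gc hb) (csp_I_mul gd hd)) gd) hd
  one_mem' := by
    refine ⟨?_, ?_, ?_, ?_⟩ <;> simp [zero_mem]
  inv_mem' := by
    rintro g ⟨ga, gb, gc, gd⟩
    refine ⟨?_, ?_, ?_, ?_⟩
    · simpa using gd
    · simpa using neg_mem gb
    · simpa using neg_mem gc
    · simpa using ga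

theorem csp_Gam_mem_iff {q : ℕ} {M : ℤ} {g : CspM} :
    g ∈ csp_Gam q M ↔
      g.a - 1 ∈ csp_I q M ∧ g.b ∈ csp_I q M ∧ g.c ∈ csp_I q M ∧ g.d - 1 ∈ csp_I q M := Iff.rfl

theorem csp_Gam_mono {q : ℕ} {M M' : ℤ} (h : M ∣ M') : csp_Gam q M' ≤ csp_Gam q M := by
  rintro g ⟨ga, gb, gc, gd⟩
  exact ⟨csp_I_mono h ga, csp_I_mono h gb, csp_I_mono h gc, csp_I_mono h gd⟩

/-- Entries of elements of `Γ(M)` lie in `ℤ[1/q]`. -/
theorem csp_Gam_entries {q : ℕ} {M : ℤ} {g : CspM} (hg : g ∈ csp_Gam q M) :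
    g.a ∈ csp_A q ∧ g.b ∈ csp_A q ∧ g.c ∈ csp_A q ∧ g.d ∈ csp_A q := by
  obtain ⟨ga, gb, gc, gd⟩ := hg
  refine ⟨?_, csp_I_le_A gb, csp_I_le_A gc, ?_⟩
  · have := Subring.add_mem _ (csp_I_le_A ga) (Subring.one_mem (csp_A q)); simpa using this
  · have := Subring.add_mem _ (csp_I_le_A gd) (Subring.one_mem (csp_A q)); simpa using this

/-- `SL₂(ℤ[1/q])` as a subgroup of `SL₂(ℚ)`. -/
def csp_GamA (q : ℕ) : Subgroup CspM := csp_Gam q 1

theorem csp_GamA_mem_iff {q : ℕ} {g : CspM} :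
    g ∈ csp_GamA q ↔ g.a ∈ csp_A q ∧ g.b ∈ csp_A q ∧ g.c ∈ csp_A q ∧ g.d ∈ csp_A q := by
  constructor
  · intro h; exact csp_Gam_entries h
  · rintro ⟨ha, hb, hc, hd⟩
    refine ⟨csp_I_one.2 ?_, csp_I_one.2 hb, csp_I_one.2 hc, csp_I_one.2 ?_⟩
    · exact Subring.sub_mem _ ha (Subring.one_mem _)
    · exact Subring.sub_mem _ hd (Subring.one_mem _)

/-- `Γ(M)` is normalised by `SL₂(ℤ[1/q])`. -/
theorem csp_Gam_conj {q : ℕ} {M : ℤ} {h g : CspM} (hh : h ∈ csp_GamA q) (hg : g ∈ csp_Gam q M) :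
    h * g * h⁻¹ ∈ csp_Gam q M := by
  obtain ⟨ha, hb, hc, hd⟩ := csp_GamA_mem_iff.1 hh
  obtain ⟨ga, gb, gc, gd⟩ := hg
  have hdet := h.det
  have m2 : ∀ {x y z : ℚ}, x ∈ csp_A q → y ∈ csp_A q → z ∈ csp_I q M → x * y * z ∈ csp_I q M :=
    fun hx hy hz => csp_I_mul_left (Subring.mul_mem _ hx hy) hz
  refine ⟨?_, ?_, ?_, ?_⟩
  · have : (h * g * h⁻¹).a - 1 =
        h.a * h.d * (g.a - 1) - h.a * h.c * g.b + h.b * h.d * g.c - h.b * h.c * (g.d - 1) := by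
      simp; linear_combination (1 : ℚ) * hdet
    rw [this]
    exact sub_mem (add_mem (sub_mem (m2 ha hd ga) (m2 ha hc gb)) (m2 hb hd gc)) (m2 hb hc gd)
  · have : (h * g * h⁻¹).b =
        - (h.a * h.b * (g.a - 1)) + h.a * h.a * g.b - h.b * h.b * g.c + h.a * h.b * (g.d - 1) := by
      simp; ring
    rw [this]
    exact add_mem (sub_mem (add_mem (neg_mem (m2 ha hb ga)) (m2 ha ha gb)) (m2 hb hb gc))
      (m2 ha hb gd)
  · have : (h * g * h⁻¹).c =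
        h.c * h.d * (g.a - 1) - h.c * h.c * g.b + h.d * h.d * g.c - h.c * h.d * (g.d - 1) := by
      simp; ring
    rw [this]
    exact sub_mem (add_mem (sub_mem (m2 hc hd ga) (m2 hc hc gb)) (m2 hd hd gc)) (m2 hc hd gd)
  · have : (h * g * h⁻¹).d - 1 =
        - (h.b * h.c * (g.a - 1)) + h.a * h.c * g.b - h.b * h.d * g.c + h.a * h.d * (g.d - 1) := by
      simp; linear_combination (1 : ℚ) * hdet
    rw [this]
    exact add_mem (sub_mem (add_mem (neg_mem (m2 hb hc ga)) (m2 ha hc gb)) (m2 hb hd gc))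
      (m2 ha hd gd)

end Fermat.Agent.LR
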