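import Fermat.Agent.LR.CSP.Seams

/-!
# CSP for `Γ₀(N)[1/q]`: Corollary (X) of finding #2684

A homomorphism `Φ : Γ₀(N)[1/q] → V` (`V` without prime-to-`p` torsion, `p` odd) killing the
unipotent elements only depends on the upper left entry modulo `N`: its restriction to
`Γ(N)[1/q]` is parabolic, hence zero by MAIN, and `Γ₀(N)/Γ(N)·U` is detected by `a mod N`.
-/

set_option autoImplicit false

universe u

namespace Fermat.Agent.LR

theorem csp_cor_Gam_le_Gam0 (q : ℕ) (N : ℤ) : csp_Gam q N ≤ csp_Gam0 q N := by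
  intro g hg
  exact ⟨csp_Gam_mono (one_dvd N) hg, hg.2.2.1⟩

theorem csp_cor_e12_mem_Gam0 {q : ℕ} (N : ℤ) {x : ℚ} (hx : x ∈ csp_A q) :
    csp_e12 x ∈ csp_Gam0 q N :=
  ⟨csp_e12_memA hx, by simp [zero_mem]⟩

/-- A hom on `Γ₀(N)[1/q]` killing unipotents is parabolic on `Γ(N)[1/q]`. -/
theorem csp_cor_isPar {q : ℕ} {N : ℤ} {V : Type u} [AddCommGroup V] {Φ : CspM → V}
    (hmul : ∀ g h, g ∈ csp_Gam0 q N → h ∈ csp_Gam0 q N → Φ (g * h) = Φ g + Φ h)
    (hunip : ∀ g, g ∈ csp_Gam0 q N → g.a + g.d = 2 → Φ g = 0) : csp_IsPar q N Φ :=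
  ⟨fun g k hg hk => hmul g k (csp_cor_Gam_le_Gam0 q N hg) (csp_cor_Gam_le_Gam0 q N hk),
   fun g hg ht => hunip g (csp_cor_Gam_le_Gam0 q N hg) ht⟩

/-- An element of `Γ₀(N)[1/q]` with `a ≡ 1 mod N` becomes an element of `Γ(N)[1/q]` after right
multiplication by `e12 (-b)`. -/
theorem csp_cor_adjust {q : ℕ} {N : ℤ} {k : CspM} (hk : k ∈ csp_Gam0 q N)
    (hka : k.a - 1 ∈ csp_I q N) : k * csp_e12 (-k.b) ∈ csp_Gam q N := by
  obtain ⟨kA, kc⟩ := hk
  obtain ⟨_, kb, _, kd⟩ := csp_GamA_mem_iff.1 kA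
  have hkd : k.d - 1 ∈ csp_I q N := by
    have : k.d - 1 = -((k.a - 1) * k.d) + k.b * k.c := by linear_combination k.det
    rw [this]
    exact add_mem (neg_mem (csp_I_mul_right hka kd)) (csp_I_mul_left kb kc)
  refine ⟨?_, ?_, ?_, ?_⟩
  · simpa using hka
  · have : (k * csp_e12 (-k.b)).b = -((k.a - 1) * k.b) := by simp; ring
    rw [this]
    exact neg_mem (csp_I_mul_right hka kb)
  · simpa using kc
  · have : (k * csp_e12 (-k.b)).d - 1 = (k.d - 1) - k.c * k.b := by simp; ring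
    rw [this]
    exact sub_mem hkd (csp_I_mul_right kc kb)

/-- **Corollary (X)** of finding #2684. -/
theorem csp_x (hM : csp_Main_stmt.{u}) : csp_X_stmt.{u} := by
  intro q p N hq hp hp2 hN hNq V _ hV Φ hmul hunip g h hg hh hah
  have hvan := hM q p N hq hp hp2 hN hNq hV Φ (csp_cor_isPar hmul hunip)
  have hkmem : h⁻¹ * g ∈ csp_Gam0 q N := mul_mem (inv_mem hh) hg
  obtain ⟨hgA, hgc⟩ := hg
  obtain ⟨hhA, hhc⟩ := hh
  obtain ⟨_, hb, _, hd⟩ := csp_GamA_mem_iff.1 hhA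
  have hka : (h⁻¹ * g).a - 1 ∈ csp_I q N := by
    have : (h⁻¹ * g).a - 1 = h.d * (g.a - h.a) - h.b * g.c + h.b * h.c := by
      simp; linear_combination h.det
    rw [this]
    exact add_mem (sub_mem (csp_I_mul_left hd hah) (csp_I_mul_left hb hgc))
      (csp_I_mul_left hb hhc)
  obtain ⟨_, kb, _, _⟩ := csp_GamA_mem_iff.1 hkmem.1
  have he : csp_e12 (-(h⁻¹ * g).b) ∈ csp_Gam0 q N :=
    csp_cor_e12_mem_Gam0 N (Subring.neg_mem _ kb)
  have h1 : Φ (h⁻¹ * g * csp_e12 (-(h⁻¹ * g).b)) = 0 := hvan _ (csp_cor_adjust hkmem hka)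
  rw [hmul _ _ hkmem he, hunip _ he (by simp; norm_num), add_zero] at h1
  have h2 : g = h * (h⁻¹ * g) := by group
  rw [h2, hmul _ _ ⟨hhA, hhc⟩ hkmem, h1, add_zero]

end Fermat.Agent.LR
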