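import Fermat.Agent.LR.CSP.Seams

/-!
# CSP for `Γ(M)[1/q]`: cell [X-L5]

Strong invariance of a parabolic hom `Ψ` on `Γ(M)` under `D(u)` on `Γ(M) ∩ Γ₀(u²)`
(lemma L5 of finding #2684), from L1, L3, L4 and POW.
-/

set_option autoImplicit false

universe u

namespace Fermat.Agent.LR

/-- `D(u) = e12(u) e21(-1/u) e12(u) · e12(-1) e21(1) e12(-1)`. -/
theorem csp_dg_D_eq (x : ℚ) (hx : x ≠ 0) :
    csp_D x hx =
      csp_e12 x * csp_e21 (-(1 / x)) * csp_e12 x * (csp_e12 (-1) * csp_e21 1 * csp_e12 (-1)) := by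
  ext
  · simp only [CspM.mul_a, CspM.mul_b, CspM.mul_c, CspM.mul_d, csp_e12_a, csp_e12_b, csp_e12_c,
      csp_e12_d, csp_e21_a, csp_e21_b, csp_e21_c, csp_e21_d, csp_D_a]
    field_simp; ring
  · simp only [CspM.mul_a, CspM.mul_b, CspM.mul_c, CspM.mul_d, csp_e12_a, csp_e12_b, csp_e12_c,
      csp_e12_d, csp_e21_a, csp_e21_b, csp_e21_c, csp_e21_d, csp_D_b]
    field_simp; ring
  · simp only [CspM.mul_a, CspM.mul_b, CspM.mul_c, CspM.mul_d, csp_e12_a, csp_e12_b, csp_e12_c,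
      csp_e12_d, csp_e21_a, csp_e21_b, csp_e21_c, csp_e21_d, csp_D_c]
    field_simp; ring
  · simp only [CspM.mul_a, CspM.mul_b, CspM.mul_c, CspM.mul_d, csp_e12_a, csp_e12_b, csp_e12_c,
      csp_e12_d, csp_e21_a, csp_e21_b, csp_e21_c, csp_e21_d, csp_D_d]
    field_simp; ring

/-- Conjugation by `D(x)` in coordinates. -/
theorem csp_dg_conj_a (x : ℚ) (hx : x ≠ 0) (g : CspM) :
    (csp_D x hx * g * (csp_D x hx)⁻¹).a = g.a := by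
  simp; field_simp

theorem csp_dg_conj_b (x : ℚ) (hx : x ≠ 0) (g : CspM) :
    (csp_D x hx * g * (csp_D x hx)⁻¹).b = x ^ 2 * g.b := by
  simp; ring

theorem csp_dg_conj_c (x : ℚ) (hx : x ≠ 0) (g : CspM) :
    (csp_D x hx * g * (csp_D x hx)⁻¹).c = g.c / x ^ 2 := by
  simp; field_simp

theorem csp_dg_conj_d (x : ℚ) (hx : x ≠ 0) (g : CspM) :
    (csp_D x hx * g * (csp_D x hx)⁻¹).d = g.d := by
  simp; field_simp

/-- `D(u) Γ(M u⁴) D(u)⁻¹ ⊆ Γ(M)`. -/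
theorem csp_dg_conj_mem {q : ℕ} {M : ℤ} (u : ℕ) (hu : (u : ℚ) ≠ 0) {g : CspM}
    (hg : g ∈ csp_Gam q (M * (u : ℤ) ^ 4)) :
    csp_D (u : ℚ) hu * g * (csp_D (u : ℚ) hu)⁻¹ ∈ csp_Gam q M := by
  obtain ⟨ga, gb, gc, gd⟩ := hg
  have hdvd : M ∣ M * (u : ℤ) ^ 4 := Dvd.intro _ rfl
  refine ⟨?_, ?_, ?_, ?_⟩
  · rw [csp_dg_conj_a]; exact csp_I_mono hdvd ga
  · rw [csp_dg_conj_b]
    exact csp_I_mul_left (Subring.pow_mem _ (csp_A_nat q u) 2) (csp_I_mono hdvd gb)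
  · rw [csp_dg_conj_c]
    obtain ⟨y, hy, hy'⟩ := gc
    refine ⟨(u : ℚ) ^ 2 * y, Subring.mul_mem _ (Subring.pow_mem _ (csp_A_nat q u) 2) hy, ?_⟩
    rw [hy']; push_cast; field_simp
  · rw [csp_dg_conj_d]; exact csp_I_mono hdvd gd

/-- Conjugation by `e12(t)`, `t ∈ ℤ[1/q]`, keeps every level above `M` and keeps `Ψ`. -/
theorem csp_dg_e12 (h4 : csp_L4_stmt.{u}) {q : ℕ} {M : ℤ} (hq : q.Prime) (hM : 2 < M)
    (hMq : IsCoprime M (q : ℤ)) (hok : csp_LevelOK M) {V : Type u} [AddCommGroup V]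
    {Ψ : CspM → V} (hΨ : csp_IsPar q M Ψ) {M' : ℤ} (hMM' : M ∣ M') {t : ℚ} (ht : t ∈ csp_A q)
    {g : CspM} (hg : g ∈ csp_Gam q M') :
    csp_e12 t * g * (csp_e12 t)⁻¹ ∈ csp_Gam q M' ∧
      Ψ (csp_e12 t * g * (csp_e12 t)⁻¹) = Ψ g :=
  ⟨csp_Gam_conj (csp_e12_memA ht) hg,
    (h4 q M hq hM hMq hok Ψ hΨ t ht g (csp_Gam_mono hMM' hg)).1⟩

/-- Conjugation by `e21(t)`, `t ∈ ℤ[1/q]`, keeps every level above `M` and keeps `Ψ`. -/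
theorem csp_dg_e21 (h4 : csp_L4_stmt.{u}) {q : ℕ} {M : ℤ} (hq : q.Prime) (hM : 2 < M)
    (hMq : IsCoprime M (q : ℤ)) (hok : csp_LevelOK M) {V : Type u} [AddCommGroup V]
    {Ψ : CspM → V} (hΨ : csp_IsPar q M Ψ) {M' : ℤ} (hMM' : M ∣ M') {t : ℚ} (ht : t ∈ csp_A q)
    {g : CspM} (hg : g ∈ csp_Gam q M') :
    csp_e21 t * g * (csp_e21 t)⁻¹ ∈ csp_Gam q M' ∧
      Ψ (csp_e21 t * g * (csp_e21 t)⁻¹) = Ψ g :=
  ⟨csp_Gam_conj (csp_e21_memA ht) hg,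
    (h4 q M hq hM hMq hok Ψ hΨ t ht g (csp_Gam_mono hMM' hg)).2⟩

theorem csp_dg_m_pos {q : ℕ} (hq : q.Prime) : 0 < csp_m q := by
  unfold csp_m
  have : (2 : ℤ) ≤ q := by exact_mod_cast hq.two_le
  nlinarith

theorem csp_dg_m_coprime (q : ℕ) : IsCoprime (csp_m q) (q : ℤ) :=
  ⟨-1, q, by unfold csp_m; ring⟩

/-- Weak form: `Ψ ∘ Ad D(u) = Ψ` on `Γ(M (u m)⁴)`. -/
theorem csp_dg_weak (h3 : csp_L3_stmt.{u}) (h4 : csp_L4_stmt.{u}) {q u : ℕ} {M : ℤ}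
    (hq : q.Prime) (hu : u.Prime) (hM : 2 < M) (hMq : IsCoprime M (q : ℤ))
    (hok : csp_LevelOK M) (huq : u ≠ q) {V : Type u} [AddCommGroup V] {Ψ : CspM → V}
    (hΨ : csp_IsPar q M Ψ) (hu0 : (u : ℚ) ≠ 0) {x : CspM}
    (hx : x ∈ csp_Gam q (M * ((u : ℤ) * csp_m q) ^ 4)) :
    Ψ (csp_D (u : ℚ) hu0 * x * (csp_D (u : ℚ) hu0)⁻¹) = Ψ x := by
  have hdvd : M ∣ M * ((u : ℤ) * csp_m q) ^ 4 := Dvd.intro _ rfl
  have hone : (1 : ℚ) ∈ csp_A q := Subring.one_mem _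
  have hneg : (-1 : ℚ) ∈ csp_A q := Subring.neg_mem _ hone
  have huA : (u : ℚ) ∈ csp_A q := csp_A_nat q u
  obtain ⟨m1, e1⟩ := csp_dg_e12 h4 hq hM hMq hok hΨ hdvd hneg hx
  obtain ⟨m2, e2⟩ := csp_dg_e21 h4 hq hM hMq hok hΨ hdvd hone m1
  obtain ⟨m3, e3⟩ := csp_dg_e12 h4 hq hM hMq hok hΨ hdvd hneg m2
  obtain ⟨m4, e4⟩ := csp_dg_e12 h4 hq hM hMq hok hΨ hdvd huA m3
  have hupos : (0 : ℤ) < (u : ℤ) := by exact_mod_cast hu.pos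
  have hucop : IsCoprime (u : ℤ) (q : ℤ) :=
    Nat.isCoprime_iff_coprime.2 ((Nat.coprime_primes hu hq).2 huq)
  have htA : (((u : ℤ) : ℚ)) * (-(1 / (u : ℚ))) ∈ csp_A q := by
    have : (((u : ℤ) : ℚ)) * (-(1 / (u : ℚ))) = ((-1 : ℤ) : ℚ) := by
      push_cast; field_simp
    rw [this]; exact csp_A_int q (-1)
  obtain ⟨m5, e5⟩ := (h3 q M (u : ℤ) hq hM hMq hok hupos hucop Ψ hΨ (-(1 / (u : ℚ))) htA _ m4).2
  obtain ⟨_, e6⟩ := csp_dg_e12 h4 hq hM hMq hok hΨ (dvd_refl M) huA m5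
  have key : csp_D (u : ℚ) hu0 * x * (csp_D (u : ℚ) hu0)⁻¹ =
      csp_e12 (u : ℚ) * (csp_e21 (-(1 / (u : ℚ))) * (csp_e12 (u : ℚ) *
        (csp_e12 (-1) * (csp_e21 1 * (csp_e12 (-1) * x * (csp_e12 (-1))⁻¹) *
          (csp_e21 1)⁻¹) * (csp_e12 (-1))⁻¹) * (csp_e12 (u : ℚ))⁻¹) *
            (csp_e21 (-(1 / (u : ℚ))))⁻¹) * (csp_e12 (u : ℚ))⁻¹ := by
    rw [csp_dg_D_eq (u : ℚ) hu0]; group
  rw [key, e6, e5, e4, e3, e2, e1]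

/-- **Cell [X-L5]**: strong invariance under `D(u)`. -/
theorem csp_l5 (h1 : csp_L1_stmt.{u}) (h3 : csp_L3_stmt.{u}) (h4 : csp_L4_stmt.{u})
    (hP : csp_Pow_stmt) : csp_L5_stmt.{u} := by
  intro q p u M hq hp hu hM hMq hok huq hup hpu hMu V _ hV Ψ hΨ hu0 x hx hDx
  set D := csp_D (u : ℚ) hu0 with hD
  -- the difference `Ξ = Ψ ∘ Ad D - Ψ` is parabolic of level `M u⁴`
  have hdvd4 : M ∣ M * (u : ℤ) ^ 4 := Dvd.intro _ rfl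
  have hΞ : csp_IsPar q (M * (u : ℤ) ^ 4) (fun g => Ψ (D * g * D⁻¹) - Ψ g) :=
    (hΨ.conj D (fun g hg => csp_dg_conj_mem u hu0 hg)).sub (hΨ.mono hdvd4)
  -- it vanishes on `Γ(M (u m)⁴)`
  have hvan : ∀ g, g ∈ csp_Gam q (M * ((u : ℤ) * csp_m q) ^ 4) →
      Ψ (D * g * D⁻¹) - Ψ g = 0 := fun g hg => by
    rw [csp_dg_weak h3 h4 hq hu hM hMq hok huq hΨ hu0 hg, sub_self]
  -- hence on `Γ(M u⁴)` by L1
  have hMpos : (0 : ℤ) < M := by linarith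
  have hupos : (0 : ℤ) < (u : ℤ) := by exact_mod_cast hu.pos
  have hu4pos : (0 : ℤ) < (u : ℤ) ^ 4 := pow_pos hupos 4
  have hmpos := csp_dg_m_pos hq
  have hucop : IsCoprime (u : ℤ) (q : ℤ) :=
    Nat.isCoprime_iff_coprime.2 ((Nat.coprime_primes hu hq).2 huq)
  have h1lt : 1 < M * (u : ℤ) ^ 4 := by nlinarith
  have hdvdL : M * (u : ℤ) ^ 4 ∣ M * ((u : ℤ) * csp_m q) ^ 4 :=
    ⟨csp_m q ^ 4, by ring⟩
  have hLpos : 0 < M * ((u : ℤ) * csp_m q) ^ 4 :=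
    mul_pos hMpos (pow_pos (mul_pos hupos hmpos) 4)
  have hLcop : IsCoprime (M * ((u : ℤ) * csp_m q) ^ 4) (q : ℤ) :=
    IsCoprime.mul_left hMq (IsCoprime.pow_left (IsCoprime.mul_left hucop (csp_dg_m_coprime q)))
  have hvan4 : ∀ g, g ∈ csp_Gam q (M * (u : ℤ) ^ 4) → Ψ (D * g * D⁻¹) - Ψ g = 0 :=
    h1 q (M * (u : ℤ) ^ 4) (M * ((u : ℤ) * csp_m q) ^ 4) hq h1lt hdvdL hLpos hLcop
      (fun g => Ψ (D * g * D⁻¹) - Ψ g) hΞ hvan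
  -- a power of `x` lies in `Γ(M u⁴)`
  have hxc : x.c ∈ csp_I q (u : ℤ) := by
    obtain ⟨_, _, hc, _⟩ := hDx
    rw [hD, csp_dg_conj_c] at hc
    have hcA := csp_I_le_A hc
    refine ⟨(u : ℚ) * (x.c / (u : ℚ) ^ 2), Subring.mul_mem _ (csp_A_nat q u) hcA, ?_⟩
    push_cast; field_simp
  have hpow := hP q u M hq hu huq hMpos hMu x hx hxc
  have h0 := hvan4 _ hpow
  rw [← conj_pow, hΨ.map_pow hDx, hΨ.map_pow hx, ← smul_sub] at h0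
  have hcop : Nat.Coprime ((u - 1) * u ^ 4) p := by
    refine Nat.Coprime.mul_left ?_ ?_
    · exact ((Nat.Prime.coprime_iff_not_dvd hp).2 hpu).symm
    · exact Nat.Coprime.pow_left 4 ((Nat.coprime_primes hu hp).2 hup)
  exact sub_eq_zero.1 (hV _ _ hcop h0)

end Fermat.Agent.LR
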