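import Fermat.Agent.LR.CSP.Seams

/-!
# CSP for `Γ(M)[1/q]`: Lemma L1 of finding #2684

Restriction `V_M → V_{M'}` is injective for `M ∣ M'`: a parabolic hom on `Γ(M)[1/q]` vanishing on
`Γ(M')[1/q]` vanishes.  By NORM it suffices to treat integral matrices; these are moved into
`Γ(M')` by five unipotent elements of `Γ(M)` (CRT + the Whitehead identity).
-/

set_option autoImplicit false

universe u

namespace Fermat.Agent.LR

/-- An integer lying in `M · ℤ[1/q]`, `M` coprime to `q`, is divisible by `M`. -/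
theorem csp_l1_dvd_of_mem {q : ℕ} {M : ℤ} (hMq : IsCoprime M (q : ℤ)) {z : ℤ}
    (hz : (z : ℚ) ∈ csp_I q M) : M ∣ z := by
  obtain ⟨y, ⟨n, w, hw⟩, hy⟩ := hz
  have h1 : z * (q : ℤ) ^ n = M * w := by
    have : ((z * (q : ℤ) ^ n : ℤ) : ℚ) = ((M * w : ℤ) : ℚ) := by
      push_cast
      rw [hy, ← hw]; ring
    exact_mod_cast this
  have h2 : IsCoprime M ((q : ℤ) ^ n) := hMq.pow_right
  exact h2.dvd_of_dvd_mul_right ⟨w, h1⟩

theorem csp_l1_ofInt_mem {q : ℕ} {M : ℤ} {a b c d : ℤ} (h : a * d - b * c = 1)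
    (ha : M ∣ a - 1) (hb : M ∣ b) (hc : M ∣ c) (hd : M ∣ d - 1) :
    csp_ofInt a b c d h ∈ csp_Gam q M := by
  refine ⟨?_, ?_, ?_, ?_⟩
  · have := csp_I_of_int (q := q) ha
    simpa using this
  · simpa using csp_I_of_int (q := q) hb
  · simpa using csp_I_of_int (q := q) hc
  · have := csp_I_of_int (q := q) hd
    simpa using this

theorem csp_l1_dvd_of_ofInt_mem {q : ℕ} {M : ℤ} (hMq : IsCoprime M (q : ℤ)) {a b c d : ℤ}
    {h : a * d - b * c = 1} (hg : csp_ofInt a b c d h ∈ csp_Gam q M) :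
    M ∣ a - 1 ∧ M ∣ b ∧ M ∣ c ∧ M ∣ d - 1 := by
  obtain ⟨ha, hb, hc, hd⟩ := hg
  refine ⟨csp_l1_dvd_of_mem hMq ?_, csp_l1_dvd_of_mem hMq ?_, csp_l1_dvd_of_mem hMq ?_,
    csp_l1_dvd_of_mem hMq ?_⟩
  · simpa using ha
  · simpa using hb
  · simpa using hc
  · simpa using hd

theorem csp_l1_e12_mul_ofInt (x a b c d : ℤ) (h : a * d - b * c = 1) :
    csp_e12 (x : ℚ) * csp_ofInt a b c d h =
      csp_ofInt (a + x * c) (b + x * d) c d (by linear_combination h) := by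
  ext <;> simp

theorem csp_l1_e21_mul_ofInt (y a b c d : ℤ) (h : a * d - b * c = 1) :
    csp_e21 (y : ℚ) * csp_ofInt a b c d h =
      csp_ofInt a b (c + y * a) (d + y * b) (by linear_combination h) := by
  ext <;> simp [add_comm]

theorem csp_l1_ofInt_mul (a b c d a' b' c' d' : ℤ) (h : a * d - b * c = 1)
    (h' : a' * d' - b' * c' = 1) :
    csp_ofInt a b c d h * csp_ofInt a' b' c' d' h' =
      csp_ofInt (a * a' + b * c') (a * b' + b * d') (c * a' + d * c') (c * b' + d * d')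
        (by linear_combination (a' * d' - b' * c') * h + h') := by
  ext <;> simp

/-- Elementary CRT: if `a` is coprime to `n` and `m ≠ 0`, some `a + k n` is coprime to `m`. -/
theorem csp_l1_crt (a n m : ℤ) (hm : m ≠ 0) (h : IsCoprime a n) :
    ∃ k : ℤ, IsCoprime (a + k * n) m := by
  classical
  let ps : Finset ℕ := {p ∈ m.natAbs.primeFactors | ¬ ((p : ℤ) ∣ a)}
  refine ⟨((ps.prod id : ℕ) : ℤ), ?_⟩
  rw [Int.isCoprime_iff_gcd_eq_one]
  change Nat.Coprime _ _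
  apply Nat.coprime_of_dvd
  intro p pp hp hpm
  have hp' : (p : ℤ) ∣ a + ((ps.prod id : ℕ) : ℤ) * n := Int.natCast_dvd.2 hp
  have ppi : Prime (p : ℤ) := Nat.prime_iff_prime_int.1 pp
  by_cases hpa : (p : ℤ) ∣ a
  · have h1 : (p : ℤ) ∣ ((ps.prod id : ℕ) : ℤ) * n := (dvd_add_right hpa).1 hp'
    rcases ppi.dvd_or_dvd h1 with h2 | h2
    · have h3 : p ∣ ps.prod id := Int.natCast_dvd_natCast.1 h2
      obtain ⟨r, hr, hr'⟩ := (pp.prime.dvd_finsetProd_iff id).1 h3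
      rw [Finset.mem_filter, Nat.mem_primeFactors] at hr
      have : p = r := (Nat.prime_dvd_prime_iff_eq pp hr.1.1).1 hr'
      subst this
      exact hr.2 hpa
    · exact ppi.not_isUnit (h.isUnit_of_dvd' hpa h2)
  · have pps : p ∈ ps :=
      Finset.mem_filter.2 ⟨Nat.mem_primeFactors.2 ⟨pp, hpm, by simpa using hm⟩, hpa⟩
    have h1 : (p : ℤ) ∣ ((ps.prod id : ℕ) : ℤ) * n :=
      Dvd.dvd.mul_right (Int.natCast_dvd_natCast.2 (Finset.dvd_prod_of_mem id pps)) n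
    exact hpa ((dvd_add_left h1).1 hp')

section stages

variable {q : ℕ} {M M' : ℤ} {V : Type u} [AddCommGroup V] {Ψ : CspM → V}

/-- Stage 3: `M' ∣ a - 1`, `M' ∣ c`. -/
theorem csp_l1_stage3 (hMq : IsCoprime M (q : ℤ)) (hP : csp_IsPar q M Ψ)
    (h0 : ∀ g, g ∈ csp_Gam q M' → Ψ g = 0) (a b c d : ℤ) (h : a * d - b * c = 1)
    (hg : csp_ofInt a b c d h ∈ csp_Gam q M) (ha' : M' ∣ a - 1) (hc' : M' ∣ c) :
    Ψ (csp_ofInt a b c d h) = 0 := by
  obtain ⟨ha, hb, hc, hd⟩ := csp_l1_dvd_of_ofInt_mem hMq hg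
  have hx : ((-b : ℤ) : ℚ) ∈ csp_I q M := csp_I_of_int (dvd_neg.2 hb)
  rw [← hP.e12_mul hx hg, csp_l1_e12_mul_ofInt]
  apply h0
  have hd' : M' ∣ d - 1 := by
    have : d - 1 = b * c - (a - 1) * d := by linear_combination h
    rw [this]
    exact dvd_sub (hc'.mul_left b) (ha'.mul_right d)
  apply csp_l1_ofInt_mem
  · have : a + -b * c - 1 = (a - 1) - b * c := by ring
    rw [this]
    exact dvd_sub ha' (hc'.mul_left b)
  · have : b + -b * d = -b * (d - 1) := by ring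
    rw [this]
    exact hd'.mul_left _
  · exact hc'
  · exact hd'

/-- Stage 2: `M' ∣ c` (Whitehead step). -/
theorem csp_l1_stage2 (hMq : IsCoprime M (q : ℤ)) (hP : csp_IsPar q M Ψ)
    (h0 : ∀ g, g ∈ csp_Gam q M' → Ψ g = 0) (a b c d : ℤ) (h : a * d - b * c = 1)
    (hg : csp_ofInt a b c d h ∈ csp_Gam q M) (hc' : M' ∣ c) :
    Ψ (csp_ofInt a b c d h) = 0 := by
  obtain ⟨⟨s, hs⟩, hb, hc, hd⟩ := csp_l1_dvd_of_ofInt_mem hMq hg
  -- first move: `e21 (M d)`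
  have hy : ((M * d : ℤ) : ℚ) ∈ csp_I q M := csp_I_of_int (dvd_mul_right M d)
  have hg1 : csp_e21 ((M * d : ℤ) : ℚ) * csp_ofInt a b c d h ∈ csp_Gam q M :=
    mul_mem (csp_e21_mem hy) hg
  -- second move: the unipotent `U⁻¹ = [[2 - a, s² M], [-M, a]]`
  have hU : (2 - a) * a - (s * s * M) * (-M) = 1 := by
    linear_combination (-(a - 1 + M * s)) * hs
  have hUmem : csp_ofInt (2 - a) (s * s * M) (-M) a hU ∈ csp_Gam q M := by
    apply csp_l1_ofInt_mem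
    · exact ⟨-s, by linear_combination (-1 : ℤ) * hs⟩
    · exact dvd_mul_left M _
    · exact dvd_neg.2 dvd_rfl
    · exact ⟨s, hs⟩
  have hUt : (csp_ofInt (2 - a) (s * s * M) (-M) a hU).a +
      (csp_ofInt (2 - a) (s * s * M) (-M) a hU).d = 2 := by
    simp
  rw [← hP.e21_mul hy hg, ← hP.unip_mul hUmem hUt hg1]
  have hg2 := mul_mem hUmem hg1
  rw [csp_l1_e21_mul_ofInt, csp_l1_ofInt_mul] at hg2 ⊢
  refine csp_l1_stage3 hMq hP h0 _ _ _ _ _ hg2 ?_ ?_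
  · have : (2 - a) * a + s * s * M * (c + M * d * a) - 1 = c * (s * s * M * (M * b + 1)) := by
      linear_combination (-(a - 1 + M * s)) * hs + (s * s * M * M) * h
    rw [this]
    exact hc'.mul_right _
  · have : -M * a + a * (c + M * d * a) = c * (a * (1 + M * b)) := by
      linear_combination (M * a) * h
    rw [this]
    exact hc'.mul_right _

/-- Stage 1: `a` coprime to `M'`. -/
theorem csp_l1_stage1 (hMq : IsCoprime M (q : ℤ)) (hP : csp_IsPar q M Ψ)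
    (h0 : ∀ g, g ∈ csp_Gam q M' → Ψ g = 0) (a b c d : ℤ) (h : a * d - b * c = 1)
    (hg : csp_ofInt a b c d h ∈ csp_Gam q M) (ha' : IsCoprime a M') :
    Ψ (csp_ofInt a b c d h) = 0 := by
  obtain ⟨ha, hb, hc, hd⟩ := csp_l1_dvd_of_ofInt_mem hMq hg
  obtain ⟨u, v, huv⟩ := ha'
  have hy : ((-c * u : ℤ) : ℚ) ∈ csp_I q M := csp_I_of_int ((dvd_neg.2 hc).mul_right u)
  have hg1 := mul_mem (csp_e21_mem hy) hg
  rw [← hP.e21_mul hy hg]
  rw [csp_l1_e21_mul_ofInt] at hg1 ⊢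
  refine csp_l1_stage2 hMq hP h0 _ _ _ _ _ hg1 ?_
  exact ⟨c * v, by linear_combination (-c) * huv⟩

/-- Stage 0: every integral matrix of `Γ(M)`. -/
theorem csp_l1_stage0 (hMq : IsCoprime M (q : ℤ)) (hM' : M' ≠ 0) (hP : csp_IsPar q M Ψ)
    (h0 : ∀ g, g ∈ csp_Gam q M' → Ψ g = 0) (a b c d : ℤ) (h : a * d - b * c = 1)
    (hg : csp_ofInt a b c d h ∈ csp_Gam q M) :
    Ψ (csp_ofInt a b c d h) = 0 := by
  obtain ⟨⟨s, hs⟩, hb, hc, hd⟩ := csp_l1_dvd_of_ofInt_mem hMq hg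
  have hac : IsCoprime a c := ⟨d, -b, by linear_combination h⟩
  have haM : IsCoprime a M := ⟨1, -s, by linear_combination hs⟩
  obtain ⟨k, hk⟩ := csp_l1_crt a (M * c) M' hM' (haM.mul_right hac)
  have hx : ((k * M : ℤ) : ℚ) ∈ csp_I q M := csp_I_of_int (dvd_mul_left M k)
  have hg1 := mul_mem (csp_e12_mem hx) hg
  rw [← hP.e12_mul hx hg]
  rw [csp_l1_e12_mul_ofInt] at hg1 ⊢
  refine csp_l1_stage1 hMq hP h0 _ _ _ _ _ hg1 ?_
  have : a + k * M * c = a + k * (M * c) := by ring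
  rw [this]
  exact hk

end stages

/-- **L1** of finding #2684: restriction `V_M → V_{M'}` is injective. -/
theorem csp_l1 (hN : csp_Norm_stmt.{u}) : csp_L1_stmt.{u} := by
  intro q M M' hq hM hdiv hM'pos hM'q V _ Ψ hP h0
  have hMq : IsCoprime M (q : ℤ) := IsCoprime.of_isCoprime_of_dvd_left hM'q hdiv
  refine hN q M hq hM hMq Ψ hP ?_
  intro a b c d h hg
  exact csp_l1_stage0 hMq hM'pos.ne' hP h0 a b c d h hg

end Fermat.Agent.LR
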