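import Fermat.Agent.LR.CSP.Seams

/-!
# CSP for `Γ(M)[1/q]`: the inversion endgame (cell [X-MAIN] of finding #2684)

`csp_main : csp_Norm_stmt → csp_L1_stmt → csp_L4_stmt → csp_L5_stmt → csp_Main_stmt`.
-/

set_option autoImplicit false

universe u

namespace Fermat.Agent.LR

/-! ### Arithmetic helpers -/

/-- Bridge: an integer lying in `M·ℤ[1/q]` is divisible by `M` when `M` is prime to `q`. -/
theorem csp_mn_dvd_of_mem {q : ℕ} {M : ℤ} (hMq : IsCoprime M (q : ℤ)) {z : ℤ}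
    (hz : (z : ℚ) ∈ csp_I q M) : M ∣ z := by
  obtain ⟨y, ⟨n, w, hw⟩, hzy⟩ := hz
  have h1 : (z : ℚ) * (q : ℚ) ^ n = (M : ℚ) * w := by
    rw [hzy, mul_assoc, hw]
  have h2 : z * (q : ℤ) ^ n = M * w := by exact_mod_cast h1
  have h3 : M ∣ z * (q : ℤ) ^ n := ⟨w, h2⟩
  exact (hMq.pow_right (n := n)).dvd_of_dvd_mul_right h3

/-- Chinese remainder theorem over `ℤ` for two coprime moduli. -/
theorem csp_mn_crt {m n : ℤ} (h : IsCoprime m n) (x y : ℤ) :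
    ∃ r : ℤ, m ∣ r - x ∧ n ∣ r - y := by
  obtain ⟨s, t, hst⟩ := h
  refine ⟨x * (t * n) + y * (s * m), ⟨(y - x) * s, ?_⟩, ⟨(x - y) * t, ?_⟩⟩
  · linear_combination x * hst
  · linear_combination y * hst

/-- Coprimality is invariant under changing the residue. -/
theorem csp_mn_coprime_of_dvd_sub {x y n : ℤ} (h : n ∣ x - y) (hy : IsCoprime y n) :
    IsCoprime x n := by
  obtain ⟨k, hk⟩ := h
  have : x = y + k * n := by linear_combination hk
  rw [this]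
  exact hy.add_mul_right_left k

/-- Dirichlet with a nonzero integral modulus. -/
theorem csp_mn_dirichlet {m : ℤ} (hm : m ≠ 0) {r : ℤ} (h : IsCoprime r m) (B : ℕ) :
    ∃ ℓ : ℕ, B < ℓ ∧ ℓ.Prime ∧ m ∣ (ℓ : ℤ) - r := by
  have hm' : m.natAbs ≠ 0 := Int.natAbs_ne_zero.mpr hm
  have hcast : ((m.natAbs : ℕ) : ℤ) = |m| := Int.natCast_natAbs m
  have hcop : IsCoprime r ((m.natAbs : ℕ) : ℤ) := by
    rw [hcast]
    rcases abs_choice m with h' | h' <;> rw [h']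
    · exact h
    · exact h.neg_right
  obtain ⟨ℓ, hB, hℓ, hmod⟩ :=
    Nat.forall_exists_prime_gt_and_zmodEq B (q := m.natAbs) (a := r) hm' hcop
  refine ⟨ℓ, hB, hℓ, ?_⟩
  have := hmod.symm.dvd
  rw [hcast] at this
  exact (abs_dvd m _).mp this

/-- A prime bigger than `|z|` is coprime to `z ≠ 0`. -/
theorem csp_mn_coprime_prime {ℓ : ℕ} (hℓ : ℓ.Prime) {z : ℤ} (hz : z ≠ 0) (hlt : z.natAbs < ℓ) :
    IsCoprime z (ℓ : ℤ) := by
  rw [isCoprime_comm, (Nat.prime_iff_prime_int.mp hℓ).coprime_iff_not_dvd]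
  intro hd
  have h1 : ℓ ∣ z.natAbs := by
    have := Int.natAbs_dvd_natAbs.mpr hd
    simpa using this
  have h2 := Nat.le_of_dvd (Int.natAbs_pos.mpr hz) h1
  omega

/-- Step 2 residue: `r ≡ a0 (mod n)`, `r ≡ 1 (mod 4)` where `n = M·c` and `M` is level OK. -/
theorem csp_mn_residue {M n a0 : ℤ} (hOK : csp_LevelOK M) (hodd : ¬ (2 : ℤ) ∣ M → ¬ (2 : ℤ) ∣ n)
    (ha0 : M ∣ a0 - 1) :
    ∃ r : ℤ, n ∣ r - a0 ∧ (4 : ℤ) ∣ r - 1 := by
  rcases hOK with h2 | h4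
  · -- `n` odd: CRT
    have hn2 : IsCoprime n 2 := by
      rw [isCoprime_comm, (Int.prime_two).coprime_iff_not_dvd]
      exact hodd h2
    have hn4 : IsCoprime n 4 := by
      have : (4 : ℤ) = 2 * 2 := by norm_num
      rw [this]; exact hn2.mul_right hn2
    exact csp_mn_crt hn4 a0 1
  · exact ⟨a0, by simp, h4.trans ha0⟩

/-- The arithmetic of the inversion endgame: Dirichlet four times. -/
theorem csp_mn_arith {q p : ℕ} {M : ℤ} (hp : p.Prime) (hp2 : p ≠ 2)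
    (hM : 2 < M) (hOK : csp_LevelOK M) {a0 c0 : ℤ} (ha0 : M ∣ a0 - 1) (hc0 : M ∣ c0)
    (hac : IsCoprime a0 c0) :
    ∃ (πc a u : ℕ) (k1 k2 d : ℤ), u.Prime ∧
      M * πc = c0 + k1 * M * a0 ∧
      (a : ℤ) = a0 + k2 * M * (M * πc) ∧
      (a : ℤ) * d - ((u : ℤ) ^ 2 * (M * πc)) * (M * πc) = 1 ∧
      M ∣ d - 1 ∧ u ≠ q ∧ u ≠ p ∧ ¬ (p ∣ u - 1) ∧ IsCoprime M (u : ℤ) := by
  obtain ⟨c1, rfl⟩ := hc0
  have ha0M : IsCoprime a0 M := by
    obtain ⟨k, hk⟩ := ha0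
    exact ⟨1, -k, by linear_combination hk⟩
  have ha0c1 : IsCoprime a0 c1 := hac.of_mul_right_right
  have ha0ne : a0 ≠ 0 := by
    rintro rfl
    have h1 : M ∣ 1 := by
      have := (dvd_neg (a := M) (b := (0 : ℤ) - 1)).mpr ha0
      simpa using this
    have := Int.le_of_dvd one_pos h1
    omega
  -- Step 1: the prime `πc`
  obtain ⟨πc, hπB, hπp, hπd⟩ := csp_mn_dirichlet ha0ne ha0c1.symm (a0.natAbs + 2)
  obtain ⟨k1, hk1⟩ := hπd
  have hπ2 : ¬ (2 : ℤ) ∣ (πc : ℤ) := by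
    intro h
    have h' : (2 : ℕ) ∣ πc := by exact_mod_cast h
    have := (Nat.prime_dvd_prime_iff_eq Nat.prime_two hπp).mp h'
    omega
  have ha0π : IsCoprime a0 (πc : ℤ) := csp_mn_coprime_prime hπp ha0ne (by omega)
  have ha0n : IsCoprime a0 (M * (M * πc)) := ha0M.mul_right (ha0M.mul_right ha0π)
  -- Step 2: the prime `a`
  obtain ⟨r2, hr2n, hr24⟩ := csp_mn_residue (M := M) (n := M * (M * πc)) (a0 := a0) hOK
    (by
      intro h2 h
      rcases (Int.prime_two).dvd_or_dvd h with h | h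
      · exact h2 h
      · rcases (Int.prime_two).dvd_or_dvd h with h | h
        · exact h2 h
        · exact hπ2 h) ha0
  have hr2cop : IsCoprime r2 (4 * (M * (M * πc))) := by
    have h4 : IsCoprime r2 4 := by
      have : IsCoprime (1 : ℤ) 4 := isCoprime_one_left
      exact csp_mn_coprime_of_dvd_sub hr24 this
    exact h4.mul_right (csp_mn_coprime_of_dvd_sub hr2n ha0n)
  have hπpos : (0 : ℤ) < πc := by exact_mod_cast hπp.pos
  have hmod2 : (4 * (M * (M * πc)) : ℤ) ≠ 0 := by positivity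
  obtain ⟨a, haB, hap, had⟩ := csp_mn_dirichlet hmod2 hr2cop (p + q + 4)
  have ha4 : (4 : ℤ) ∣ (a : ℤ) - 1 := by
    have h1 : (4 : ℤ) ∣ (a : ℤ) - r2 := (Dvd.intro _ rfl).trans had
    have := dvd_add h1 hr24
    simpa using this
  have han : M * (M * πc) ∣ (a : ℤ) - a0 := by
    have h1 : M * (M * πc) ∣ (a : ℤ) - r2 := (Dvd.intro_left _ rfl).trans had
    have := dvd_add h1 hr2n
    simpa using this
  obtain ⟨k2, hk2⟩ := han
  have hacop : IsCoprime (a : ℤ) (M * (M * πc)) :=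
    csp_mn_coprime_of_dvd_sub ⟨k2, hk2⟩ ha0n
  have hac' : IsCoprime (M * (πc : ℤ)) (a : ℤ) := hacop.symm.of_mul_left_right
  -- Step 3: `i` with `i² = -1 mod a`
  have : Fact a.Prime := ⟨hap⟩
  have ha_mod : a % 4 ≠ 3 := by
    have : ((a : ℤ) - 1) % 4 = 0 := Int.emod_eq_zero_of_dvd ha4
    omega
  obtain ⟨i, hi⟩ := (ZMod.exists_sq_eq_neg_one_iff (p := a)).mpr ha_mod
  obtain ⟨s, t, hst⟩ := hac'
  -- residue for `u` modulo `a`: `i * s` where `s * (M πc) ≡ 1`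
  have hiunit : IsCoprime (i.val : ℤ) (a : ℤ) := by
    rw [isCoprime_comm, (Nat.prime_iff_prime_int.mp hap).coprime_iff_not_dvd]
    intro hd
    have : ((i.val : ℤ) : ZMod a) = 0 := (ZMod.intCast_zmod_eq_zero_iff_dvd _ _).mpr hd
    have hi0 : i = 0 := by simpa using this
    rw [hi0] at hi
    have h1 : (1 : ZMod a) = 0 := by
      have := congrArg Neg.neg hi
      simp at this
    exact one_ne_zero h1
  have hsunit : IsCoprime s (a : ℤ) := ⟨M * πc, t, by linear_combination hst⟩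
  have hap_cop : IsCoprime (a : ℤ) (p : ℤ) := by
    rw [Nat.isCoprime_iff_coprime, Nat.coprime_primes hap hp]
    omega
  obtain ⟨r3, hr3a, hr3p⟩ := csp_mn_crt hap_cop ((i.val : ℤ) * s) 2
  have h2p : IsCoprime (2 : ℤ) (p : ℤ) := by
    have : IsCoprime ((2 : ℕ) : ℤ) (p : ℤ) := by
      rw [Nat.isCoprime_iff_coprime, Nat.coprime_primes Nat.prime_two hp]
      exact fun h => hp2 h.symm
    simpa using this
  have hr3cop : IsCoprime r3 ((a : ℤ) * p) :=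
    (csp_mn_coprime_of_dvd_sub hr3a (hiunit.mul_left hsunit)).mul_right
      (csp_mn_coprime_of_dvd_sub hr3p h2p)
  have hmod3 : ((a : ℤ) * p) ≠ 0 := by
    have h1 : (0 : ℤ) < a := by exact_mod_cast hap.pos
    have h2 : (0 : ℤ) < p := by exact_mod_cast hp.pos
    positivity
  obtain ⟨u, huB, hup, hud⟩ := csp_mn_dirichlet hmod3 hr3cop (M.natAbs + p + q + 2)
  have hua : (a : ℤ) ∣ (u : ℤ) - (i.val : ℤ) * s := by
    have h1 : (a : ℤ) ∣ (u : ℤ) - r3 := (Dvd.intro _ rfl).trans hud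
    have := dvd_add h1 hr3a
    simpa using this
  have hu2 : (p : ℤ) ∣ (u : ℤ) - 2 := by
    have h1 : (p : ℤ) ∣ (u : ℤ) - r3 := (Dvd.intro_left _ rfl).trans hud
    have := dvd_add h1 hr3p
    simpa using this
  -- `a ∣ 1 + u² c²`
  have hdiv : (a : ℤ) ∣ 1 + ((u : ℤ) ^ 2 * (M * πc)) * (M * πc) := by
    rw [← ZMod.intCast_zmod_eq_zero_iff_dvd]
    have hu' : (u : ZMod a) = i * (s : ZMod a) := by
      have := (ZMod.intCast_zmod_eq_zero_iff_dvd _ a).mpr hua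
      push_cast at this
      rw [sub_eq_zero] at this
      simpa using this
    have hs' : (s : ZMod a) * ((M : ZMod a) * (πc : ZMod a)) = 1 := by
      have := congrArg (Int.cast : ℤ → ZMod a) hst
      push_cast at this
      simpa using this
    push_cast
    rw [hu']
    have : (i * (s : ZMod a)) ^ 2 * ((M : ZMod a) * (πc : ZMod a)) * ((M : ZMod a) * (πc : ZMod a))
        = (i * i) * ((s : ZMod a) * ((M : ZMod a) * (πc : ZMod a))) ^ 2 := by ring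
    rw [this, hs', ← hi]; ring
  obtain ⟨d, hd⟩ := hdiv
  refine ⟨πc, a, u, k1, k2, d, hup, ?_, ?_, ?_, ?_, ?_, ?_, ?_, ?_⟩
  · linear_combination M * hk1
  · linear_combination hk2
  · linear_combination -hd
  · -- `M ∣ d - 1`
    have h1 : M ∣ (a : ℤ) - 1 := by
      have : (a : ℤ) - 1 = (a0 - 1) + M * (M * πc) * k2 := by linear_combination hk2
      rw [this]
      exact dvd_add ha0 ⟨(M * πc) * k2, by ring⟩
    obtain ⟨e, he⟩ := h1
    refine ⟨(u : ℤ) ^ 2 * πc * (M * πc) - e * d, ?_⟩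
    linear_combination -hd - d * he
  · omega
  · omega
  · intro hpu
    have h1 : (p : ℤ) ∣ ((u - 1 : ℕ) : ℤ) := by exact_mod_cast hpu
    have hu1 : 1 ≤ u := hup.pos
    rw [Nat.cast_sub hu1] at h1
    have h2 : (p : ℤ) ∣ ((u : ℤ) - (1 : ℕ)) - ((u : ℤ) - 2) := dvd_sub h1 hu2
    have h3 : (p : ℤ) ∣ 1 := by
      have : ((u : ℤ) - (1 : ℕ)) - ((u : ℤ) - 2) = 1 := by push_cast; ring
      rwa [this] at h2
    have h4 : p ∣ 1 := by exact_mod_cast h3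
    exact hp.one_lt.ne' (Nat.dvd_one.mp h4)
  · exact csp_mn_coprime_prime hup (by omega) (by omega)

/-! ### Matrix identities -/

theorem csp_mn_w_eq : csp_w = csp_e12 1 * csp_e21 (-1) * csp_e12 1 := by
  ext <;> simp

/-- Membership of an integral matrix in `Γ(M)`. -/
theorem csp_mn_ofInt_mem {q : ℕ} {M : ℤ} {a b c d : ℤ} (h : a * d - b * c = 1)
    (ha : M ∣ a - 1) (hb : M ∣ b) (hc : M ∣ c) (hd : M ∣ d - 1) :
    csp_ofInt a b c d h ∈ csp_Gam q M := by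
  refine ⟨?_, csp_I_of_int hb, csp_I_of_int hc, ?_⟩
  · have := csp_I_of_int (q := q) ha
    simpa using this
  · have := csp_I_of_int (q := q) hd
    simpa using this

/-- Invariance of `Ψ` under conjugation by `w` from (L4). -/
theorem csp_mn_conj_w (h4 : csp_L4_stmt.{u}) {q : ℕ} {M : ℤ} (hq : q.Prime) (hM : 2 < M)
    (hMq : IsCoprime M (q : ℤ)) (hOK : csp_LevelOK M) {V : Type u} [AddCommGroup V]
    {Ψ : CspM → V} (hΨ : csp_IsPar q M Ψ) {g : CspM} (hg : g ∈ csp_Gam q M) :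
    Ψ (csp_w * g * csp_w⁻¹) = Ψ g := by
  have hone : (1 : ℚ) ∈ csp_A q := Subring.one_mem _
  have hneg : (-1 : ℚ) ∈ csp_A q := Subring.neg_mem _ hone
  have L := h4 q M hq hM hMq hOK Ψ hΨ
  have hx1 : csp_e12 1 * g * (csp_e12 1)⁻¹ ∈ csp_Gam q M := csp_Gam_conj (csp_e12_memA hone) hg
  have hx2 : csp_e21 (-1) * (csp_e12 1 * g * (csp_e12 1)⁻¹) * (csp_e21 (-1))⁻¹ ∈ csp_Gam q M :=
    csp_Gam_conj (csp_e21_memA hneg) hx1
  have e : csp_w * g * csp_w⁻¹ =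
      csp_e12 1 * (csp_e21 (-1) * (csp_e12 1 * g * (csp_e12 1)⁻¹) * (csp_e21 (-1))⁻¹) *
        (csp_e12 1)⁻¹ := by
    rw [csp_mn_w_eq]; group
  rw [e, (L 1 hone _ hx2).1, (L (-1) hneg _ hx1).2, (L 1 hone _ hg).1]

/-- The inversion endgame on integral matrices, at a level which is OK and `> 2`. -/
theorem csp_mn_core (h4 : csp_L4_stmt.{u}) (h5 : csp_L5_stmt.{u}) {q p : ℕ} {M : ℤ}
    (hq : q.Prime) (hp : p.Prime) (hp2 : p ≠ 2) (hM : 2 < M) (hMq : IsCoprime M (q : ℤ))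
    (hOK : csp_LevelOK M) {V : Type u} [AddCommGroup V] (hV : csp_PTors p V)
    {Ψ : CspM → V} (hΨ : csp_IsPar q M Ψ) (a0 b0 c0 d0 : ℤ) (h0 : a0 * d0 - b0 * c0 = 1)
    (hg0 : csp_ofInt a0 b0 c0 d0 h0 ∈ csp_Gam q M) : Ψ (csp_ofInt a0 b0 c0 d0 h0) = 0 := by
  have ha0 : M ∣ a0 - 1 := by
    refine csp_mn_dvd_of_mem hMq ?_
    have := hg0.1
    simpa using this
  have hc0 : M ∣ c0 := csp_mn_dvd_of_mem hMq hg0.2.2.1
  have hac : IsCoprime a0 c0 := ⟨d0, -b0, by linear_combination h0⟩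
  obtain ⟨πc, a, u, k1, k2, d, hup, hc, ha, hdet, hd1, huq, hupp, hpu, hMu⟩ :=
    csp_mn_arith (q := q) hp hp2 hM hOK ha0 hc0 hac
  have hcQ : (M : ℚ) * πc = c0 + k1 * M * a0 := by exact_mod_cast hc
  have haQ : (a : ℚ) = a0 + k2 * M * (M * πc) := by exact_mod_cast ha
  have hk1 : ((k1 * M : ℤ) : ℚ) ∈ csp_I q M := csp_I_of_int (Dvd.intro_left _ rfl)
  have hk2 : ((k2 * M : ℤ) : ℚ) ∈ csp_I q M := csp_I_of_int (Dvd.intro_left _ rfl)
  have hg1 : csp_e21 ((k1 * M : ℤ) : ℚ) * csp_ofInt a0 b0 c0 d0 h0 ∈ csp_Gam q M :=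
    mul_mem (csp_e21_mem hk1) hg0
  have hg2 : csp_e12 ((k2 * M : ℤ) : ℚ) * (csp_e21 ((k1 * M : ℤ) : ℚ) * csp_ofInt a0 b0 c0 d0 h0)
      ∈ csp_Gam q M := mul_mem (csp_e12_mem hk2) hg1
  have e1 := hΨ.e21_mul hk1 hg0
  have e2 := hΨ.e12_mul hk2 hg1
  -- the symmetric matrix `g = [[a, u²c],[c, d]]`
  have hMa : M ∣ (a : ℤ) - 1 := by
    have : (a : ℤ) - 1 = (a0 - 1) + M * (k2 * (M * πc)) := by linear_combination ha
    rw [this]; exact dvd_add ha0 (Dvd.intro _ rfl)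
  have hg : csp_ofInt a ((u : ℤ) ^ 2 * (M * πc)) (M * πc) d hdet ∈ csp_Gam q M :=
    csp_mn_ofInt_mem hdet hMa (Dvd.intro _ rfl |>.mul_left _) (Dvd.intro _ rfl) hd1
  have e3 : Ψ (csp_ofInt a ((u : ℤ) ^ 2 * (M * πc)) (M * πc) d hdet) =
      Ψ (csp_e12 ((k2 * M : ℤ) : ℚ) * (csp_e21 ((k1 * M : ℤ) : ℚ) * csp_ofInt a0 b0 c0 d0 h0)) := by
    refine hΨ.col hg hg2 ?_ ?_
    · simp only [csp_ofInt_a, CspM.mul_a, CspM.mul_c, csp_e12_a, csp_e12_b, csp_e21_a, csp_e21_b,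
        csp_e21_c, csp_e21_d, csp_ofInt_c]
      push_cast
      rw [haQ]
      linear_combination (k2 : ℚ) * M * hcQ
    · simp only [csp_ofInt_a, CspM.mul_a, CspM.mul_c, csp_e12_c, csp_e12_d, csp_e21_c, csp_e21_d,
        csp_ofInt_c]
      push_cast
      linear_combination hcQ
  -- inversion
  set g := csp_ofInt a ((u : ℤ) ^ 2 * (M * πc)) (M * πc) d hdet with hgdef
  have hW : Ψ (csp_w * g * csp_w⁻¹) = Ψ g := csp_mn_conj_w h4 hq hM hMq hOK hΨ hg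
  have hgw : csp_w * g * csp_w⁻¹ ∈ csp_Gam q M := csp_Gam_conj (csp_w_memA q) hg
  have hu0 : (u : ℚ) ≠ 0 := by exact_mod_cast hup.ne_zero
  have hinv : csp_D (u : ℚ) hu0 * (csp_w * g * csp_w⁻¹) * (csp_D (u : ℚ) hu0)⁻¹ = g⁻¹ := by
    ext <;> simp [hgdef] <;> field_simp
  have h5' := h5 q p u M hq hp hup hM hMq hOK huq hupp hpu hMu hV Ψ hΨ hu0 _ hgw
    (by rw [hinv]; exact inv_mem hg)
  rw [hinv, hΨ.map_inv hg, hW] at h5'
  have h2 : (2 : ℕ) • Ψ g = 0 := by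
    rw [two_nsmul]
    nth_rewrite 1 [← h5']
    exact neg_add_cancel _
  have hcop : Nat.Coprime 2 p := by
    rw [Nat.coprime_primes Nat.prime_two hp]
    exact fun h => hp2 h.symm
  have hz : Ψ g = 0 := hV 2 _ hcop h2
  rw [← e1, ← e2, ← e3]
  exact hz

/-- **[X-MAIN]** `V_M = 0`: the inversion endgame of finding #2684, from the seams
NORM, L1, L4, L5. -/
theorem csp_main (hN : csp_Norm_stmt.{u}) (h1 : csp_L1_stmt.{u}) (h4 : csp_L4_stmt.{u})
    (h5 : csp_L5_stmt.{u}) : csp_Main_stmt.{u} := by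
  intro q p M hq hp hp2 hM hMq V _ hV Ψ hΨ
  -- enlarge the level: `M' > 2`, level OK, still prime to `q`
  obtain ⟨M', hMM', hM'2, hM'q, hOK⟩ :
      ∃ M' : ℤ, M ∣ M' ∧ 2 < M' ∧ IsCoprime M' (q : ℤ) ∧ csp_LevelOK M' := by
    by_cases h2 : (2 : ℤ) ∣ M
    · refine ⟨2 * M, Dvd.intro_left _ rfl, by omega, ?_, Or.inr ?_⟩
      · have : IsCoprime (2 : ℤ) q := hMq.of_isCoprime_of_dvd_left h2
        exact this.mul_left hMq
      · obtain ⟨k, rfl⟩ := h2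
        exact ⟨k, by ring⟩
    · refine ⟨M, dvd_refl _, ?_, hMq, Or.inl h2⟩
      by_contra hlt
      have : M = 2 := by omega
      exact h2 (this ▸ dvd_refl _)
  have hΨ' : csp_IsPar q M' Ψ := hΨ.mono hMM'
  refine h1 q M M' hq hM hMM' (by omega) hM'q Ψ hΨ ?_
  refine hN q M' hq (by omega) hM'q Ψ hΨ' ?_
  intro a b c d h hmem
  exact csp_mn_core h4 h5 hq hp hp2 hM'2 hM'q hOK hV hΨ' a b c d h hmem

end Fermat.Agent.LR
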