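import Fermat.Agent.LR.CSP.Seams

/-!
# CSP for `Γ(M)[1/q]`: cells [X-L3] and [X-L4] of finding #2684

* `csp_wk_conj_mem` : if `s • k` is integral over `ℤ[1/q]` then `k Γ(M s²) k⁻¹ ⊆ Γ(M)`;
* `csp_l3 : csp_L2_stmt → csp_L3_stmt` (weak invariance under `e12(t)`, `e21(t)`, `t ∈ (1/r)ℤ[1/q]`,
  via `h D(q) h⁻¹ D(q)⁻¹ = e12(t)` for `h = e12(-t/m)`, `m = q² - 1`);
* `csp_l4 : csp_L1_stmt → csp_L3_stmt → csp_L4_stmt` (strong invariance, `t ∈ ℤ[1/q]`).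
Prefix `csp_wk_`.
-/

set_option autoImplicit false

universe u

namespace Fermat.Agent.LR

/-- If `s • k` has entries in `ℤ[1/q]`, conjugation by `k` maps `Γ(M s²)` into `Γ(M)`. -/
theorem csp_wk_conj_mem {q : ℕ} {M s : ℤ} {k g : CspM}
    (ka : (s : ℚ) * k.a ∈ csp_A q) (kb : (s : ℚ) * k.b ∈ csp_A q)
    (kc : (s : ℚ) * k.c ∈ csp_A q) (kd : (s : ℚ) * k.d ∈ csp_A q)
    (hg : g ∈ csp_Gam q (M * s ^ 2)) : k * g * k⁻¹ ∈ csp_Gam q M := by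
  obtain ⟨ga, gb, gc, gd⟩ := hg
  have hdet := k.det
  have m2 : ∀ {x y z : ℚ}, (s : ℚ) * x ∈ csp_A q → (s : ℚ) * y ∈ csp_A q →
      z ∈ csp_I q (M * s ^ 2) → x * y * z ∈ csp_I q M := by
    intro x y z hx hy hz
    obtain ⟨y0, hy0, rfl⟩ := hz
    refine ⟨((s : ℚ) * x) * ((s : ℚ) * y) * y0,
      Subring.mul_mem _ (Subring.mul_mem _ hx hy) hy0, ?_⟩
    push_cast
    ring
  refine ⟨?_, ?_, ?_, ?_⟩
  · have : (k * g * k⁻¹).a - 1 =
        k.a * k.d * (g.a - 1) - k.a * k.c * g.b + k.b * k.d * g.c - k.b * k.c * (g.d - 1) := by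
      simp; linear_combination (1 : ℚ) * hdet
    rw [this]
    exact sub_mem (add_mem (sub_mem (m2 ka kd ga) (m2 ka kc gb)) (m2 kb kd gc)) (m2 kb kc gd)
  · have : (k * g * k⁻¹).b =
        - (k.a * k.b * (g.a - 1)) + k.a * k.a * g.b - k.b * k.b * g.c + k.a * k.b * (g.d - 1) := by
      simp; ring
    rw [this]
    exact add_mem (sub_mem (add_mem (neg_mem (m2 ka kb ga)) (m2 ka ka gb)) (m2 kb kb gc))
      (m2 ka kb gd)
  · have : (k * g * k⁻¹).c =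
        k.c * k.d * (g.a - 1) - k.c * k.c * g.b + k.d * k.d * g.c - k.c * k.d * (g.d - 1) := by
      simp; ring
    rw [this]
    exact sub_mem (add_mem (sub_mem (m2 kc kd ga) (m2 kc kc gb)) (m2 kd kd gc)) (m2 kc kd gd)
  · have : (k * g * k⁻¹).d - 1 =
        - (k.b * k.c * (g.a - 1)) + k.a * k.c * g.b - k.b * k.d * g.c + k.a * k.d * (g.d - 1) := by
      simp; linear_combination (1 : ℚ) * hdet
    rw [this]
    exact add_mem (sub_mem (add_mem (neg_mem (m2 kb kc ga)) (m2 ka kc gb)) (m2 kb kd gc))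
      (m2 ka kd gd)

/-- `D(q)` lies in `SL₂(ℤ[1/q])`. -/
theorem csp_wk_Dq_memA {q : ℕ} (hq : q ≠ 0) : csp_Dq q hq ∈ csp_GamA q := by
  have := csp_D_memA hq 1
  simpa [csp_Dq] using this

set_option linter.unnecessarySeqFocus false in
/-- the commutator identity `h D h⁻¹ D⁻¹ = e12(t)` for `h = e12(-t/m)`, `m = q² - 1` -/
theorem csp_wk_comm12 {q : ℕ} (hq : q ≠ 0) (hm : ((q : ℚ)) ^ 2 - 1 ≠ 0) (t : ℚ) :
    csp_e12 (-t / ((q : ℚ) ^ 2 - 1)) * csp_Dq q hq * (csp_e12 (-t / ((q : ℚ) ^ 2 - 1)))⁻¹ *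
      (csp_Dq q hq)⁻¹ = csp_e12 t := by
  have hq' : (q : ℚ) ≠ 0 := by exact_mod_cast hq
  ext <;> simp [csp_Dq] <;> field_simp <;> ring

set_option linter.unnecessarySeqFocus false in
/-- the commutator identity `h D h⁻¹ D⁻¹ = e21(t)` for `h = e21(t q²/m)`, `m = q² - 1` -/
theorem csp_wk_comm21 {q : ℕ} (hq : q ≠ 0) (hm : ((q : ℚ)) ^ 2 - 1 ≠ 0) (t : ℚ) :
    csp_e21 (t * (q : ℚ) ^ 2 / ((q : ℚ) ^ 2 - 1)) * csp_Dq q hq *
      (csp_e21 (t * (q : ℚ) ^ 2 / ((q : ℚ) ^ 2 - 1)))⁻¹ * (csp_Dq q hq)⁻¹ = csp_e21 t := by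
  have hq' : (q : ℚ) ≠ 0 := by exact_mod_cast hq
  ext <;> simp [csp_Dq] <;> field_simp <;> ring

/-- Core of L3 (abstract): `E = k D k⁻¹ D⁻¹`, `s • k` integral, `D`-invariance known at levels
`M` (for `Ψ`) and `M s²` (for every parabolic hom).  Then `Ψ ∘ Ad E = Ψ` on `Γ(M s⁴)`. -/
theorem csp_wk_core {q : ℕ} {M s : ℤ} {V : Type u} [AddCommGroup V] {Ψ : CspM → V}
    (hΨ : csp_IsPar q M Ψ) (D k E : CspM) (hD : D ∈ csp_GamA q)
    (ka : (s : ℚ) * k.a ∈ csp_A q) (kb : (s : ℚ) * k.b ∈ csp_A q)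
    (kc : (s : ℚ) * k.c ∈ csp_A q) (kd : (s : ℚ) * k.d ∈ csp_A q)
    (hE : k * D * k⁻¹ * D⁻¹ = E)
    (inv1 : ∀ g, g ∈ csp_Gam q M → Ψ (D * g * D⁻¹) = Ψ g)
    (inv2 : ∀ Ψ' : CspM → V, csp_IsPar q (M * s ^ 2) Ψ' →
      ∀ g, g ∈ csp_Gam q (M * s ^ 2) → Ψ' (D * g * D⁻¹) = Ψ' g)
    {g : CspM} (hg : g ∈ csp_Gam q (M * s ^ 4)) :
    E * g * E⁻¹ ∈ csp_Gam q M ∧ Ψ (E * g * E⁻¹) = Ψ g := by
  have hgM : g ∈ csp_Gam q M := csp_Gam_mono (Dvd.intro _ rfl) hg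
  -- g1 = D⁻¹ g D
  have hg1 : D⁻¹ * g * D ∈ csp_Gam q (M * s ^ 4) := by
    have := csp_Gam_conj (inv_mem hD) hg
    simpa using this
  have hg1M : D⁻¹ * g * D ∈ csp_Gam q M := csp_Gam_mono (Dvd.intro _ rfl) hg1
  have e1 : Ψ (D⁻¹ * g * D) = Ψ g := by
    have := inv1 _ hg1M
    rw [← this]
    congr 1
    group
  -- g2 = k⁻¹ g1 k
  have hg2 : k⁻¹ * (D⁻¹ * g * D) * k ∈ csp_Gam q (M * s ^ 2) := by
    have hlev : M * s ^ 4 = M * s ^ 2 * s ^ 2 := by ring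
    rw [hlev] at hg1
    have := csp_wk_conj_mem (q := q) (M := M * s ^ 2) (s := s) (k := k⁻¹) (by simpa using kd)
      (by simpa using Subring.neg_mem _ kb) (by simpa using Subring.neg_mem _ kc)
      (by simpa using ka) hg1
    simpa using this
  have hΨ' : csp_IsPar q (M * s ^ 2) (fun x => Ψ (k * x * k⁻¹)) :=
    hΨ.conj k (fun x hx => csp_wk_conj_mem ka kb kc kd hx)
  have e2 := inv2 _ hΨ' _ hg2
  have hg3 : D * (k⁻¹ * (D⁻¹ * g * D) * k) * D⁻¹ ∈ csp_Gam q (M * s ^ 2) := csp_Gam_conj hD hg2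
  have key : k * (D * (k⁻¹ * (D⁻¹ * g * D) * k) * D⁻¹) * k⁻¹ = E * g * E⁻¹ := by
    rw [← hE]; group
  have key2 : k * (k⁻¹ * (D⁻¹ * g * D) * k) * k⁻¹ = D⁻¹ * g * D := by group
  constructor
  · rw [← key]
    exact csp_wk_conj_mem ka kb kc kd hg3
  · simp only [key, key2] at e2
    rw [e2, e1]

theorem csp_wk_m_coprime (q : ℕ) : IsCoprime (csp_m q) (q : ℤ) :=
  ⟨-1, q, by simp only [csp_m]; ring⟩

theorem csp_wk_m_cast (q : ℕ) : ((csp_m q : ℤ) : ℚ) = (q : ℚ) ^ 2 - 1 := by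
  simp [csp_m]

theorem csp_wk_m_pos {q : ℕ} (hq : q.Prime) : 0 < csp_m q := by
  have h2 : (2 : ℤ) ≤ q := by exact_mod_cast hq.two_le
  simp only [csp_m]
  nlinarith

/-- the auxiliary level `M (r m)²` is again OK -/
theorem csp_wk_levelOK {q : ℕ} (hq : q.Prime) {M r : ℤ} (hMq : IsCoprime M (q : ℤ))
    (hrq : IsCoprime r (q : ℤ)) : csp_LevelOK (M * (r * csp_m q) ^ 2) := by
  rcases hq.eq_two_or_odd' with rfl | ⟨j, rfl⟩
  · left
    have h2 : Prime (2 : ℤ) := Int.prime_two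
    have hM2 : ¬ (2 : ℤ) ∣ M := fun h => by
      have := hMq.symm.isUnit_of_dvd' (dvd_refl _) (by simpa using h)
      exact h2.not_isUnit (by simpa using this)
    have hr2 : ¬ (2 : ℤ) ∣ r := fun h => by
      have := hrq.symm.isUnit_of_dvd' (dvd_refl _) (by simpa using h)
      exact h2.not_isUnit (by simpa using this)
    have hm2 : ¬ (2 : ℤ) ∣ csp_m 2 := by
      simp only [csp_m]; norm_num
    intro h
    rcases h2.dvd_mul.mp h with h | h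
    · exact hM2 h
    · rcases h2.dvd_mul.mp (h2.dvd_of_dvd_pow h) with h | h
      · exact hr2 h
      · exact hm2 h
  · right
    have : csp_m (2 * j + 1) = 4 * ((j : ℤ) * (j + 1)) := by
      simp only [csp_m]; push_cast; ring
    rw [this]
    exact Dvd.intro ((j : ℤ) * (j + 1) * (M * r ^ 2 * (4 * (j * (j + 1))) * r ^ 0)) (by ring)

/-- [X-L3]: weak invariance under `e12(t)`, `e21(t)` for `t ∈ (1/r)ℤ[1/q]`. -/
theorem csp_l3 (h2 : csp_L2_stmt.{u}) : csp_L3_stmt.{u} := by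
  intro q M r hq hM2 hMq hOK hr hrq V _ Ψ hΨ t ht g hg
  have hq0 : q ≠ 0 := hq.ne_zero
  have hqQ : (q : ℚ) ≠ 0 := by exact_mod_cast hq0
  have hmpos := csp_wk_m_pos hq
  have hmQ : ((q : ℚ)) ^ 2 - 1 ≠ 0 := by
    rw [← csp_wk_m_cast]
    exact_mod_cast hmpos.ne'
  set s : ℤ := r * csp_m q with hs
  have hscast : (s : ℚ) = (r : ℚ) * ((q : ℚ) ^ 2 - 1) := by
    rw [hs]; push_cast; rw [csp_wk_m_cast]
  have hspos : 0 < s := mul_pos hr hmpos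
  have hsq : IsCoprime s (q : ℤ) := hrq.mul_left (csp_wk_m_coprime q)
  have hM2' : 2 < M * s ^ 2 := by
    have h1 : 1 ≤ s ^ 2 := by nlinarith
    nlinarith
  have hMq' : IsCoprime (M * s ^ 2) (q : ℤ) := hMq.mul_left hsq.pow_left
  have hOK' : csp_LevelOK (M * s ^ 2) := csp_wk_levelOK hq hMq hrq
  have hD := csp_wk_Dq_memA (q := q) hq0
  have inv1 : ∀ g, g ∈ csp_Gam q M →
      Ψ (csp_Dq q hq0 * g * (csp_Dq q hq0)⁻¹) = Ψ g := fun g hg => h2 q M hq hM2 hMq hOK Ψ hΨ g hg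
  have inv2 : ∀ Ψ' : CspM → V, csp_IsPar q (M * s ^ 2) Ψ' →
      ∀ g, g ∈ csp_Gam q (M * s ^ 2) → Ψ' (csp_Dq q hq0 * g * (csp_Dq q hq0)⁻¹) = Ψ' g :=
    fun Ψ' hΨ' g hg => h2 q (M * s ^ 2) hq hM2' hMq' hOK' Ψ' hΨ' g hg
  have hsA : (s : ℚ) ∈ csp_A q := csp_A_int q s
  have h0A : (s : ℚ) * 0 ∈ csp_A q := by simp
  have h1A : (s : ℚ) * 1 ∈ csp_A q := by simp
  constructor
  · refine csp_wk_core hΨ (csp_Dq q hq0) (csp_e12 (-t / ((q : ℚ) ^ 2 - 1))) (csp_e12 t) hD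
      h1A ?_ h0A h1A (csp_wk_comm12 hq0 hmQ t) inv1 inv2 hg
    have : (s : ℚ) * (csp_e12 (-t / ((q : ℚ) ^ 2 - 1))).b = -((r : ℚ) * t) := by
      rw [hscast, csp_e12_b]; field_simp
    rw [this]
    exact Subring.neg_mem _ ht
  · refine csp_wk_core hΨ (csp_Dq q hq0) (csp_e21 (t * (q : ℚ) ^ 2 / ((q : ℚ) ^ 2 - 1)))
      (csp_e21 t) hD h1A h0A ?_ h1A (csp_wk_comm21 hq0 hmQ t) inv1 inv2 hg
    have : (s : ℚ) * (csp_e21 (t * (q : ℚ) ^ 2 / ((q : ℚ) ^ 2 - 1))).c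
        = ((r : ℚ) * t) * (q : ℚ) ^ 2 := by
      rw [hscast, csp_e21_c]; field_simp
    rw [this]
    exact Subring.mul_mem _ ht (Subring.pow_mem _ (csp_A_nat q q) 2)

/-- [X-L4]: strong invariance under `e12(t)`, `e21(t)`, `t ∈ ℤ[1/q]`. -/
theorem csp_l4 (h1 : csp_L1_stmt.{u}) (h3 : csp_L3_stmt.{u}) : csp_L4_stmt.{u} := by
  intro q M hq hM2 hMq hOK V _ Ψ hΨ t ht g hg
  have hmpos := csp_wk_m_pos hq
  have hM' : 0 < M * (1 * csp_m q) ^ 4 := by positivity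
  have hdvd : M ∣ M * (1 * csp_m q) ^ 4 := Dvd.intro _ rfl
  have hcop : IsCoprime (M * (1 * csp_m q) ^ 4) (q : ℤ) :=
    hMq.mul_left ((isCoprime_one_left.mul_left (csp_wk_m_coprime q)).pow_left)
  have ht1 : ((1 : ℤ) : ℚ) * t ∈ csp_A q := by simpa using ht
  have key := fun g hg => h3 q M 1 hq hM2 hMq hOK one_pos isCoprime_one_left Ψ hΨ t ht1 g hg
  constructor
  · have hpar : csp_IsPar q M (fun g => Ψ (csp_e12 t * g * (csp_e12 t)⁻¹) - Ψ g) :=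
      (hΨ.conjA (csp_e12_memA ht)).sub hΨ
    have := h1 q M (M * (1 * csp_m q) ^ 4) hq (by linarith) hdvd hM' hcop _ hpar
      (fun g hg => by
        have := (key g hg).1.2
        simp only [this, sub_self]) g hg
    exact sub_eq_zero.mp this
  · have hpar : csp_IsPar q M (fun g => Ψ (csp_e21 t * g * (csp_e21 t)⁻¹) - Ψ g) :=
      (hΨ.conjA (csp_e21_memA ht)).sub hΨ
    have := h1 q M (M * (1 * csp_m q) ^ 4) hq (by linarith) hdvd hM' hcop _ hpar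
      (fun g hg => by
        have := (key g hg).2.2
        simp only [this, sub_self]) g hg
    exact sub_eq_zero.mp this

end Fermat.Agent.LR
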