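import Fermat.Agent.LR.CSP.Serre
import Fermat.Agent.LR.CSP.Weak
import Fermat.Agent.LR.CSP.L1
import Fermat.Agent.LR.CSP.Diag
import Fermat.Agent.LR.CSP.Main
import Fermat.Agent.LR.CSP.Cor

/-!
# CSP for `Γ(M)[1/q]`, `F_p`-characters: assembly of the cells of finding #2684

`csp_main_of_pow`, `csp_x_of_pow`: the main theorem `V_M = 0` and Corollary (X), modulo the last
open seam `csp_Pow_stmt`.
-/

set_option autoImplicit false

universe u

namespace Fermat.Agent.LR

theorem csp_l1_closed : csp_L1_stmt.{u} := csp_l1 csp_norm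

theorem csp_l3_closed : csp_L3_stmt.{u} := csp_l3 csp_l2_closed

theorem csp_l4_closed : csp_L4_stmt.{u} := csp_l4 csp_l1_closed csp_l3_closed

theorem csp_l5_of_pow (hP : csp_Pow_stmt) : csp_L5_stmt.{u} :=
  csp_l5 csp_l1_closed csp_l3_closed csp_l4_closed hP

/-- `V_M = 0` (finding #2684), modulo the power lemma. -/
theorem csp_main_of_pow (hP : csp_Pow_stmt) : csp_Main_stmt.{u} :=
  csp_main csp_norm csp_l1_closed csp_l4_closed (csp_l5_of_pow hP)

/-- Corollary (X), modulo the power lemma. -/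
theorem csp_x_of_pow (hP : csp_Pow_stmt) : csp_X_stmt.{u} :=
  csp_x (csp_main_of_pow hP)

end Fermat.Agent.LR
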