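import Fermat.Agent.LR.CSP.Seams

/-!
# CSP for `Γ(M)[1/q]`: the cell [X-POW]

`csp_pow : csp_Pow_stmt`: for primes `u ≠ q`, `u ∤ M`, an element `x ∈ Γ(M)` which is upper
triangular mod `u` satisfies `x ^ ((u - 1) u⁴) ∈ Γ(M u⁴)`.

Ingredients: Fermat in `ℤ[1/q]` (`a ^ u - a ∈ u ℤ[1/q]`), powers of matrices which are upper
triangular / upper unipotent mod `u`, and `y ∈ Γ(L)`, `u ∣ L` ⟹ `y ^ u ∈ Γ(u L)`.
Prefix `csp_pow_`.
-/

set_option autoImplicit false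

namespace Fermat.Agent.LR

/-- `I(L) · I(L) ⊆ I(L²)` -/
theorem csp_pow_I_mul_sq {q : ℕ} {L : ℤ} {x y : ℚ} (hx : x ∈ csp_I q L) (hy : y ∈ csp_I q L) :
    x * y ∈ csp_I q (L * L) := by
  obtain ⟨x', hx', rfl⟩ := hx
  obtain ⟨y', hy', rfl⟩ := hy
  exact ⟨x' * y', Subring.mul_mem _ hx' hy', by push_cast; ring⟩

/-- `u · I(L) ⊆ I(u L)` -/
theorem csp_pow_I_smul {q : ℕ} {L : ℤ} (u : ℕ) {x : ℚ} (hx : x ∈ csp_I q L) :
    (u : ℚ) * x ∈ csp_I q ((u : ℤ) * L) := by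
  obtain ⟨x', hx', rfl⟩ := hx
  exact ⟨x', hx', by push_cast; ring⟩

/-- `I(M) ∩ I(K) ⊆ I(M K)` for coprime `M`, `K` -/
theorem csp_pow_I_inter {q : ℕ} {M K : ℤ} (h : IsCoprime M K) {t : ℚ} (h1 : t ∈ csp_I q M)
    (h2 : t ∈ csp_I q K) : t ∈ csp_I q (M * K) := by
  obtain ⟨α, β, hαβ⟩ := h
  obtain ⟨y1, hy1, e1⟩ := h1
  obtain ⟨y2, hy2, e2⟩ := h2
  have hQ : (α : ℚ) * M + β * K = 1 := by exact_mod_cast hαβ
  refine ⟨α * y2 + β * y1, Subring.add_mem _ (Subring.mul_mem _ (csp_A_int q α) hy2)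
    (Subring.mul_mem _ (csp_A_int q β) hy1), ?_⟩
  push_cast
  linear_combination ((β : ℚ) * K) * e1 + ((α : ℚ) * M) * e2 - t * hQ

/-- `Γ(M) ∩ Γ(K) ⊆ Γ(M K)` for coprime `M`, `K` -/
theorem csp_pow_Gam_inter {q : ℕ} {M K : ℤ} (h : IsCoprime M K) {g : CspM}
    (h1 : g ∈ csp_Gam q M) (h2 : g ∈ csp_Gam q K) : g ∈ csp_Gam q (M * K) := by
  obtain ⟨a1, b1, c1, d1⟩ := h1
  obtain ⟨a2, b2, c2, d2⟩ := h2
  exact ⟨csp_pow_I_inter h a1 a2, csp_pow_I_inter h b1 b2, csp_pow_I_inter h c1 c2,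
    csp_pow_I_inter h d1 d2⟩

/-- first order expansion of `y ^ n` for `y ∈ Γ(L)`: `y ^ n ≡ 1 + n (y - 1)` mod `L²` -/
theorem csp_pow_expand {q : ℕ} {L : ℤ} {y : CspM} (hy : y ∈ csp_Gam q L) (n : ℕ) :
    (y ^ n).a - 1 - n * (y.a - 1) ∈ csp_I q (L * L) ∧ (y ^ n).b - n * y.b ∈ csp_I q (L * L) ∧
      (y ^ n).c - n * y.c ∈ csp_I q (L * L) ∧ (y ^ n).d - 1 - n * (y.d - 1) ∈ csp_I q (L * L) := by
  obtain ⟨hα, hβ, hγ, hδ⟩ := hy
  obtain ⟨ya, yb, yc, yd⟩ := csp_Gam_entries (show y ∈ csp_Gam q L from ⟨hα, hβ, hγ, hδ⟩)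
  induction n with
  | zero => simp [zero_mem]
  | succ n ih =>
    obtain ⟨ia, ib, ic, id⟩ := ih
    have hn : (n : ℚ) ∈ csp_A q := csp_A_nat q n
    refine ⟨?_, ?_, ?_, ?_⟩
    · have e : (y ^ (n + 1)).a - 1 - ((n + 1 : ℕ) : ℚ) * (y.a - 1) =
          ((y ^ n).a - 1 - n * (y.a - 1)) * y.a + ((y ^ n).b - n * y.b) * y.c +
            n * ((y.a - 1) * (y.a - 1) + y.b * y.c) := by
        rw [pow_succ]; simp only [CspM.mul_a]; push_cast; ring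
      rw [e]
      exact add_mem (add_mem (csp_I_mul_right ia ya) (csp_I_mul_right ib yc))
        (csp_I_mul_left hn (add_mem (csp_pow_I_mul_sq hα hα) (csp_pow_I_mul_sq hβ hγ)))
    · have e : (y ^ (n + 1)).b - ((n + 1 : ℕ) : ℚ) * y.b =
          ((y ^ n).a - 1 - n * (y.a - 1)) * y.b + ((y ^ n).b - n * y.b) * y.d +
            n * ((y.a - 1) * y.b + y.b * (y.d - 1)) := by
        rw [pow_succ]; simp only [CspM.mul_b]; push_cast; ring
      rw [e]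
      exact add_mem (add_mem (csp_I_mul_right ia yb) (csp_I_mul_right ib yd))
        (csp_I_mul_left hn (add_mem (csp_pow_I_mul_sq hα hβ) (csp_pow_I_mul_sq hβ hδ)))
    · have e : (y ^ (n + 1)).c - ((n + 1 : ℕ) : ℚ) * y.c =
          ((y ^ n).c - n * y.c) * y.a + ((y ^ n).d - 1 - n * (y.d - 1)) * y.c +
            n * (y.c * (y.a - 1) + (y.d - 1) * y.c) := by
        rw [pow_succ]; simp only [CspM.mul_c]; push_cast; ring
      rw [e]
      exact add_mem (add_mem (csp_I_mul_right ic ya) (csp_I_mul_right id yc))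
        (csp_I_mul_left hn (add_mem (csp_pow_I_mul_sq hγ hα) (csp_pow_I_mul_sq hδ hγ)))
    · have e : (y ^ (n + 1)).d - 1 - ((n + 1 : ℕ) : ℚ) * (y.d - 1) =
          ((y ^ n).c - n * y.c) * y.b + ((y ^ n).d - 1 - n * (y.d - 1)) * y.d +
            n * (y.c * y.b + (y.d - 1) * (y.d - 1)) := by
        rw [pow_succ]; simp only [CspM.mul_d]; push_cast; ring
      rw [e]
      exact add_mem (add_mem (csp_I_mul_right ic yb) (csp_I_mul_right id yd))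
        (csp_I_mul_left hn (add_mem (csp_pow_I_mul_sq hγ hβ) (csp_pow_I_mul_sq hδ hδ)))

/-- `y ∈ Γ(L)`, `u ∣ L` ⟹ `y ^ u ∈ Γ(u L)` -/
theorem csp_pow_step {q : ℕ} {L : ℤ} (u : ℕ) (hu : (u : ℤ) ∣ L) {y : CspM}
    (hy : y ∈ csp_Gam q L) : y ^ u ∈ csp_Gam q ((u : ℤ) * L) := by
  obtain ⟨ea, eb, ec, ed⟩ := csp_pow_expand hy u
  have hdiv : (u : ℤ) * L ∣ L * L := mul_dvd_mul_right hu L
  obtain ⟨hα, hβ, hγ, hδ⟩ := hy
  refine ⟨?_, ?_, ?_, ?_⟩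
  · have e : (y ^ u).a - 1 = ((y ^ u).a - 1 - u * (y.a - 1)) + u * (y.a - 1) := by ring
    rw [e]; exact add_mem (csp_I_mono hdiv ea) (csp_pow_I_smul u hα)
  · have e : (y ^ u).b = ((y ^ u).b - u * y.b) + u * y.b := by ring
    rw [e]; exact add_mem (csp_I_mono hdiv eb) (csp_pow_I_smul u hβ)
  · have e : (y ^ u).c = ((y ^ u).c - u * y.c) + u * y.c := by ring
    rw [e]; exact add_mem (csp_I_mono hdiv ec) (csp_pow_I_smul u hγ)
  · have e : (y ^ u).d - 1 = ((y ^ u).d - 1 - u * (y.d - 1)) + u * (y.d - 1) := by ring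
    rw [e]; exact add_mem (csp_I_mono hdiv ed) (csp_pow_I_smul u hδ)

/-- powers of a matrix over `ℤ[1/q]` which is upper triangular mod `K` -/
theorem csp_pow_tri {q : ℕ} {K : ℤ} {x : CspM} (hx : x ∈ csp_GamA q) (hc : x.c ∈ csp_I q K)
    (n : ℕ) : (x ^ n).c ∈ csp_I q K ∧ (x ^ n).a - x.a ^ n ∈ csp_I q K ∧
      (x ^ n).d - x.d ^ n ∈ csp_I q K := by
  obtain ⟨xa, xb, xc, xd⟩ := csp_GamA_mem_iff.1 hx
  induction n with
  | zero => simp [zero_mem]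
  | succ n ih =>
    obtain ⟨ic, ia, id⟩ := ih
    obtain ⟨pa, pb, pc, pd⟩ := csp_GamA_mem_iff.1 (pow_mem hx n)
    refine ⟨?_, ?_, ?_⟩
    · rw [pow_succ]; simp only [CspM.mul_c]
      exact add_mem (csp_I_mul_right ic xa) (csp_I_mul_left pd hc)
    · have e : (x ^ (n + 1)).a - x.a ^ (n + 1) =
          ((x ^ n).a - x.a ^ n) * x.a + (x ^ n).b * x.c := by
        rw [pow_succ, pow_succ]; simp only [CspM.mul_a]; ring
      rw [e]
      exact add_mem (csp_I_mul_right ia xa) (csp_I_mul_left pb hc)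
    · have e : (x ^ (n + 1)).d - x.d ^ (n + 1) =
          (x ^ n).c * x.b + ((x ^ n).d - x.d ^ n) * x.d := by
        rw [pow_succ, pow_succ]; simp only [CspM.mul_d]; ring
      rw [e]
      exact add_mem (csp_I_mul_right ic xb) (csp_I_mul_right id xd)

/-- powers of a matrix over `ℤ[1/q]` which is upper unipotent mod `K` -/
theorem csp_pow_unip {q : ℕ} {K : ℤ} {y : CspM} (hy : y ∈ csp_GamA q)
    (ha : y.a - 1 ∈ csp_I q K) (hc : y.c ∈ csp_I q K) (hd : y.d - 1 ∈ csp_I q K) (n : ℕ) :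
    (y ^ n).a - 1 ∈ csp_I q K ∧ (y ^ n).c ∈ csp_I q K ∧ (y ^ n).d - 1 ∈ csp_I q K ∧
      (y ^ n).b - n * y.b ∈ csp_I q K := by
  obtain ⟨ya, yb, yc, yd⟩ := csp_GamA_mem_iff.1 hy
  induction n with
  | zero => simp [zero_mem]
  | succ n ih =>
    obtain ⟨ia, ic, id, ib⟩ := ih
    obtain ⟨pa, pb, pc, pd⟩ := csp_GamA_mem_iff.1 (pow_mem hy n)
    have hn : (n : ℚ) ∈ csp_A q := csp_A_nat q n
    refine ⟨?_, ?_, ?_, ?_⟩
    · have e : (y ^ (n + 1)).a - 1 = ((y ^ n).a - 1) * y.a + (y.a - 1) + (y ^ n).b * y.c := by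
        rw [pow_succ]; simp only [CspM.mul_a]; ring
      rw [e]
      exact add_mem (add_mem (csp_I_mul_right ia ya) ha) (csp_I_mul_left pb hc)
    · rw [pow_succ]; simp only [CspM.mul_c]
      exact add_mem (csp_I_mul_right ic ya) (csp_I_mul_left pd hc)
    · have e : (y ^ (n + 1)).d - 1 = (y ^ n).c * y.b + ((y ^ n).d - 1) * y.d + (y.d - 1) := by
        rw [pow_succ]; simp only [CspM.mul_d]; ring
      rw [e]
      exact add_mem (add_mem (csp_I_mul_right ic yb) (csp_I_mul_right id yd)) hd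
    · have e : (y ^ (n + 1)).b - ((n + 1 : ℕ) : ℚ) * y.b =
          ((y ^ n).a - 1) * y.b + ((y ^ n).b - n * y.b) * y.d + n * y.b * (y.d - 1) := by
        rw [pow_succ]; simp only [CspM.mul_b]; push_cast; ring
      rw [e]
      exact add_mem (add_mem (csp_I_mul_right ia yb) (csp_I_mul_right ib yd))
        (csp_I_mul_left (Subring.mul_mem _ hn yb) hd)

/-- Fermat's little theorem in `ℤ[1/q]`: `a ^ u - a ∈ u ℤ[1/q]` for primes `u ≠ q` -/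
theorem csp_pow_fermat {q u : ℕ} (hq : q.Prime) (hu : u.Prime) (huq : u ≠ q) {a : ℚ}
    (ha : a ∈ csp_A q) : a ^ u - a ∈ csp_I q (u : ℤ) := by
  obtain ⟨n, z, hz⟩ := ha
  have hq0 : (q : ℚ) ≠ 0 := by exact_mod_cast hq.ne_zero
  have : Fact u.Prime := ⟨hu⟩
  have hqu : ((q : ℤ) : ZMod u) ≠ 0 := by
    rw [Int.cast_natCast]
    intro h0
    have hdvd : u ∣ q := (ZMod.natCast_eq_zero_iff q u).1 h0
    rcases (Nat.dvd_prime hq).1 hdvd with h1 | h1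
    · exact hu.one_lt.ne' h1
    · exact huq h1
  have hdvd : (u : ℤ) ∣ z ^ u - z * (q : ℤ) ^ (n * (u - 1)) := by
    rw [← ZMod.intCast_zmod_eq_zero_iff_dvd]
    push_cast
    rw [ZMod.pow_card, pow_mul', ZMod.pow_card_sub_one_eq_one (by simpa using hqu), one_pow,
      mul_one, sub_self]
  obtain ⟨w, hw⟩ := hdvd
  have hwQ : (z : ℚ) ^ u - z * (q : ℚ) ^ (n * (u - 1)) = (u : ℚ) * w := by exact_mod_cast hw
  have hnu : n * u = n * (u - 1) + n := by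
    have : 1 ≤ u := hu.one_lt.le
    calc n * u = n * ((u - 1) + 1) := by rw [Nat.sub_add_cancel this]
      _ = n * (u - 1) + n := by ring
  refine ⟨w / (q : ℚ) ^ (n * u), ⟨n * u, w, by field_simp⟩, ?_⟩
  have ha' : a = z / (q : ℚ) ^ n := by rw [← hz]; field_simp
  rw [ha']
  push_cast
  rw [div_pow, ← pow_mul, mul_div_assoc', ← hwQ, hnu, pow_add]
  field_simp

/-- unit diagonal entries: `a ^ (u - 1) ≡ 1` mod `u` for `x` upper triangular mod `u` -/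
theorem csp_pow_diag {q u : ℕ} (hq : q.Prime) (hu : u.Prime) (huq : u ≠ q) {x : CspM}
    (hx : x ∈ csp_GamA q) (hc : x.c ∈ csp_I q (u : ℤ)) :
    x.a ^ (u - 1) - 1 ∈ csp_I q (u : ℤ) ∧ x.d ^ (u - 1) - 1 ∈ csp_I q (u : ℤ) := by
  obtain ⟨xa, xb, xc, xd⟩ := csp_GamA_mem_iff.1 hx
  have hdet := x.det
  have h1 : 1 ≤ u := hu.one_lt.le
  have hpa : x.a ^ u = x.a ^ (u - 1) * x.a := by rw [← pow_succ, Nat.sub_add_cancel h1]
  have hpd : x.d ^ u = x.d ^ (u - 1) * x.d := by rw [← pow_succ, Nat.sub_add_cancel h1]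
  have fa := csp_pow_fermat hq hu huq xa
  have fd := csp_pow_fermat hq hu huq xd
  have Aa : x.a ^ (u - 1) - 1 ∈ csp_A q :=
    Subring.sub_mem _ (Subring.pow_mem _ xa _) (Subring.one_mem _)
  have Ad : x.d ^ (u - 1) - 1 ∈ csp_A q :=
    Subring.sub_mem _ (Subring.pow_mem _ xd _) (Subring.one_mem _)
  constructor
  · have e : x.a ^ (u - 1) - 1 = x.d * (x.a ^ u - x.a) - x.b * (x.a ^ (u - 1) - 1) * x.c := by
      rw [hpa]; linear_combination (-(x.a ^ (u - 1) - 1)) * hdet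
    rw [e]
    exact sub_mem (csp_I_mul_left xd fa) (csp_I_mul_left (Subring.mul_mem _ xb Aa) hc)
  · have e : x.d ^ (u - 1) - 1 = x.a * (x.d ^ u - x.d) - x.b * (x.d ^ (u - 1) - 1) * x.c := by
      rw [hpd]; linear_combination (-(x.d ^ (u - 1) - 1)) * hdet
    rw [e]
    exact sub_mem (csp_I_mul_left xa fd) (csp_I_mul_left (Subring.mul_mem _ xb Ad) hc)

/-- `x` upper triangular mod `u` ⟹ `x ^ ((u - 1) u) ∈ Γ(u)` -/
theorem csp_pow_level_one {q u : ℕ} (hq : q.Prime) (hu : u.Prime) (huq : u ≠ q) {x : CspM}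
    (hx : x ∈ csp_GamA q) (hc : x.c ∈ csp_I q (u : ℤ)) :
    (x ^ (u - 1)) ^ u ∈ csp_Gam q (u : ℤ) := by
  obtain ⟨tc, ta, td⟩ := csp_pow_tri hx hc (u - 1)
  obtain ⟨da, dd⟩ := csp_pow_diag hq hu huq hx hc
  have hy : x ^ (u - 1) ∈ csp_GamA q := pow_mem hx _
  have ya : (x ^ (u - 1)).a - 1 ∈ csp_I q (u : ℤ) := by
    have e : (x ^ (u - 1)).a - 1 = ((x ^ (u - 1)).a - x.a ^ (u - 1)) + (x.a ^ (u - 1) - 1) := by
      ring
    rw [e]; exact add_mem ta da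
  have yd : (x ^ (u - 1)).d - 1 ∈ csp_I q (u : ℤ) := by
    have e : (x ^ (u - 1)).d - 1 = ((x ^ (u - 1)).d - x.d ^ (u - 1)) + (x.d ^ (u - 1) - 1) := by
      ring
    rw [e]; exact add_mem td dd
  obtain ⟨ra, rc, rd, rb⟩ := csp_pow_unip hy ya tc yd u
  obtain ⟨_, yb, _, _⟩ := csp_GamA_mem_iff.1 hy
  refine ⟨ra, ?_, rc, rd⟩
  have e : ((x ^ (u - 1)) ^ u).b = (((x ^ (u - 1)) ^ u).b - u * (x ^ (u - 1)).b) +
      u * (x ^ (u - 1)).b := by ring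
  rw [e]
  exact add_mem rb ⟨(x ^ (u - 1)).b, yb, by push_cast; ring⟩

/-- The cell [X-POW]. -/
theorem csp_pow : csp_Pow_stmt := by
  intro q u M hq hu huq _hM hMu x hx hc
  have hxA : x ∈ csp_GamA q := csp_Gam_mono (one_dvd M) hx
  have h1 := csp_pow_level_one hq hu huq hxA hc
  have h2 := csp_pow_step u (dvd_refl _) h1
  have h3 := csp_pow_step u (dvd_mul_right _ _) h2
  have h4 := csp_pow_step u (dvd_mul_right _ _) h3
  have e : x ^ ((u - 1) * u ^ 4) = ((((x ^ (u - 1)) ^ u) ^ u) ^ u) ^ u := by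
    rw [← pow_mul, ← pow_mul, ← pow_mul, ← pow_mul]
    congr 1; ring
  have hlev : (u : ℤ) * ((u : ℤ) * ((u : ℤ) * (u : ℤ))) = (u : ℤ) ^ 4 := by ring
  rw [hlev] at h4
  rw [e]
  exact csp_pow_Gam_inter (hMu.pow_right) (pow_mem (pow_mem (pow_mem (pow_mem (pow_mem hx _) _) _) _) _) h4

end Fermat.Agent.LR
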