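import Fermat.Agent.LR.CSP.Final
import Fermat.Agent.LR.CSP.Pow

/-!
# CSP for `Γ(M)[1/q]`, `F_p`-characters: the closed statements of finding #2684

`csp_main_closed : csp_Main_stmt`  — `V_M = 0`: every parabolic `p`-torsion-valued function on
`Γ(M)[1/q]` vanishes (all `M` with `q ∤ M`, all odd primes `p`, all primes `q`).

`csp_x_closed : csp_X_stmt` — Corollary (X): a homomorphism `Γ0(N)[1/q] → V` (`p V = 0`) killing
the unipotents depends only on `a mod N`.

No hypotheses, no seams: every cell `[X-NORM]`, `[X-L1]` … `[X-L5]`, `[X-POW]`, `[X-MAIN]`,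
`[X-COR]` is discharged.
-/

set_option autoImplicit false

universe u

namespace Fermat.Agent.LR

theorem csp_l5_closed : csp_L5_stmt.{u} := csp_l5_of_pow csp_pow

/-- `V_M = 0` (finding #2684). -/
theorem csp_main_closed : csp_Main_stmt.{u} := csp_main_of_pow csp_pow

/-- Corollary (X) (finding #2684). -/
theorem csp_x_closed : csp_X_stmt.{u} := csp_x_of_pow csp_pow

end Fermat.Agent.LR
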