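import Fermat.Agent.LR.CSP.Seams

/-!
# [X-NORM]: every class of `Γ(M)[1/q]` has an integral representative
-/

set_option autoImplicit false

universe u

namespace Fermat.Agent.LR

/-- An integer lying in `M · ℤ[1/q]` is divisible by `M` (`M` prime to `q`). -/
theorem csp_I_int_dvd {q : ℕ} {M z : ℤ} (hMq : IsCoprime M (q : ℤ)) (hz : (z : ℚ) ∈ csp_I q M) :
    M ∣ z := by
  obtain ⟨y, ⟨n, w, hw⟩, hy⟩ := hz
  have h1 : (z : ℚ) * (q : ℚ) ^ n = (M : ℚ) * w := by rw [hy, mul_assoc, hw]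
  have h2 : z * (q : ℤ) ^ n = M * w := by exact_mod_cast h1
  have h3 : M ∣ z * (q : ℤ) ^ n := ⟨w, h2⟩
  exact (hMq.pow_right (n := n)).dvd_of_dvd_mul_right h3

/-- Two elements of `ℤ[1/q]` have a common denominator. -/
theorem csp_A_common {q : ℕ} {x y : ℚ} (hx : x ∈ csp_A q) (hy : y ∈ csp_A q) :
    ∃ (k : ℕ) (X Y : ℤ), x * (q : ℚ) ^ k = X ∧ y * (q : ℚ) ^ k = Y := by
  obtain ⟨n, X, hX⟩ := hx
  obtain ⟨m, Y, hY⟩ := hy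
  refine ⟨n + m, X * (q : ℤ) ^ m, Y * (q : ℤ) ^ n, ?_, ?_⟩
  · push_cast; rw [← hX]; ring
  · push_cast; rw [← hY]; ring

/-- Nonzero integers factor as `± q^s α₀` with `q ∤ α₀`. -/
theorem csp_int_factor {q : ℕ} (hq : q.Prime) {α : ℤ} (hα : α ≠ 0) :
    ∃ (ε : ℤ) (s : ℕ) (α₀ : ℤ), (ε = 1 ∨ ε = -1) ∧ α = ε * (q : ℤ) ^ s * α₀ ∧
      IsCoprime α₀ (q : ℤ) := by
  obtain ⟨s, n', hn', hn⟩ :=
    Nat.exists_eq_pow_mul_and_not_dvd (Int.natAbs_ne_zero.2 hα) q hq.ne_one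
  have hcop : IsCoprime (n' : ℤ) (q : ℤ) := by
    rw [Int.isCoprime_iff_gcd_eq_one, Int.gcd_natCast_natCast]
    exact (Nat.Coprime.symm ((Nat.Prime.coprime_iff_not_dvd hq).2 hn'))
  rcases Int.natAbs_eq α with h | h
  · refine ⟨1, s, n', Or.inl rfl, ?_, hcop⟩
    rw [h, hn]; push_cast; ring
  · refine ⟨-1, s, n', Or.inr rfl, ?_, hcop⟩
    rw [h, hn]; push_cast; ring

theorem csp_norm : csp_Norm_stmt.{u} := by
  intro q M hq hM hMq V _ Ψ hΨ hint g hg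
  have hq0 : (q : ℚ) ≠ 0 := by exact_mod_cast hq.ne_zero
  have hM0 : (M : ℚ) ≠ 0 := by
    have : M ≠ 0 := by omega
    exact_mod_cast this
  obtain ⟨ga, gb, gc, gd⟩ := hg
  have hg' : g ∈ csp_Gam q M := ⟨ga, gb, gc, gd⟩
  -- Step A: `g.a ≠ 0`
  have ha0 : g.a ≠ 0 := by
    intro h0
    rw [h0] at ga
    have h1 : ((-1 : ℤ) : ℚ) ∈ csp_I q M := by simpa using ga
    have h2 : M ∣ (-1 : ℤ) := csp_I_int_dvd hMq h1
    have h3 : M ∣ 1 := (dvd_neg).1 h2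
    have := Int.le_of_dvd one_pos h3
    omega
  -- numerators
  obtain ⟨ha, -, hc, -⟩ := csp_Gam_entries hg'
  obtain ⟨n, α, hα⟩ := ha
  have hα0 : α ≠ 0 := by
    intro h0
    rw [h0] at hα
    have : g.a * (q : ℚ) ^ n ≠ 0 := mul_ne_zero ha0 (pow_ne_zero _ hq0)
    exact this (by simpa using hα)
  obtain ⟨ε, s, α₀, hε, hαf, hα₀q⟩ := csp_int_factor hq hα0
  obtain ⟨c₁, ⟨m, γ₁, hγ₁⟩, hc₁⟩ := gc
  -- Step C: solve the congruence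
  obtain ⟨u₀, v₀, huv⟩ := (hα₀q.pow_right (n := m + 1))
  -- u₀ * α₀ + v₀ * q^(m+1) = 1
  set τ : ℤ := u₀ * ((q : ℤ) ^ m - γ₁) with hτ
  set c₁' : ℤ := 1 - (q : ℤ) * v₀ * ((q : ℤ) ^ m - γ₁) with hc₁'
  have hkey : γ₁ + τ * α₀ = (q : ℤ) ^ m * c₁' := by
    rw [hτ, hc₁']
    have : u₀ * α₀ = 1 - v₀ * (q : ℤ) ^ (m + 1) := by linarith
    calc γ₁ + u₀ * ((q : ℤ) ^ m - γ₁) * α₀
        = γ₁ + (u₀ * α₀) * ((q : ℤ) ^ m - γ₁) := by ring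
      _ = γ₁ + (1 - v₀ * (q : ℤ) ^ (m + 1)) * ((q : ℤ) ^ m - γ₁) := by rw [this]
      _ = (q : ℤ) ^ m * (1 - (q : ℤ) * v₀ * ((q : ℤ) ^ m - γ₁)) := by ring
  have hc₁'q : IsCoprime c₁' (q : ℤ) := by
    refine ⟨1, v₀ * ((q : ℤ) ^ m - γ₁), ?_⟩
    rw [hc₁']; ring
  set c' : ℤ := M * c₁' with hc'
  -- the rational `y`
  set y₁ : ℚ := (ε : ℚ) * (q : ℚ) ^ ((n : ℤ) - (s : ℤ)) * (τ : ℚ) * ((q : ℚ) ^ m)⁻¹ with hy₁
  have hy₁A : y₁ ∈ csp_A q := by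
    rw [hy₁]
    refine Subring.mul_mem _ (Subring.mul_mem _ (Subring.mul_mem _ (csp_A_int q ε)
      (csp_A_qzpow hq.ne_zero _)) (csp_A_int q τ)) ?_
    rw [← inv_pow]
    exact Subring.pow_mem _ (csp_A_qinv hq.ne_zero) m
  have hyI : (M : ℚ) * y₁ ∈ csp_I q M := ⟨y₁, hy₁A, rfl⟩
  -- `g.a` in terms of `α₀`
  have hga : g.a = (ε : ℚ) * (q : ℚ) ^ ((s : ℤ) - (n : ℤ)) * (α₀ : ℚ) := by
    have h1 : g.a = (α : ℚ) * ((q : ℚ) ^ n)⁻¹ := by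
      rw [← hα]; field_simp
    rw [h1, hαf, zpow_sub₀ hq0, zpow_natCast, zpow_natCast]
    push_cast; field_simp
  have hεsq : (ε : ℚ) * (ε : ℚ) = 1 := by
    rcases hε with h | h <;> rw [h] <;> norm_num
  have hya : (M : ℚ) * y₁ * g.a = (M : ℚ) * ((τ : ℚ) * (α₀ : ℚ) * ((q : ℚ) ^ m)⁻¹) := by
    rw [hy₁, hga]
    have hz : (q : ℚ) ^ ((n : ℤ) - (s : ℤ)) * (q : ℚ) ^ ((s : ℤ) - (n : ℤ)) = 1 := by
      rw [← zpow_add₀ hq0]; simp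
    calc (M : ℚ) * ((ε : ℚ) * (q : ℚ) ^ ((n : ℤ) - (s : ℤ)) * (τ : ℚ) * ((q : ℚ) ^ m)⁻¹) *
          ((ε : ℚ) * (q : ℚ) ^ ((s : ℤ) - (n : ℤ)) * (α₀ : ℚ))
        = (M : ℚ) * (((ε : ℚ) * (ε : ℚ)) *
            ((q : ℚ) ^ ((n : ℤ) - (s : ℤ)) * (q : ℚ) ^ ((s : ℤ) - (n : ℤ))) *
            ((τ : ℚ) * (α₀ : ℚ) * ((q : ℚ) ^ m)⁻¹)) := by ring
      _ = (M : ℚ) * ((τ : ℚ) * (α₀ : ℚ) * ((q : ℚ) ^ m)⁻¹) := by rw [hεsq, hz]; ring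
  have hc1 : c₁ = (γ₁ : ℚ) * ((q : ℚ) ^ m)⁻¹ := by
    rw [← hγ₁]; field_simp
  have hcnew : g.c + (M : ℚ) * y₁ * g.a = (c' : ℚ) := by
    rw [hya, hc₁, hc1, hc']
    have hk : ((γ₁ + τ * α₀ : ℤ) : ℚ) = (((q : ℤ) ^ m * c₁' : ℤ) : ℚ) := by rw [hkey]
    push_cast at hk
    push_cast
    have hqm : (q : ℚ) ^ m ≠ 0 := pow_ne_zero _ hq0
    field_simp
    linarith
  -- Step D
  set g1 : CspM := csp_e21 ((M : ℚ) * y₁) * g with hg1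
  have hg1m : g1 ∈ csp_Gam q M := mul_mem (csp_e21_mem hyI) hg'
  have hΨ1 : Ψ g1 = Ψ g := hΨ.e21_mul hyI hg'
  have hg1a : g1.a = g.a := by simp [hg1]
  have hg1c : g1.c = (c' : ℚ) := by
    rw [← hcnew]; simp [hg1]; ring
  -- Step E
  have hMc'q : IsCoprime (M * c') ((q : ℤ) ^ n) := by
    have h1 : IsCoprime c' (q : ℤ) := by rw [hc']; exact hMq.mul_left hc₁'q
    exact (hMq.mul_left h1).pow_right
  obtain ⟨u₁, v₁, huv1⟩ := hMc'q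
  -- u₁ * (M * c') + v₁ * q^n = 1
  set a' : ℤ := α * v₁ with ha'
  set x₁ : ℚ := -((α : ℚ) * (u₁ : ℚ) * ((q : ℚ) ^ n)⁻¹) with hx₁
  have hx₁A : x₁ ∈ csp_A q := by
    rw [hx₁]
    refine Subring.neg_mem _ (Subring.mul_mem _ (Subring.mul_mem _ (csp_A_int q α)
      (csp_A_int q u₁)) ?_)
    rw [← inv_pow]
    exact Subring.pow_mem _ (csp_A_qinv hq.ne_zero) n
  have hxI : (M : ℚ) * x₁ ∈ csp_I q M := ⟨x₁, hx₁A, rfl⟩
  have hga2 : g.a = (α : ℚ) * ((q : ℚ) ^ n)⁻¹ := by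
    rw [← hα]; field_simp
  have hanew : g.a + (M : ℚ) * x₁ * (c' : ℚ) = (a' : ℚ) := by
    rw [hga2, hx₁, ha']
    have hk : ((u₁ * (M * c') + v₁ * (q : ℤ) ^ n : ℤ) : ℚ) = ((1 : ℤ) : ℚ) := by rw [huv1]
    push_cast at hk
    push_cast
    have hqn : (q : ℚ) ^ n ≠ 0 := pow_ne_zero _ hq0
    field_simp
    have : (v₁ : ℚ) * (q : ℚ) ^ n = 1 - (u₁ : ℚ) * ((M : ℚ) * (c' : ℚ)) := by linarith
    nlinarith [this]
  set g2 : CspM := csp_e12 ((M : ℚ) * x₁) * g1 with hg2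
  have hg2m : g2 ∈ csp_Gam q M := mul_mem (csp_e12_mem hxI) hg1m
  have hΨ2 : Ψ g2 = Ψ g1 := hΨ.e12_mul hxI hg1m
  have hg2a : g2.a = (a' : ℚ) := by
    rw [← hanew, ← hg1a, ← hg1c]; simp [hg2]
  have hg2c : g2.c = (c' : ℚ) := by
    rw [← hg1c]; simp [hg2]
  -- Step F: coprimality of `a'` and `c'`
  obtain ⟨-, hb2, -, hd2⟩ := csp_Gam_entries hg2m
  obtain ⟨k, B, D, hB, hD⟩ := csp_A_common hb2 hd2
  have hdet2 := g2.det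
  have hint2 : a' * D - B * c' = (q : ℤ) ^ k := by
    have : (a' : ℚ) * (D : ℚ) - (B : ℚ) * (c' : ℚ) = (q : ℚ) ^ k := by
      rw [← hD, ← hB, ← hg2a, ← hg2c]
      linear_combination ((q : ℚ) ^ k) * hdet2
    exact_mod_cast this
  have hc'q : IsCoprime c' ((q : ℤ) ^ k) := by
    have h1 : IsCoprime c' (q : ℤ) := by rw [hc']; exact hMq.mul_left hc₁'q
    exact h1.pow_right
  have hcop : IsCoprime a' c' := by
    obtain ⟨s₁, t₁, hst⟩ := hc'q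
    -- s₁ * c' + t₁ * q^k = 1
    refine ⟨t₁ * D, s₁ - t₁ * B, ?_⟩
    rw [← hint2] at hst
    linarith
  -- Step G: completion
  have hMa' : M ∣ a' - 1 := by
    apply csp_I_int_dvd hMq
    have := hg2m.1
    rw [hg2a] at this
    exact_mod_cast this
  have hMc' : M ∣ c' := ⟨c₁', rfl⟩
  obtain ⟨d₀, b₀', hbez⟩ := hcop
  -- d₀ * a' + b₀' * c' = 1
  set b₀ : ℤ := -b₀' with hb₀
  set b'' : ℤ := -(b₀ * (a' - 1)) with hb''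
  set d'' : ℤ := d₀ - b₀ * c' with hd''
  have hdet0 : a' * d'' - b'' * c' = 1 := by
    rw [hb'', hd'', hb₀]; linarith
  have hMb : M ∣ b'' := by
    rw [hb'']; exact (dvd_neg).2 (Dvd.dvd.mul_left hMa' _)
  have hMd : M ∣ d'' - 1 := by
    have : d'' - 1 = -(d'' * (a' - 1)) + b'' * c' := by linarith
    rw [this]
    exact dvd_add ((dvd_neg).2 (Dvd.dvd.mul_left hMa' _)) (Dvd.dvd.mul_left hMc' _)
  have hg0m : csp_ofInt a' b'' c' d'' hdet0 ∈ csp_Gam q M := by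
    refine ⟨?_, ?_, ?_, ?_⟩
    · have := csp_I_of_int (q := q) hMa'; simpa using this
    · exact csp_I_of_int hMb
    · exact csp_I_of_int hMc'
    · have := csp_I_of_int (q := q) hMd; simpa using this
  have hfin : Ψ g2 = Ψ (csp_ofInt a' b'' c' d'' hdet0) :=
    hΨ.col hg2m hg0m (by simp [hg2a]) (by simp [hg2c])
  rw [← hΨ1, ← hΨ2, hfin]
  exact hint a' b'' c' d'' hdet0 hg0m

end Fermat.Agent.LR
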