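import Fermat.Agent.LR.CSP.Basic

/-!
# Parabolic homomorphisms on `Γ(M)[1/q]`

`csp_IsPar q M Ψ` : `Ψ : SL₂(ℚ) → V` restricts to a homomorphism on `Γ(M)[1/q]` which kills
every unipotent element (trace `2`) of `Γ(M)[1/q]`.  (Total functions avoid subtypes.)
-/

set_option autoImplicit false

namespace Fermat.Agent.LR

/-- `Ψ` is a homomorphism on `Γ(M)[1/q]` killing its unipotent elements. -/
structure csp_IsPar (q : ℕ) (M : ℤ) {V : Type*} [AddCommGroup V] (Ψ : CspM → V) : Prop where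
  map_mul : ∀ g h, g ∈ csp_Gam q M → h ∈ csp_Gam q M → Ψ (g * h) = Ψ g + Ψ h
  unip : ∀ g, g ∈ csp_Gam q M → g.a + g.d = 2 → Ψ g = 0

namespace csp_IsPar

variable {q : ℕ} {M : ℤ} {V : Type*} [AddCommGroup V] {Ψ : CspM → V}

theorem map_one (h : csp_IsPar q M Ψ) : Ψ 1 = 0 :=
  h.unip 1 (one_mem _) (by simp; norm_num)

theorem map_inv (h : csp_IsPar q M Ψ) {g : CspM} (hg : g ∈ csp_Gam q M) : Ψ g⁻¹ = -Ψ g := by
  have := h.map_mul g g⁻¹ hg (inv_mem hg)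
  rw [mul_inv_cancel, h.map_one] at this
  exact eq_neg_of_add_eq_zero_right this.symm

theorem map_pow (h : csp_IsPar q M Ψ) {g : CspM} (hg : g ∈ csp_Gam q M) (n : ℕ) :
    Ψ (g ^ n) = n • Ψ g := by
  induction n with
  | zero => simp [h.map_one]
  | succ n ih =>
    rw [pow_succ, h.map_mul _ _ (pow_mem hg n) hg, ih, succ_nsmul]

theorem mono (h : csp_IsPar q M Ψ) {M' : ℤ} (hM : M ∣ M') : csp_IsPar q M' Ψ :=
  ⟨fun g k hg hk => h.map_mul g k (csp_Gam_mono hM hg) (csp_Gam_mono hM hk),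
   fun g hg ht => h.unip g (csp_Gam_mono hM hg) ht⟩

theorem sub {Ψ' : CspM → V} (h : csp_IsPar q M Ψ) (h' : csp_IsPar q M Ψ') :
    csp_IsPar q M (fun g => Ψ g - Ψ' g) :=
  ⟨fun g k hg hk => by
      simp only [h.map_mul g k hg hk, h'.map_mul g k hg hk]; abel,
   fun g hg ht => by simp only [h.unip g hg ht, h'.unip g hg ht, sub_zero]⟩

/-- Left multiplication by a unipotent element does not change `Ψ`. -/
theorem unip_mul (h : csp_IsPar q M Ψ) {u g : CspM} (hu : u ∈ csp_Gam q M) (hut : u.a + u.d = 2)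
    (hg : g ∈ csp_Gam q M) : Ψ (u * g) = Ψ g := by
  rw [h.map_mul u g hu hg, h.unip u hu hut, zero_add]

theorem mul_unip (h : csp_IsPar q M Ψ) {u g : CspM} (hu : u ∈ csp_Gam q M) (hut : u.a + u.d = 2)
    (hg : g ∈ csp_Gam q M) : Ψ (g * u) = Ψ g := by
  rw [h.map_mul g u hg hu, h.unip u hu hut, add_zero]

/-- `Ψ` only depends on the first column. -/
theorem col (h : csp_IsPar q M Ψ) {g g' : CspM} (hg : g ∈ csp_Gam q M) (hg' : g' ∈ csp_Gam q M)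
    (ha : g.a = g'.a) (hc : g.c = g'.c) : Ψ g = Ψ g' := by
  have hmem : g⁻¹ * g' ∈ csp_Gam q M := mul_mem (inv_mem hg) hg'
  have hd := g.det
  have hd' := g'.det
  have h1 : (g⁻¹ * g').a = 1 := by simp; rw [← ha, ← hc]; linear_combination hd
  have h2 : (g⁻¹ * g').c = 0 := by simp; rw [← ha, ← hc]; ring
  have h3 : (g⁻¹ * g').d = 1 := by
    have := (g⁻¹ * g').det
    rw [h1, h2] at this; linarith
  have h4 : Ψ (g⁻¹ * g') = 0 := h.unip _ hmem (by rw [h1, h3]; norm_num)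
  have : g' = g * (g⁻¹ * g') := by group
  rw [this, h.map_mul g _ hg hmem, h4, add_zero]

/-- Conjugating the argument: if `h Γ(M') h⁻¹ ⊆ Γ(M)` then `Ψ ∘ Ad h` is parabolic of level `M'`. -/
theorem conj (h : csp_IsPar q M Ψ) {M' : ℤ} (k : CspM)
    (hk : ∀ g, g ∈ csp_Gam q M' → k * g * k⁻¹ ∈ csp_Gam q M) :
    csp_IsPar q M' (fun g => Ψ (k * g * k⁻¹)) := by
  refine ⟨fun g g' hg hg' => ?_, fun g hg ht => ?_⟩
  · have : k * (g * g') * k⁻¹ = (k * g * k⁻¹) * (k * g' * k⁻¹) := by group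
    simp only [this]
    exact h.map_mul _ _ (hk g hg) (hk g' hg')
  · refine h.unip _ (hk g hg) ?_
    have hd := k.det
    have : (k * g * k⁻¹).a + (k * g * k⁻¹).d = (g.a + g.d) * (k.a * k.d - k.b * k.c) := by
      simp; ring
    rw [this, hd, ht]; norm_num

end csp_IsPar

theorem csp_e12_mem {q : ℕ} {M : ℤ} {x : ℚ} (hx : x ∈ csp_I q M) : csp_e12 x ∈ csp_Gam q M := by
  refine ⟨?_, ?_, ?_, ?_⟩ <;> simp [zero_mem, hx]

theorem csp_e21_mem {q : ℕ} {M : ℤ} {x : ℚ} (hx : x ∈ csp_I q M) : csp_e21 x ∈ csp_Gam q M := by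
  refine ⟨?_, ?_, ?_, ?_⟩ <;> simp [zero_mem, hx]

theorem csp_e12_memA {q : ℕ} {x : ℚ} (hx : x ∈ csp_A q) : csp_e12 x ∈ csp_GamA q :=
  csp_e12_mem (csp_I_one.2 hx)

theorem csp_e21_memA {q : ℕ} {x : ℚ} (hx : x ∈ csp_A q) : csp_e21 x ∈ csp_GamA q :=
  csp_e21_mem (csp_I_one.2 hx)

theorem csp_w_memA (q : ℕ) : csp_w ∈ csp_GamA q := by
  rw [csp_GamA_mem_iff]
  refine ⟨?_, ?_, ?_, ?_⟩
  · simpa using csp_A_int q 0
  · simpa using csp_A_int q 1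
  · simpa using csp_A_int q (-1)
  · simpa using csp_A_int q 0

theorem csp_D_memA {q : ℕ} (hq : q ≠ 0) (j : ℤ) :
    csp_D ((q : ℚ) ^ j) (zpow_ne_zero _ (by exact_mod_cast hq)) ∈ csp_GamA q := by
  rw [csp_GamA_mem_iff]
  refine ⟨csp_A_qzpow hq j, ?_, ?_, ?_⟩
  · simpa using csp_A_int q 0
  · simpa using csp_A_int q 0
  · simp only [csp_D_d, ← zpow_neg]; exact csp_A_qzpow hq (-j)

namespace csp_IsPar

variable {q : ℕ} {M : ℤ} {V : Type*} [AddCommGroup V] {Ψ : CspM → V}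

theorem e12_mul (h : csp_IsPar q M Ψ) {x : ℚ} (hx : x ∈ csp_I q M) {g : CspM}
    (hg : g ∈ csp_Gam q M) : Ψ (csp_e12 x * g) = Ψ g :=
  h.unip_mul (csp_e12_mem hx) (by simp; norm_num) hg

theorem e21_mul (h : csp_IsPar q M Ψ) {x : ℚ} (hx : x ∈ csp_I q M) {g : CspM}
    (hg : g ∈ csp_Gam q M) : Ψ (csp_e21 x * g) = Ψ g :=
  h.unip_mul (csp_e21_mem hx) (by simp; norm_num) hg

theorem mul_e12 (h : csp_IsPar q M Ψ) {x : ℚ} (hx : x ∈ csp_I q M) {g : CspM}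
    (hg : g ∈ csp_Gam q M) : Ψ (g * csp_e12 x) = Ψ g :=
  h.mul_unip (csp_e12_mem hx) (by simp; norm_num) hg

theorem mul_e21 (h : csp_IsPar q M Ψ) {x : ℚ} (hx : x ∈ csp_I q M) {g : CspM}
    (hg : g ∈ csp_Gam q M) : Ψ (g * csp_e21 x) = Ψ g :=
  h.mul_unip (csp_e21_mem hx) (by simp; norm_num) hg

/-- Conjugation by an element of `SL₂(ℤ[1/q])` keeps the level. -/
theorem conjA (h : csp_IsPar q M Ψ) {k : CspM} (hk : k ∈ csp_GamA q) :
    csp_IsPar q M (fun g => Ψ (k * g * k⁻¹)) :=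
  h.conj k (fun _ hg => csp_Gam_conj hk hg)

end csp_IsPar

end Fermat.Agent.LR
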