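import Fermat.Agent.LR.CSP.Seams

/-!
# [X-L2] arithmetic: two Dirichlet primes with coprime half-periods
-/

set_option autoImplicit false

namespace Fermat.Agent.LR

/-- First Dirichlet call: `c + y a = M π_c` with `π_c` a large prime. -/
theorem csp_sa_first (M a c : ℤ) (B : ℕ) (ha0 : a ≠ 0) (hc : M ∣ c) (hac : IsCoprime a c) :
    ∃ (y : ℤ) (πc : ℕ), M ∣ y ∧ πc.Prime ∧ B < πc ∧ c + y * a = M * πc := by
  obtain ⟨c1, rfl⟩ := hc
  have hac1 : IsCoprime a c1 := hac.of_mul_right_right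
  have hna : a.natAbs ≠ 0 := Int.natAbs_ne_zero.2 ha0
  have hcop : IsCoprime c1 (a.natAbs : ℤ) := by
    have : IsCoprime c1 a := hac1.symm
    rcases Int.natAbs_eq a with h | h
    · rw [← h]; exact this
    · have h2 : (a.natAbs : ℤ) = -a := by omega
      rw [h2]; exact this.neg_right
  obtain ⟨πc, hB, hπc, hmod⟩ := Nat.forall_exists_prime_gt_and_zmodEq B hna hcop
  have hdvd : a ∣ c1 - (πc : ℤ) := Int.natAbs_dvd.1 hmod.dvd
  obtain ⟨t, ht⟩ := hdvd
  refine ⟨M * (-t), πc, Dvd.intro _ rfl, hπc, hB, ?_⟩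
  have : (πc : ℤ) = c1 - a * t := by linarith
  rw [this]; ring

/-- A residue `r ≡ -a (R)`, `r ≡ 3 (4)`, coprime to `4R`, when `M ∣ R`, `M ∣ a - 1` and
(`4 ∣ M`, or `R` odd). -/
theorem csp_sa_residue (M a R : ℤ) (hOK : csp_LevelOK M) (ha : M ∣ a - 1)
    (hodd : ¬ (2 : ℤ) ∣ M → ¬ (2 : ℤ) ∣ R) (haR : IsCoprime a R) :
    ∃ r : ℤ, R ∣ r + a ∧ (4 : ℤ) ∣ r - 3 ∧ IsCoprime r (4 * R) := by
  rcases hOK with h2 | h4
  · -- `R` odd
    have hR2 : ¬ (2 : ℤ) ∣ R := hodd h2
    have hcop2 : IsCoprime R 2 := by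
      have hp : Prime (2 : ℤ) := Int.prime_two
      exact (IsCoprime.symm ((hp.coprime_iff_not_dvd).2 hR2))
    have hcop4 : IsCoprime R 4 := by
      have : (4 : ℤ) = 2 * 2 := by norm_num
      rw [this]; exact hcop2.mul_right hcop2
    obtain ⟨u, v, huv⟩ := hcop4
    -- u * R + v * 4 = 1
    refine ⟨-a * (v * 4) + 3 * (u * R), ?_, ?_, ?_⟩
    · refine ⟨-a * (-u) + 3 * u + 0, ?_⟩
      have : v * 4 = 1 - u * R := by linarith
      rw [this]; ring
    · refine ⟨-a * v - 3 * v, ?_⟩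
      have : u * R = 1 - v * 4 := by linarith
      rw [this]; ring
    · have h1 : IsCoprime (-a * (v * 4) + 3 * (u * R)) R := by
        have e1 : -a * (v * 4) + 3 * (u * R) = -a + R * (a * u + 3 * u) := by
          have : v * 4 = 1 - u * R := by linarith
          rw [this]; ring
        rw [e1]; exact (haR.neg_left).add_mul_left_left _
      have h2' : IsCoprime (-a * (v * 4) + 3 * (u * R)) 4 := by
        have e1 : -a * (v * 4) + 3 * (u * R) = 3 + 4 * (-a * v - 3 * v) := by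
          have : u * R = 1 - v * 4 := by linarith
          rw [this]; ring
        rw [e1]
        have h34 : IsCoprime (3 : ℤ) 4 := ⟨-1, 1, by norm_num⟩
        exact h34.add_mul_left_left _
      exact h2'.mul_right h1
  · -- `4 ∣ M`
    have h4a : (4 : ℤ) ∣ a - 1 := dvd_trans h4 ha
    refine ⟨-a, ⟨0, by ring⟩, ?_, ?_⟩
    · obtain ⟨k, hk⟩ := h4a
      exact ⟨-k - 1, by linarith⟩
    · have ha4 : IsCoprime a 4 := by
        obtain ⟨k, hk⟩ := h4a
        exact ⟨1, -k, by linarith⟩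
      exact (ha4.mul_right haR).neg_left

/-- The arithmetic input of Serre's trick: one column move `y` and two primes `π`, `π'` with
`-π`, `-π'` in the class of `a` modulo `M(c + y a)` and coprime half-periods. -/
theorem csp_sa_main (q : ℕ) (M a c : ℤ) (hM : 2 < M) (hOK : csp_LevelOK M)
    (ha : M ∣ a - 1) (hc : M ∣ c) (hac : IsCoprime a c) :
    ∃ (y x x' : ℤ) (π π' : ℕ), M ∣ y ∧ M ∣ x ∧ M ∣ x' ∧ π.Prime ∧ π'.Prime ∧ π ≠ q ∧ π' ≠ q ∧
      π % 2 = 1 ∧ π' % 2 = 1 ∧ Nat.Coprime ((π - 1) / 2) ((π' - 1) / 2) ∧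
      a + x * (c + y * a) = -(π : ℤ) ∧ a + x' * (c + y * a) = -(π' : ℤ) := by
  -- `a ≠ 0`, `a + 1 ≠ 0`
  have ha0 : a ≠ 0 := by
    rintro rfl
    have h1 : M ∣ 1 := by
      have : M ∣ -(0 - 1 : ℤ) := (dvd_neg).2 ha
      simpa using this
    have := Int.le_of_dvd one_pos h1
    omega
  have ha1 : a + 1 ≠ 0 := by
    intro h
    have h1 : M ∣ 2 := by
      have h2 : a - 1 = -2 := by omega
      rw [h2] at ha
      exact (dvd_neg).1 ha
    have := Int.le_of_dvd (by norm_num) h1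
    omega
  have haM : IsCoprime a M := by
    obtain ⟨k, hk⟩ := ha
    exact ⟨1, -k, by linarith⟩
  -- first prime
  obtain ⟨y, πc, hMy, hπc, hBc, hc'⟩ := csp_sa_first M a c (a.natAbs + 2) ha0 hc hac
  set c' : ℤ := c + y * a with hc'def
  have hπc2 : 2 < πc := by omega
  have hπcodd : ¬ (2 : ℤ) ∣ (πc : ℤ) := by
    intro h
    have h2 : 2 ∣ πc := by exact_mod_cast h
    have := (Nat.prime_dvd_prime_iff_eq Nat.prime_two hπc).1 h2
    omega
  have haπc : IsCoprime a (πc : ℤ) := by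
    rw [Int.isCoprime_iff_gcd_eq_one]
    have h1 : Nat.Coprime πc a.natAbs := by
      rw [Nat.Prime.coprime_iff_not_dvd hπc]
      intro hd
      have := Nat.le_of_dvd (Nat.pos_of_ne_zero (Int.natAbs_ne_zero.2 ha0)) hd
      omega
    have : Int.gcd a πc = Nat.gcd a.natAbs πc := by
      simp [Int.gcd]
    rw [this]; exact h1.symm
  set R : ℤ := M * c' with hR
  have hRval : R = M * (M * πc) := by rw [hR, hc']
  have haR : IsCoprime a R := by
    rw [hRval]; exact haM.mul_right (haM.mul_right haπc)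
  have hMR : M ∣ R := ⟨c', rfl⟩
  have hRpos : 0 < R := by
    rw [hRval]
    have : (0 : ℤ) < πc := by exact_mod_cast hπc.pos
    positivity
  have hodd : ¬ (2 : ℤ) ∣ M → ¬ (2 : ℤ) ∣ R := by
    intro h2 hR2
    rw [hRval] at hR2
    have hp : Prime (2 : ℤ) := Int.prime_two
    rcases hp.dvd_or_dvd hR2 with h | h
    · exact h2 h
    · rcases hp.dvd_or_dvd h with h | h
      · exact h2 h
      · exact hπcodd h
  obtain ⟨r, hr1, hr2, hr3⟩ := csp_sa_residue M a R hOK ha hodd haR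
  -- second prime
  have h4R0 : (4 * R).natAbs ≠ 0 := by
    rw [Int.natAbs_ne_zero]; omega
  have h4Rcast : ((4 * R).natAbs : ℤ) = 4 * R := by
    rw [Int.natCast_natAbs, abs_of_pos]; omega
  obtain ⟨π, hπB, hπ, hπmod⟩ := Nat.forall_exists_prime_gt_and_zmodEq (q + 4) h4R0
    (by rw [h4Rcast]; exact hr3)
  rw [h4Rcast] at hπmod
  have hπr : 4 * R ∣ r - π := hπmod.dvd
  have hRπ : R ∣ (π : ℤ) + a := by
    have h1 : R ∣ r - π := dvd_trans (Dvd.intro_left 4 rfl) hπr
    have : (π : ℤ) + a = (r + a) - (r - π) := by ring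
    rw [this]; exact dvd_sub hr1 h1
  have h4π : (4 : ℤ) ∣ (π : ℤ) - 3 := by
    have h1 : (4 : ℤ) ∣ r - π := dvd_trans (Dvd.intro _ rfl) hπr
    have : (π : ℤ) - 3 = (r - 3) - (r - π) := by ring
    rw [this]; exact dvd_sub hr2 h1
  have hπ4 : π % 4 = 3 := by
    obtain ⟨k, hk⟩ := h4π
    omega
  set k : ℕ := (π - 1) / 2 with hk
  have hkodd : k % 2 = 1 := by omega
  have h2k : 2 * k = π - 1 := by omega
  have hπ1 : (π : ℤ) - 1 = 2 * (k : ℤ) := by
    have : 1 ≤ π := hπ.one_lt.le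
    omega
  -- `k` is coprime to `R`
  have hkR : IsCoprime (k : ℤ) R := by
    rw [Int.isCoprime_iff_gcd_eq_one]
    have hRn : R.natAbs = M.natAbs * (M.natAbs * πc) := by
      rw [hRval, Int.natAbs_mul, Int.natAbs_mul, Int.natAbs_natCast]
    have : Int.gcd (k : ℤ) R = Nat.gcd k R.natAbs := by simp [Int.gcd]
    rw [this]
    apply Nat.coprime_of_dvd
    intro l hl hlk hlR
    have hl2 : l ≠ 2 := by
      rintro rfl
      omega
    have hlπ1 : (l : ℤ) ∣ (π : ℤ) - 1 := by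
      rw [hπ1]; exact Dvd.dvd.mul_left (by exact_mod_cast hlk) _
    have hlRint : (l : ℤ) ∣ R := by
      have : (l : ℤ) ∣ (R.natAbs : ℤ) := by exact_mod_cast hlR
      exact Int.dvd_natAbs.1 this
    have hlπa : (l : ℤ) ∣ (π : ℤ) + a := dvd_trans hlRint hRπ
    rw [hRn] at hlR
    rcases (Nat.Prime.dvd_mul hl).1 hlR with h | h
    · -- `l ∣ M`
      have hlM : (l : ℤ) ∣ M := by
        have : (l : ℤ) ∣ (M.natAbs : ℤ) := by exact_mod_cast h
        exact Int.dvd_natAbs.1 this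
      have hla1 : (l : ℤ) ∣ a - 1 := dvd_trans hlM ha
      have h2 : (l : ℤ) ∣ 2 := by
        have : (2 : ℤ) = ((π : ℤ) + a) - (a - 1) - ((π : ℤ) - 1) := by ring
        rw [this]; exact dvd_sub (dvd_sub hlπa hla1) hlπ1
      have h3 : l ∣ 2 := by exact_mod_cast h2
      have := (Nat.prime_dvd_prime_iff_eq hl Nat.prime_two).1 h3
      exact hl2 this
    · rcases (Nat.Prime.dvd_mul hl).1 h with h' | h'
      · have hlM : (l : ℤ) ∣ M := by
          have : (l : ℤ) ∣ (M.natAbs : ℤ) := by exact_mod_cast h'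
          exact Int.dvd_natAbs.1 this
        have hla1 : (l : ℤ) ∣ a - 1 := dvd_trans hlM ha
        have h2 : (l : ℤ) ∣ 2 := by
          have : (2 : ℤ) = ((π : ℤ) + a) - (a - 1) - ((π : ℤ) - 1) := by ring
          rw [this]; exact dvd_sub (dvd_sub hlπa hla1) hlπ1
        have h3 : l ∣ 2 := by exact_mod_cast h2
        have := (Nat.prime_dvd_prime_iff_eq hl Nat.prime_two).1 h3
        exact hl2 this
      · -- `l = π_c`
        have hlπc : l = πc := (Nat.prime_dvd_prime_iff_eq hl hπc).1 h'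
        have h2 : (l : ℤ) ∣ a + 1 := by
          have : a + 1 = ((π : ℤ) + a) - ((π : ℤ) - 1) := by ring
          rw [this]; exact dvd_sub hlπa hlπ1
        have h3 : l ∣ (a + 1).natAbs := by
          have : (l : ℤ) ∣ ((a + 1).natAbs : ℤ) := Int.dvd_natAbs.2 h2
          exact_mod_cast this
        have h4 := Nat.le_of_dvd (Nat.pos_of_ne_zero (Int.natAbs_ne_zero.2 ha1)) h3
        have h5 : (a + 1).natAbs ≤ a.natAbs + 1 := by
          have := Int.natAbs_add_le a 1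
          simpa using this
        omega
  -- third prime
  have hk2 : IsCoprime (k : ℤ) 2 := by
    have hp : Prime (2 : ℤ) := Int.prime_two
    refine (IsCoprime.symm ((hp.coprime_iff_not_dvd).2 ?_))
    intro h
    have : 2 ∣ k := by exact_mod_cast h
    omega
  have hk4R : IsCoprime (4 * R) (k : ℤ) := by
    have h4 : IsCoprime (k : ℤ) 4 := by
      have : (4 : ℤ) = 2 * 2 := by norm_num
      rw [this]; exact hk2.mul_right hk2
    exact (h4.mul_right hkR).symm
  obtain ⟨u, v, huv⟩ := hk4R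
  -- u * (4R) + v * k = 1
  set r' : ℤ := r * (v * k) + (-1) * (u * (4 * R)) with hr'
  have hr'1 : 4 * R ∣ r' - r := by
    refine ⟨-r * u - u, ?_⟩
    have : v * (k : ℤ) = 1 - u * (4 * R) := by linarith
    rw [hr', this]; ring
  have hr'2 : (k : ℤ) ∣ r' + 1 := by
    refine ⟨r * v + v, ?_⟩
    have : u * (4 * R) = 1 - v * (k : ℤ) := by linarith
    rw [hr', this]; ring
  have hkpos : 0 < k := by omega
  have hmod0 : ((4 * R).natAbs * k) ≠ 0 := by
    exact Nat.mul_ne_zero h4R0 (by omega)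
  have hmodcast : (((4 * R).natAbs * k : ℕ) : ℤ) = 4 * R * k := by
    rw [Nat.cast_mul, h4Rcast]
  have hr'cop : IsCoprime r' (4 * R * k) := by
    have h1 : IsCoprime r' (4 * R) := by
      obtain ⟨t, ht⟩ := hr'1
      have : r' = r + 4 * R * t := by linarith
      rw [this]; exact hr3.add_mul_left_left _
    have h2 : IsCoprime r' (k : ℤ) := by
      obtain ⟨t, ht⟩ := hr'2
      have : r' = -1 + k * t := by linarith
      rw [this]
      have : IsCoprime (-1 : ℤ) (k : ℤ) := (isCoprime_one_left).neg_left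
      exact this.add_mul_left_left _
    exact h1.mul_right h2
  obtain ⟨π', hπ'B, hπ', hπ'mod⟩ := Nat.forall_exists_prime_gt_and_zmodEq (q + 4) hmod0
    (by rw [hmodcast]; exact hr'cop)
  rw [hmodcast] at hπ'mod
  have hπ'r : 4 * R * k ∣ r' - π' := hπ'mod.dvd
  have h4Rπ' : 4 * R ∣ r - π' := by
    have h1 : 4 * R ∣ r' - π' := dvd_trans (Dvd.intro _ rfl) hπ'r
    have : r - (π' : ℤ) = (r' - π') - (r' - r) := by ring
    rw [this]; exact dvd_sub h1 hr'1
  have hRπ' : R ∣ (π' : ℤ) + a := by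
    have h1 : R ∣ r - π' := dvd_trans (Dvd.intro_left 4 rfl) h4Rπ'
    have : (π' : ℤ) + a = (r + a) - (r - π') := by ring
    rw [this]; exact dvd_sub hr1 h1
  have h4π' : (4 : ℤ) ∣ (π' : ℤ) - 3 := by
    have h1 : (4 : ℤ) ∣ r - π' := dvd_trans (Dvd.intro _ rfl) h4Rπ'
    have : (π' : ℤ) - 3 = (r - 3) - (r - π') := by ring
    rw [this]; exact dvd_sub hr2 h1
  have hπ'4 : π' % 4 = 3 := by
    obtain ⟨t, ht⟩ := h4π'
    omega
  have hkπ' : (k : ℤ) ∣ (π' : ℤ) + 1 := by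
    have h1 : (k : ℤ) ∣ r' - π' := dvd_trans (Dvd.intro_left _ rfl) hπ'r
    have : (π' : ℤ) + 1 = (r' + 1) - (r' - π') := by ring
    rw [this]; exact dvd_sub hr'2 h1
  set k' : ℕ := (π' - 1) / 2 with hk'
  have hπ'1 : (π' : ℤ) - 1 = 2 * (k' : ℤ) := by
    have : 1 ≤ π' := hπ'.one_lt.le
    omega
  have hkk' : Nat.Coprime k k' := by
    apply Nat.coprime_of_dvd
    intro l hl hlk hlk'
    have hl2 : l ≠ 2 := by
      rintro rfl
      omega
    have h1 : (l : ℤ) ∣ (π' : ℤ) - 1 := by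
      rw [hπ'1]; exact Dvd.dvd.mul_left (by exact_mod_cast hlk') _
    have h2 : (l : ℤ) ∣ (π' : ℤ) + 1 := dvd_trans (by exact_mod_cast hlk) hkπ'
    have h3 : (l : ℤ) ∣ 2 := by
      have : (2 : ℤ) = ((π' : ℤ) + 1) - ((π' : ℤ) - 1) := by ring
      rw [this]; exact dvd_sub h2 h1
    have h4 : l ∣ 2 := by exact_mod_cast h3
    exact hl2 ((Nat.prime_dvd_prime_iff_eq hl Nat.prime_two).1 h4)
  -- the moves `x`, `x'`
  obtain ⟨t, ht⟩ := hRπ
  obtain ⟨t', ht'⟩ := hRπ'
  refine ⟨y, M * (-t), M * (-t'), π, π', hMy, Dvd.intro _ rfl, Dvd.intro _ rfl, hπ, hπ', ?_, ?_,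
    ?_, ?_, hkk', ?_, ?_⟩
  · omega
  · omega
  · omega
  · omega
  · have : (π : ℤ) = M * c' * t - a := by rw [← hR]; linarith
    rw [this]; ring
  · have : (π' : ℤ) = M * c' * t' - a := by rw [← hR]; linarith
    rw [this]; ring

end Fermat.Agent.LR
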