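import Fermat.Agent.LR.CSP.SerreCore
import Fermat.Agent.LR.CSP.SerreArith

/-!
# [X-L2]: `D(q)`-invariance of parabolic homs (Serre's trick)
-/

set_option autoImplicit false

universe u

namespace Fermat.Agent.LR

theorem csp_Dj_zero {q : ℕ} (hq : q ≠ 0) : csp_Dj q hq 0 = 1 := by
  ext <;> simp [csp_Dj]

theorem csp_l2 (hN : csp_Norm_stmt.{u}) : csp_L2_stmt.{u} := by
  intro q M hq hM hMq hOK V _ Ψ hΨ g hg
  have hD : csp_Dq q hq.ne_zero ∈ csp_GamA q := by
    rw [← csp_Dj_one]; exact csp_Dj_memA _ 1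
  have hΨ1 : csp_IsPar q M
      (fun g => Ψ (csp_Dq q hq.ne_zero * g * (csp_Dq q hq.ne_zero)⁻¹)) := hΨ.conjA hD
  have hΔ := hΨ1.sub hΨ
  have key := hN q M hq (by omega) hMq _ hΔ ?_ g hg
  · exact sub_eq_zero.1 key
  · intro a b c d hdet hmem
    have ha : M ∣ a - 1 := by
      apply csp_I_int_dvd hMq
      have := hmem.1
      simpa using this
    have hc : M ∣ c := csp_I_int_dvd hMq hmem.2.2.1
    have hac : IsCoprime a c := ⟨d, -b, by linarith⟩
    obtain ⟨y, x, x', π, π', hy, hx, hx', hπ, hπ', hπq, hπ'q, hodd, hodd', hcop, hcol, hcol'⟩ :=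
      csp_sa_main q M a c hM hOK ha hc hac
    have P1 := csp_period_pi hq hΨ a b c d hdet hmem x y hx hy π hπ hπq hodd hcol hc
    have P2 := csp_period_pi hq hΨ a b c d hdet hmem x' y hx' hy π' hπ' hπ'q hodd' hcol' hc
    have h10 := csp_two_periods (csp_F q hq.ne_zero Ψ (csp_ofInt a b c d hdet)) _ _ hcop P1 P2
    unfold csp_F at h10
    rw [csp_Dj_one, csp_Dj_zero] at h10
    simp only [one_mul, inv_one, mul_one] at h10
    show Ψ (csp_Dq q hq.ne_zero * csp_ofInt a b c d hdet * (csp_Dq q hq.ne_zero)⁻¹) -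
      Ψ (csp_ofInt a b c d hdet) = 0
    rw [h10, sub_self]

/-- Closed form of [X-L2]. -/
theorem csp_l2_closed : csp_L2_stmt.{u} := csp_l2 csp_norm

end Fermat.Agent.LR
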