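import Fermat.Agent.LR.CSP.Norm

/-!
# [X-L2] core: periods of `j ↦ Ψ(D(q)^j g D(q)^{-j})`
-/

set_option autoImplicit false

universe u

namespace Fermat.Agent.LR

/-- The torus element `D(q^j)`, `j : ℤ`. -/
def csp_Dj (q : ℕ) (hq : q ≠ 0) (j : ℤ) : CspM :=
  csp_D ((q : ℚ) ^ j) (zpow_ne_zero _ (by exact_mod_cast hq))

theorem csp_Dj_memA {q : ℕ} (hq : q ≠ 0) (j : ℤ) : csp_Dj q hq j ∈ csp_GamA q :=
  csp_D_memA hq j

theorem csp_Dj_add {q : ℕ} (hq : q ≠ 0) (j k : ℤ) :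
    csp_Dj q hq (j + k) = csp_Dj q hq j * csp_Dj q hq k := by
  have hq0 : (q : ℚ) ≠ 0 := by exact_mod_cast hq
  ext
  · simp [csp_Dj, zpow_add₀ hq0]
  · simp [csp_Dj]
  · simp [csp_Dj]
  · simp [csp_Dj, zpow_add₀ hq0, mul_comm]

theorem csp_Dj_one {q : ℕ} (hq : q ≠ 0) : csp_Dj q hq 1 = csp_Dq q hq := by
  ext <;> simp [csp_Dj, csp_Dq]

/-- Conjugation by `D(t)`: entries. -/
theorem csp_D_conj (t : ℚ) (ht : t ≠ 0) (g : CspM) :
    (csp_D t ht * g * (csp_D t ht)⁻¹).a = g.a ∧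
    (csp_D t ht * g * (csp_D t ht)⁻¹).b = t ^ 2 * g.b ∧
    (csp_D t ht * g * (csp_D t ht)⁻¹).c = g.c * (t ^ 2)⁻¹ ∧
    (csp_D t ht * g * (csp_D t ht)⁻¹).d = g.d := by
  refine ⟨?_, ?_, ?_, ?_⟩ <;> simp <;> field_simp

/-- The function `j ↦ Ψ(D(q)^j g D(q)^{-j})`. -/
def csp_F {V : Type u} (q : ℕ) (hq : q ≠ 0) (Ψ : CspM → V) (g : CspM) (j : ℤ) : V :=
  Ψ (csp_Dj q hq j * g * (csp_Dj q hq j)⁻¹)

theorem csp_F_add {V : Type u} {q : ℕ} (hq : q ≠ 0) (Ψ : CspM → V) (g : CspM) (j k : ℤ) :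
    csp_F q hq Ψ g (j + k) = csp_F q hq Ψ (csp_Dj q hq k * g * (csp_Dj q hq k)⁻¹) j := by
  unfold csp_F
  rw [csp_Dj_add]
  congr 1
  group

/-- A function on `ℤ` with two coprime periods is constant. -/
theorem csp_two_periods {V : Type u} (f : ℤ → V) (k e : ℕ) (hke : Nat.Coprime k e)
    (hk : ∀ j, f (j + k) = f j) (he : ∀ j, f (j + e) = f j) : f 1 = f 0 := by
  have hk' : ∀ (n : ℤ) (j : ℤ), f (j + n * k) = f j := by
    intro n
    induction n using Int.induction_on with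
    | zero => intro j; simp
    | succ n ih =>
      intro j
      have : j + ((n : ℤ) + 1) * k = (j + n * k) + k := by ring
      rw [this, hk, ih]
    | pred n ih =>
      intro j
      have h1 := hk (j + (-(n : ℤ) - 1) * k)
      have : j + (-(n : ℤ) - 1) * k + k = j + (-(n : ℤ)) * k := by ring
      rw [this] at h1
      rw [← h1, ih]
  have he' : ∀ (n : ℤ) (j : ℤ), f (j + n * e) = f j := by
    intro n
    induction n using Int.induction_on with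
    | zero => intro j; simp
    | succ n ih =>
      intro j
      have : j + ((n : ℤ) + 1) * e = (j + n * e) + e := by ring
      rw [this, he, ih]
    | pred n ih =>
      intro j
      have h1 := he (j + (-(n : ℤ) - 1) * e)
      have : j + (-(n : ℤ) - 1) * e + e = j + (-(n : ℤ)) * e := by ring
      rw [this] at h1
      rw [← h1, ih]
  have hb := Nat.gcd_eq_gcd_ab k e
  rw [hke] at hb
  have : (1 : ℤ) = 0 + (Nat.gcdA k e) * k + (Nat.gcdB k e) * e := by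
    push_cast at hb; linarith
  rw [this, he', hk']

section periods

variable {q : ℕ} {M : ℤ} {V : Type u} [AddCommGroup V] {Ψ : CspM → V}

/-- Each `Ψ ∘ Ad D(q)^j` is parabolic of the same level. -/
theorem csp_Fpar (hq : q ≠ 0) (hΨ : csp_IsPar q M Ψ) (j : ℤ) :
    csp_IsPar q M (fun g => csp_F q hq Ψ g j) :=
  hΨ.conjA (csp_Dj_memA hq j)

/-- Period `e` when `q^e ≡ 1 mod M`. -/
theorem csp_period_e (hq : q ≠ 0) (hΨ : csp_IsPar q M Ψ) {g : CspM} (hg : g ∈ csp_Gam q M)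
    (e : ℕ) (he : M ∣ (q : ℤ) ^ e - 1) (j : ℤ) :
    csp_F q hq Ψ g (j + e) = csp_F q hq Ψ g j := by
  have hq0 : (q : ℚ) ≠ 0 := by exact_mod_cast hq
  have hDe : csp_Dj q hq e ∈ csp_Gam q M := by
    have h1 : (((q : ℤ) ^ e - 1 : ℤ) : ℚ) ∈ csp_I q M := csp_I_of_int he
    push_cast at h1
    refine ⟨?_, ?_, ?_, ?_⟩
    · simpa [csp_Dj] using h1
    · simp [csp_Dj, zero_mem]
    · simp [csp_Dj, zero_mem]
    · have h2 : ((q : ℚ) ^ e)⁻¹ ∈ csp_A q := by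
        rw [← inv_pow]; exact Subring.pow_mem _ (csp_A_qinv hq) e
      have h3 := csp_I_mul_left h2 (neg_mem h1)
      have h4 : ((q : ℚ) ^ e)⁻¹ * -((q : ℚ) ^ e - 1) = ((q : ℚ) ^ e)⁻¹ - 1 := by
        have : (q : ℚ) ^ e ≠ 0 := pow_ne_zero _ hq0
        field_simp
        ring
      rw [h4] at h3
      simpa [csp_Dj] using h3
  have hconj : csp_Dj q hq j * g * (csp_Dj q hq j)⁻¹ ∈ csp_Gam q M :=
    csp_Gam_conj (csp_Dj_memA hq j) hg
  have : csp_F q hq Ψ g (j + e) =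
      Ψ (csp_Dj q hq e * (csp_Dj q hq j * g * (csp_Dj q hq j)⁻¹) * (csp_Dj q hq e)⁻¹) := by
    unfold csp_F
    rw [add_comm, csp_Dj_add]
    congr 1
    group
  rw [this, hΨ.map_mul _ _ (mul_mem hDe hconj) (inv_mem hDe), hΨ.map_mul _ _ hDe hconj,
    hΨ.map_inv hDe]
  unfold csp_F
  abel

/-- Period `(π-1)/2` for an integral matrix whose class is represented by a column `(-π; c')`. -/
theorem csp_period_pi (hq : q.Prime) (hΨ : csp_IsPar q M Ψ)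
    (a b c d : ℤ) (hdet : a * d - b * c = 1) (hg : csp_ofInt a b c d hdet ∈ csp_Gam q M)
    (x y : ℤ) (hx : M ∣ x) (hy : M ∣ y) (π : ℕ) (hπ : π.Prime) (hπq : π ≠ q) (hπodd : π % 2 = 1)
    (hcol : a + x * (c + y * a) = -(π : ℤ)) (hMc : M ∣ c) (j : ℤ) :
    csp_F q hq.ne_zero Ψ (csp_ofInt a b c d hdet) (j + ((π - 1) / 2 : ℕ)) =
      csp_F q hq.ne_zero Ψ (csp_ofInt a b c d hdet) j := by
  have hq0 : (q : ℚ) ≠ 0 := by exact_mod_cast hq.ne_zero
  set g := csp_ofInt a b c d hdet with hgdef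
  set k : ℕ := (π - 1) / 2 with hk
  have h2k : 2 * k = π - 1 := by omega
  -- the moves
  have hyI : ((y : ℤ) : ℚ) ∈ csp_I q M := csp_I_of_int hy
  have hxI : ((x : ℤ) : ℚ) ∈ csp_I q M := csp_I_of_int hx
  set g1 : CspM := csp_e21 (y : ℚ) * g with hg1
  have hg1m : g1 ∈ csp_Gam q M := mul_mem (csp_e21_mem hyI) hg
  set g2 : CspM := csp_e12 (x : ℚ) * g1 with hg2
  have hg2m : g2 ∈ csp_Gam q M := mul_mem (csp_e12_mem hxI) hg1m
  have hmove : ∀ i : ℤ, csp_F q hq.ne_zero Ψ g2 i = csp_F q hq.ne_zero Ψ g i := by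
    intro i
    have hP := csp_Fpar hq.ne_zero hΨ i
    have h1 : csp_F q hq.ne_zero Ψ g1 i = csp_F q hq.ne_zero Ψ g i := hP.e21_mul hyI hg
    have h2 : csp_F q hq.ne_zero Ψ g2 i = csp_F q hq.ne_zero Ψ g1 i := hP.e12_mul hxI hg1m
    rw [h2, h1]
  have hg2a : g2.a = -(π : ℚ) := by
    have h1 : g2.a = (a : ℚ) + (x : ℚ) * ((c : ℚ) + (y : ℚ) * (a : ℚ)) := by
      simp only [hg2, hg1, hgdef, CspM.mul_a, CspM.mul_c, csp_e12_a, csp_e12_b, csp_e21_a,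
        csp_e21_b, csp_e21_c, csp_e21_d, csp_ofInt_a, csp_ofInt_c]
      ring
    have h2 : ((a + x * (c + y * a) : ℤ) : ℚ) = ((-(π : ℤ) : ℤ) : ℚ) := by rw [hcol]
    push_cast at h2
    rw [h1, h2]
  set c' : ℤ := c + y * a with hc'
  have hg2c : g2.c = (c' : ℚ) := by
    simp only [hg2, hg1, hgdef, CspM.mul_c, CspM.mul_a, csp_e12_c, csp_e12_d, csp_e21_a,
      csp_e21_b, csp_e21_c, csp_e21_d, csp_ofInt_a, csp_ofInt_c, hc']
    push_cast
    ring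
  have hMc' : M ∣ c' := by
    rw [hc']; exact dvd_add hMc (Dvd.dvd.mul_right hy _)
  -- Fermat
  have hcopq : IsCoprime (q : ℤ) (π : ℤ) := by
    rw [Int.isCoprime_iff_gcd_eq_one, Int.gcd_natCast_natCast]
    exact (Nat.coprime_primes hq hπ).2 (Ne.symm hπq)
  have hferm := Int.ModEq.pow_card_sub_one_eq_one hπ hcopq
  rw [← h2k] at hferm
  obtain ⟨z, hz⟩ : (π : ℤ) ∣ (q : ℤ) ^ (2 * k) - 1 := by
    have := hferm.symm.dvd
    simpa using this
  -- the key element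
  set Dk := csp_Dj q hq.ne_zero k with hDk
  have hDkA : Dk ∈ csp_GamA q := csp_Dj_memA hq.ne_zero k
  set y' : ℚ := (c' : ℚ) * (z : ℚ) * ((q : ℚ) ^ (2 * k))⁻¹ with hy'
  have hy'I : y' ∈ csp_I q M := by
    rw [hy']
    have h1 : ((c' : ℤ) : ℚ) ∈ csp_I q M := csp_I_of_int hMc'
    have h2 : ((q : ℚ) ^ (2 * k))⁻¹ ∈ csp_A q := by
      rw [← inv_pow]; exact Subring.pow_mem _ (csp_A_qinv hq.ne_zero) _
    exact csp_I_mul_right (csp_I_mul_right h1 (csp_A_int q z)) h2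
  have hconj2 : Dk * g2 * Dk⁻¹ ∈ csp_Gam q M := csp_Gam_conj hDkA hg2m
  have hkey : ∀ i : ℤ, csp_F q hq.ne_zero Ψ (Dk * g2 * Dk⁻¹) i = csp_F q hq.ne_zero Ψ g2 i := by
    intro i
    have hP := csp_Fpar hq.ne_zero hΨ i
    have h1 : csp_F q hq.ne_zero Ψ (csp_e21 y' * g2) i = csp_F q hq.ne_zero Ψ g2 i :=
      hP.e21_mul hy'I hg2m
    rw [← h1]
    refine hP.col hconj2 (mul_mem (csp_e21_mem hy'I) hg2m) ?_ ?_
    · have := (csp_D_conj ((q : ℚ) ^ (k : ℤ)) (zpow_ne_zero _ hq0) g2).1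
      simp only [hDk, csp_Dj]
      rw [this]; simp
    · have := (csp_D_conj ((q : ℚ) ^ (k : ℤ)) (zpow_ne_zero _ hq0) g2).2.2.1
      simp only [hDk, csp_Dj]
      rw [this, hg2c]
      simp only [CspM.mul_c, csp_e21_c, csp_e21_d, hg2a, hg2c, hy', one_mul]
      have hzq : ((q : ℚ) ^ (2 * k)) - 1 = (π : ℚ) * (z : ℚ) := by exact_mod_cast hz
      have hqk : (q : ℚ) ^ (2 * k) ≠ 0 := pow_ne_zero _ hq0
      have hqk2 : ((q : ℚ) ^ (k : ℤ)) ^ 2 = (q : ℚ) ^ (2 * k) := by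
        rw [zpow_natCast, ← pow_mul, mul_comm]
      rw [hqk2]
      field_simp
      linear_combination (-(c' : ℚ)) * hzq
  -- assemble
  calc csp_F q hq.ne_zero Ψ g (j + (k : ℕ))
      = csp_F q hq.ne_zero Ψ g2 (j + (k : ℕ)) := (hmove _).symm
    _ = csp_F q hq.ne_zero Ψ (Dk * g2 * Dk⁻¹) j := csp_F_add hq.ne_zero Ψ g2 j k
    _ = csp_F q hq.ne_zero Ψ g2 j := hkey j
    _ = csp_F q hq.ne_zero Ψ g j := hmove j

end periods

end Fermat.Agent.LR
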